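/-
P-S56 (Taylor–Wiles primes), block (D) GROUP THEORY, file D1 (helper19).

Conventions of block (D) and the elementary calculus of 1-cocycles with values in
`ad⁰(1) = sl₂ ⊗ det`, in explicit matrix form (no cohomology library):

* `adTwMat g X = det g • (g X g⁻¹)` for `g : GL (Fin 2) k`: the adjoint action twisted by `det`;
* for `r : G →* GL (Fin 2) k`: `IsCocycle r ψ`, `IsCoboundary r ψ` for functions
  `ψ : G → Matrix (Fin 2) (Fin 2) k` (the trace-zero condition is carried separately);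
* `IsCocycle.map_one`, `map_inv`, `map_conj`, `sub_coboundary`, restriction to subgroups;
* **averaging lemma** `isCoboundary_of_restrict`: if `H ≤ G` has finite index invertible in `k`
  and `ψ|_H` is a coboundary then `ψ` is a coboundary (injectivity of restriction to a Sylow
  subgroup);
* transport of cocycles/coboundaries along conjugation by `g₀ : GL (Fin 2) k`.
-/
import Mathlib

set_option autoImplicit false
set_option linter.style.haveILetI false

open Matrix

namespace Fermat.Agent.S56x.Group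

variable {k : Type*} [Field k]



/-- The adjoint action twisted by the determinant: `X ↦ det g • g X g⁻¹`. -/
def adTwMat (g : GL (Fin 2) k) (X : Matrix (Fin 2) (Fin 2) k) : Matrix (Fin 2) (Fin 2) k :=
  ((Matrix.GeneralLinearGroup.det g : kˣ) : k) •
    ((g : Matrix (Fin 2) (Fin 2) k) * X * ((g⁻¹ : GL (Fin 2) k) : Matrix (Fin 2) (Fin 2) k))

@[simp] theorem adTwMat_one (X : Matrix (Fin 2) (Fin 2) k) : adTwMat (1 : GL (Fin 2) k) X = X := by
  simp [adTwMat]

theorem adTwMat_mul (g h : GL (Fin 2) k) (X : Matrix (Fin 2) (Fin 2) k) :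
    adTwMat (g * h) X = adTwMat g (adTwMat h X) := by
  simp only [adTwMat, map_mul, Units.val_mul, _root_.mul_inv_rev, Matrix.mul_smul, Matrix.smul_mul,
    smul_smul, Matrix.mul_assoc]

@[simp] theorem adTwMat_zero (g : GL (Fin 2) k) : adTwMat g (0 : Matrix (Fin 2) (Fin 2) k) = 0 := by
  simp [adTwMat]

theorem adTwMat_add (g : GL (Fin 2) k) (X Y : Matrix (Fin 2) (Fin 2) k) :
    adTwMat g (X + Y) = adTwMat g X + adTwMat g Y := by
  simp [adTwMat, Matrix.mul_add, Matrix.add_mul]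

theorem adTwMat_neg (g : GL (Fin 2) k) (X : Matrix (Fin 2) (Fin 2) k) : adTwMat g (-X) = -adTwMat g X := by
  simp [adTwMat]

theorem adTwMat_sub (g : GL (Fin 2) k) (X Y : Matrix (Fin 2) (Fin 2) k) :
    adTwMat g (X - Y) = adTwMat g X - adTwMat g Y := by
  simp [adTwMat, Matrix.mul_sub, Matrix.sub_mul, smul_sub]

theorem adTwMat_smul (g : GL (Fin 2) k) (c : k) (X : Matrix (Fin 2) (Fin 2) k) :
    adTwMat g (c • X) = c • adTwMat g X := by
  simp [adTwMat, smul_smul, mul_comm]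

theorem adTwMat_sum {ι : Type*} (s : Finset ι) (g : GL (Fin 2) k) (f : ι → Matrix (Fin 2) (Fin 2) k) :
    adTwMat g (∑ i ∈ s, f i) = ∑ i ∈ s, adTwMat g (f i) := by
  classical
  induction s using Finset.induction_on with
  | empty => simp
  | insert a s ha ih => rw [Finset.sum_insert ha, Finset.sum_insert ha, adTwMat_add, ih]

theorem adTwMat_inv_cancel (g : GL (Fin 2) k) (X : Matrix (Fin 2) (Fin 2) k) : adTwMat g⁻¹ (adTwMat g X) = X := by
  rw [← adTwMat_mul, inv_mul_cancel, adTwMat_one]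

theorem adTwMat_cancel_inv (g : GL (Fin 2) k) (X : Matrix (Fin 2) (Fin 2) k) : adTwMat g (adTwMat g⁻¹ X) = X := by
  rw [← adTwMat_mul, mul_inv_cancel, adTwMat_one]

theorem trace_adTwMat (g : GL (Fin 2) k) (X : Matrix (Fin 2) (Fin 2) k) :
    (adTwMat g X).trace = ((Matrix.GeneralLinearGroup.det g : kˣ) : k) * X.trace := by
  rw [adTwMat, Matrix.trace_smul, smul_eq_mul, Matrix.trace_mul_cycle, ← Units.val_mul,
    inv_mul_cancel, Units.val_one, Matrix.one_mul]

theorem trace_adTwMat_eq_zero (g : GL (Fin 2) k) {X : Matrix (Fin 2) (Fin 2) k} (hX : X.trace = 0) :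
    (adTwMat g X).trace = 0 := by
  rw [trace_adTwMat, hX, mul_zero]

/-- the twisted adjoint action as a linear map -/
def adTw (g : GL (Fin 2) k) : Matrix (Fin 2) (Fin 2) k →ₗ[k] Matrix (Fin 2) (Fin 2) k where
  toFun := adTwMat g
  map_add' := adTwMat_add g
  map_smul' := fun c X => by simpa using adTwMat_smul g c X

@[simp] theorem adTw_apply (g : GL (Fin 2) k) (X : Matrix (Fin 2) (Fin 2) k) : adTw g X = adTwMat g X := rfl

section cocycle

variable {G : Type*} [Group G]

/-- `ψ` is a 1-cocycle of `G` with values in matrices with the twisted adjoint action. -/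
def IsCocycle (r : G →* GL (Fin 2) k) (ψ : G → Matrix (Fin 2) (Fin 2) k) : Prop :=
  ∀ g h : G, ψ (g * h) = ψ g + adTwMat (r g) (ψ h)

/-- `ψ` is the coboundary of a trace-zero matrix. -/
def IsCoboundary (r : G →* GL (Fin 2) k) (ψ : G → Matrix (Fin 2) (Fin 2) k) : Prop :=
  ∃ m : Matrix (Fin 2) (Fin 2) k, m.trace = 0 ∧ ∀ g : G, ψ g = adTwMat (r g) m - m

variable {r : G →* GL (Fin 2) k} {ψ : G → Matrix (Fin 2) (Fin 2) k}

theorem IsCocycle.map_one (h : IsCocycle r ψ) : ψ 1 = 0 := by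
  have := h 1 1
  rw [mul_one, _root_.map_one, adTwMat_one] at this
  exact left_eq_add.mp this

theorem IsCocycle.map_inv (h : IsCocycle r ψ) (g : G) :
    ψ g⁻¹ = -adTwMat (r g⁻¹) (ψ g) := by
  have := h g⁻¹ g
  rw [inv_mul_cancel, h.map_one] at this
  exact eq_neg_of_add_eq_zero_left this.symm

/-- the cocycle relation for a conjugate. -/
theorem IsCocycle.map_conj (h : IsCocycle r ψ) (g x : G) :
    ψ (g * x * g⁻¹) = adTwMat (r g) (ψ x) + ψ g - adTwMat (r (g * x * g⁻¹)) (ψ g) := by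
  rw [h (g * x) g⁻¹, h g x, h.map_inv g, adTwMat_neg, ← adTwMat_mul, ← map_mul]
  abel

theorem isCocycle_coboundary (r : G →* GL (Fin 2) k) (m : Matrix (Fin 2) (Fin 2) k) :
    IsCocycle r (fun g => adTwMat (r g) m - m) := by
  intro g h
  simp only [map_mul, adTwMat_mul, adTwMat_sub]
  abel

theorem IsCocycle.sub (h : IsCocycle r ψ) {ψ' : G → Matrix (Fin 2) (Fin 2) k} (h' : IsCocycle r ψ') :
    IsCocycle r (fun g => ψ g - ψ' g) := by
  intro g x
  simp only [h g x, h' g x, adTwMat_sub]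
  abel

theorem IsCocycle.sub_coboundary (h : IsCocycle r ψ) (m : Matrix (Fin 2) (Fin 2) k) :
    IsCocycle r (fun g => ψ g - (adTwMat (r g) m - m)) :=
  h.sub (isCocycle_coboundary r m)

theorem IsCocycle.restrict (h : IsCocycle r ψ) (H : Subgroup G) :
    IsCocycle (r.comp H.subtype) (fun x : H => ψ x) := by
  intro g x
  exact h g x

/-- A cocycle vanishing on a subgroup `H` is constant on left cosets of `H`. -/
theorem IsCocycle.mul_right_of_vanish (h : IsCocycle r ψ) {H : Subgroup G}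
    (hH : ∀ x ∈ H, ψ x = 0) (g : G) {x : G} (hx : x ∈ H) : ψ (g * x) = ψ g := by
  rw [h g x, hH x hx, adTwMat_zero, add_zero]

/-- **Averaging lemma.** If `H ≤ G` has finite index invertible in `k` and a cocycle `ψ` (with
trace-zero values) restricts to a coboundary on `H`, then `ψ` is a coboundary. -/
theorem isCoboundary_of_restrict (h : IsCocycle r ψ) (htr : ∀ g, (ψ g).trace = 0)
    (H : Subgroup G) [H.FiniteIndex] (hidx : ((H.index : ℕ) : k) ≠ 0)
    (hH : IsCoboundary (r.comp H.subtype) (fun x : H => ψ x)) : IsCoboundary r ψ := by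
  classical
  obtain ⟨m, hm, hψm⟩ := hH
  -- the modified cocycle vanishes on `H`
  set ψ' : G → Matrix (Fin 2) (Fin 2) k := fun g => ψ g - (adTwMat (r g) m - m) with hψ'
  have hc' : IsCocycle r ψ' := h.sub_coboundary m
  have hvan : ∀ x ∈ H, ψ' x = 0 := by
    intro x hx
    have := hψm ⟨x, hx⟩
    simp only [MonoidHom.coe_comp, Subgroup.coe_subtype, Function.comp_apply] at this
    simp only [hψ', this, sub_self]
  have htr' : ∀ g, (ψ' g).trace = 0 := by
    intro g
    simp only [hψ', Matrix.trace_sub, htr g, trace_adTwMat_eq_zero (r g) hm, hm, sub_self]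
  letI : Fintype (G ⧸ H) := Subgroup.fintypeQuotientOfFiniteIndex
  -- constant on cosets
  have hconst : ∀ g₁ g₂ : G, (QuotientGroup.mk g₁ : G ⧸ H) = QuotientGroup.mk g₂ →
      ψ' g₁ = ψ' g₂ := by
    intro g₁ g₂ h12
    have hx : g₁⁻¹ * g₂ ∈ H := QuotientGroup.eq.mp h12
    have := hc'.mul_right_of_vanish hvan g₁ hx
    rw [mul_inv_cancel_left] at this
    exact this.symm
  set S : Matrix (Fin 2) (Fin 2) k := ∑ c : G ⧸ H, ψ' c.out with hS
  have hkey : ∀ g : G, adTwMat (r g) S = S - (H.index : k) • ψ' g := by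
    intro g
    rw [hS, adTwMat_sum]
    have h1 : ∀ c : G ⧸ H, adTwMat (r g) (ψ' c.out) = ψ' ((g • c).out) - ψ' g := by
      intro c
      have h2 := hc' g c.out
      have h3 : ψ' (g * c.out) = ψ' ((g • c).out) := by
        apply hconst
        rw [QuotientGroup.out_eq']
        conv_rhs => rw [← QuotientGroup.out_eq' c]
        rfl
      rw [← h3, h2]
      abel
    rw [Finset.sum_congr rfl (fun c _ => h1 c), Finset.sum_sub_distrib, Finset.sum_const,
      Finset.card_univ, ← Nat.card_eq_fintype_card, ← Subgroup.index_eq_card, Nat.cast_smul_eq_nsmul]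
    congr 1
    exact Fintype.sum_equiv (MulAction.toPerm g) _ _ (fun c => rfl)
  have hSt : S.trace = 0 := by
    rw [hS, Matrix.trace_sum]
    exact Finset.sum_eq_zero (fun c _ => htr' _)
  refine ⟨m - (H.index : k)⁻¹ • S, ?_, ?_⟩
  · rw [Matrix.trace_sub, Matrix.trace_smul, hm, hSt, smul_zero, sub_zero]
  · intro g
    have h4 : ψ' g = (H.index : k)⁻¹ • (S - adTwMat (r g) S) := by
      rw [hkey g, sub_sub_cancel, smul_smul, inv_mul_cancel₀ hidx, one_smul]
    have h5 : ψ g = ψ' g + (adTwMat (r g) m - m) := by simp only [hψ', sub_add_cancel]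
    rw [h5, h4, adTwMat_sub, adTwMat_smul, smul_sub]
    abel

end cocycle

section conj

variable {G : Type*} [Group G]

/-- conjugate of a representation by `g₀`. -/
def conjRep (g₀ : GL (Fin 2) k) (r : G →* GL (Fin 2) k) : G →* GL (Fin 2) k :=
  (MulAut.conj g₀⁻¹).toMonoidHom.comp r

@[simp] theorem conjRep_apply (g₀ : GL (Fin 2) k) (r : G →* GL (Fin 2) k) (g : G) :
    conjRep g₀ r g = g₀⁻¹ * r g * g₀ := by
  simp [conjRep]

/-- conjugate of a matrix-valued function by `g₀`. -/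
def conjFun (g₀ : GL (Fin 2) k) (ψ : G → Matrix (Fin 2) (Fin 2) k) :
    G → Matrix (Fin 2) (Fin 2) k :=
  fun g => ((g₀⁻¹ : GL (Fin 2) k) : Matrix (Fin 2) (Fin 2) k) * ψ g * (g₀ : Matrix (Fin 2) (Fin 2) k)

theorem adTwMat_conj (g₀ g : GL (Fin 2) k) (X : Matrix (Fin 2) (Fin 2) k) :
    adTwMat (g₀⁻¹ * g * g₀) (((g₀⁻¹ : GL (Fin 2) k) : Matrix (Fin 2) (Fin 2) k) * X *
        (g₀ : Matrix (Fin 2) (Fin 2) k))
      = ((g₀⁻¹ : GL (Fin 2) k) : Matrix (Fin 2) (Fin 2) k) * adTwMat g X *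
        (g₀ : Matrix (Fin 2) (Fin 2) k) := by
  have hdet : Matrix.GeneralLinearGroup.det (g₀⁻¹ * g * g₀) = Matrix.GeneralLinearGroup.det g := by
    rw [_root_.map_mul, _root_.map_mul, mul_comm, ← mul_assoc, _root_.map_inv, mul_inv_cancel,
      one_mul]
  have hinv : (g₀⁻¹ * g * g₀)⁻¹ = g₀⁻¹ * g⁻¹ * g₀ := by group
  have h1 : ∀ Y : Matrix (Fin 2) (Fin 2) k, (g₀ : Matrix (Fin 2) (Fin 2) k) *
      (((g₀⁻¹ : GL (Fin 2) k) : Matrix (Fin 2) (Fin 2) k) * Y) = Y := by
    intro Y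
    rw [← Matrix.mul_assoc, ← Units.val_mul, mul_inv_cancel, Units.val_one, Matrix.one_mul]
  simp only [adTwMat, hdet, hinv, Units.val_mul, Matrix.mul_smul, Matrix.smul_mul,
    Matrix.mul_assoc, h1]

theorem trace_conj (g₀ : GL (Fin 2) k) (X : Matrix (Fin 2) (Fin 2) k) :
    (((g₀⁻¹ : GL (Fin 2) k) : Matrix (Fin 2) (Fin 2) k) * X *
      (g₀ : Matrix (Fin 2) (Fin 2) k)).trace = X.trace := by
  rw [Matrix.trace_mul_cycle, ← Units.val_mul, mul_inv_cancel, Units.val_one, Matrix.one_mul]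

theorem IsCocycle.conj {r : G →* GL (Fin 2) k} {ψ : G → Matrix (Fin 2) (Fin 2) k}
    (h : IsCocycle r ψ) (g₀ : GL (Fin 2) k) : IsCocycle (conjRep g₀ r) (conjFun g₀ ψ) := by
  intro g x
  simp only [conjFun, conjRep_apply, adTwMat_conj, h g x, Matrix.mul_add, Matrix.add_mul]

theorem IsCoboundary.conj {r : G →* GL (Fin 2) k} {ψ : G → Matrix (Fin 2) (Fin 2) k}
    (h : IsCoboundary r ψ) (g₀ : GL (Fin 2) k) :
    IsCoboundary (conjRep g₀ r) (conjFun g₀ ψ) := by
  obtain ⟨m, hm, hψ⟩ := h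
  refine ⟨((g₀⁻¹ : GL (Fin 2) k) : Matrix (Fin 2) (Fin 2) k) * m *
    (g₀ : Matrix (Fin 2) (Fin 2) k), ?_, ?_⟩
  · rw [trace_conj, hm]
  · intro g
    simp only [conjFun, conjRep_apply, adTwMat_conj, hψ g, Matrix.mul_sub, Matrix.sub_mul]

theorem conjRep_inv_conjRep (g₀ : GL (Fin 2) k) (r : G →* GL (Fin 2) k) :
    conjRep g₀⁻¹ (conjRep g₀ r) = r := by
  ext g : 1
  simp only [conjRep_apply, inv_inv]
  group

omit [Group G] in
theorem conjFun_inv_conjFun (g₀ : GL (Fin 2) k) (ψ : G → Matrix (Fin 2) (Fin 2) k) :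
    conjFun g₀⁻¹ (conjFun g₀ ψ) = ψ := by
  funext g
  have h1 : (g₀ : Matrix (Fin 2) (Fin 2) k) *
      ((g₀⁻¹ : GL (Fin 2) k) : Matrix (Fin 2) (Fin 2) k) = 1 := by
    rw [← Units.val_mul, mul_inv_cancel, Units.val_one]
  simp only [conjFun, inv_inv, Matrix.mul_assoc, h1, Matrix.mul_one]
  rw [← Matrix.mul_assoc, h1, Matrix.one_mul]

/-- coboundaries can be detected after conjugation. -/
theorem IsCoboundary.of_conj {r : G →* GL (Fin 2) k} {ψ : G → Matrix (Fin 2) (Fin 2) k}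
    (g₀ : GL (Fin 2) k) (h : IsCoboundary (conjRep g₀ r) (conjFun g₀ ψ)) : IsCoboundary r ψ := by
  have := h.conj g₀⁻¹
  rwa [conjRep_inv_conjRep, conjFun_inv_conjFun] at this

omit [Group G] in
theorem trace_conjFun (g₀ : GL (Fin 2) k) {ψ : G → Matrix (Fin 2) (Fin 2) k}
    (h : ∀ g, (ψ g).trace = 0) (g : G) : (conjFun g₀ ψ g).trace = 0 := by
  rw [conjFun, trace_conj, h g]

end conj

end Fermat.Agent.S56x.Group
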