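/-
P-S56 (Taylor–Wiles primes), block (D) GROUP THEORY, file D5 (helper98).  Mathlib only.

The choice of `σ` in DDT Theorem 2.49 / Wiles' Lemma 1.12, in explicit `2 × 2` matrix form,
valid over every field of characteristic `≠ 2` (no Dickson classification, no finiteness):

* `exists_regular_trace_ne_zero` (core, `K` algebraically closed): if `Γ ≤ GL₂(K)` has no stable
  line then for every nonzero traceless `w` there is `σ ∈ Γ` with `disc σ = tr² - 4 det ≠ 0`
  (distinct eigenvalues) and `tr (w σ) ≠ 0`;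
* `exists_mem_regular_trace_ne_zero`: the same for `r : G →* GL₂(k)`, a subgroup `N ≤ G`, and the
  hypothesis `¬ StableLineOver K r N` (no stable line after extending scalars to `K`);
* `not_stableLineOn_of_cyclic_quotient`, `not_stableLineOver_of_cyclic_quotient`,
  `not_stableLineOver_ker_of_isCyclic` (Clifford-type lemma): `N ⊴ G` with cyclic quotient; no
  stable line on `G` and on the index-two subgroups containing `N` ⟹ no stable line on `N`;
* `ne_of_charpoly_eq`: `disc ≠ 0` and `charpoly = (X - α)(X - β)` ⟹ `α ≠ β`;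
* `ne_conj_sub_of_trace_ne_zero`: `tr (w σ) ≠ 0 ⟹ w ∉ (Ad σ - 1) M₂(k)`;
* `not_mem_or_add_not_mem`, `exists_add_not_mem`: the `τ`-step.
-/
import Mathlib

set_option autoImplicit false

namespace Fermat.Agent.S56x.Group.SigmaChoice

open Matrix

section Basic

variable {K : Type*} [Field K]

/-- The determinant of a pair of vectors of `K²`. -/
def cr (x y : Fin 2 → K) : K := x 0 * y 1 - x 1 * y 0

/-- The discriminant of the characteristic polynomial of a `2 × 2` matrix. -/
def disc (A : Matrix (Fin 2) (Fin 2) K) : K := A.trace ^ 2 - 4 * A.det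

/-- The traceless part of a `2 × 2` matrix (characteristic `≠ 2`). -/
def tl (A : Matrix (Fin 2) (Fin 2) K) : Matrix (Fin 2) (Fin 2) K := A - (A.trace / 2) • 1

lemma mulVec_two (A : Matrix (Fin 2) (Fin 2) K) (v : Fin 2 → K) (i : Fin 2) :
    (A *ᵥ v) i = A i 0 * v 0 + A i 1 * v 1 := by
  simp [Matrix.mulVec, dotProduct, Fin.sum_univ_two]

lemma mul_two (A B : Matrix (Fin 2) (Fin 2) K) (i j : Fin 2) :
    (A * B) i j = A i 0 * B 0 j + A i 1 * B 1 j := by
  simp [Matrix.mul_apply, Fin.sum_univ_two]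

lemma cr_mulVec (M : Matrix (Fin 2) (Fin 2) K) (x y : Fin 2 → K) :
    cr (M *ᵥ x) (M *ᵥ y) = M.det * cr x y := by
  simp only [cr, mulVec_two, Matrix.det_fin_two]
  ring

lemma cr_self (x : Fin 2 → K) : cr x x = 0 := by
  simp only [cr]; ring

lemma cr_smul_left (c : K) (x y : Fin 2 → K) : cr (c • x) y = c * cr x y := by
  simp only [cr, Pi.smul_apply, smul_eq_mul]; ring

lemma cr_smul_right (c : K) (x y : Fin 2 → K) : cr x (c • y) = c * cr x y := by
  simp only [cr, Pi.smul_apply, smul_eq_mul]; ring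

lemma cr_swap (x y : Fin 2 → K) : cr x y = - cr y x := by
  simp only [cr]; ring

/-- A vector with zero determinant against a nonzero vector is proportional to it. -/
lemma exists_smul_of_cr_eq_zero {x y : Fin 2 → K} (hy : y ≠ 0) (h : cr x y = 0) :
    ∃ c : K, x = c • y := by
  have h' : x 0 * y 1 = x 1 * y 0 := by
    have := h; simp only [cr] at this; linear_combination this
  by_cases h0 : y 0 = 0
  · have h1 : y 1 ≠ 0 := by
      intro h1; apply hy; funext i; fin_cases i <;> simpa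
    refine ⟨x 1 / y 1, ?_⟩
    funext i; fin_cases i
    · simp only [Fin.zero_eta, Pi.smul_apply, smul_eq_mul, h0, mul_zero]
      have : x 0 * y 1 = 0 := by rw [h', h0, mul_zero]
      rcases mul_eq_zero.mp this with h | h
      · exact h
      · exact absurd h h1
    · simp only [Fin.mk_one, Pi.smul_apply, smul_eq_mul]
      field_simp
  · refine ⟨x 0 / y 0, ?_⟩
    funext i; fin_cases i
    · simp only [Fin.zero_eta, Pi.smul_apply, smul_eq_mul]
      field_simp
    · simp only [Fin.mk_one, Pi.smul_apply, smul_eq_mul]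
      field_simp
      linear_combination -h'

/-- A matrix killing two independent vectors is zero. -/
lemma eq_zero_of_mulVec_eq_zero {M : Matrix (Fin 2) (Fin 2) K} {x y : Fin 2 → K}
    (hxy : cr x y ≠ 0) (hx : M *ᵥ x = 0) (hy : M *ᵥ y = 0) : M = 0 := by
  have hx' : ∀ i, M i 0 * x 0 + M i 1 * x 1 = 0 := fun i => by
    rw [← mulVec_two, hx]; rfl
  have hy' : ∀ i, M i 0 * y 0 + M i 1 * y 1 = 0 := fun i => by
    rw [← mulVec_two, hy]; rfl
  have hc : x 0 * y 1 - x 1 * y 0 ≠ 0 := hxy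
  have key0 : ∀ i, M i 0 = 0 := fun i => by
    have : M i 0 * (x 0 * y 1 - x 1 * y 0) = 0 := by
      linear_combination y 1 * hx' i - x 1 * hy' i
    exact (mul_eq_zero.mp this).resolve_right hc
  have key1 : ∀ i, M i 1 = 0 := fun i => by
    have : M i 1 * (x 0 * y 1 - x 1 * y 0) = 0 := by
      linear_combination x 0 * hy' i - y 0 * hx' i
    exact (mul_eq_zero.mp this).resolve_right hc
  ext i j
  fin_cases j
  · exact key0 i
  · exact key1 i

/-- entries of the traceless part -/
lemma tl_apply (A : Matrix (Fin 2) (Fin 2) K) (i j : Fin 2) :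
    tl A i j = A i j - (A 0 0 + A 1 1) / 2 * (if i = j then 1 else 0) := by
  simp [tl, Matrix.trace_fin_two, Matrix.one_apply]

lemma trace_tl (h2 : (2 : K) ≠ 0) (A : Matrix (Fin 2) (Fin 2) K) : (tl A).trace = 0 := by
  simp only [Matrix.trace_fin_two, tl_apply]
  simp
  field_simp
  ring

lemma tl_mul_tl (h2 : (2 : K) ≠ 0) (A : Matrix (Fin 2) (Fin 2) K) :
    tl A * tl A = (disc A / 4) • (1 : Matrix (Fin 2) (Fin 2) K) := by
  have h4 : (4 : K) ≠ 0 := by
    have : (4 : K) = 2 * 2 := by norm_num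
    rw [this]; exact mul_ne_zero h2 h2
  ext i j
  fin_cases i <;> fin_cases j <;>
    simp [mul_two, tl_apply, disc, Matrix.trace_fin_two, Matrix.det_fin_two] <;>
    field_simp <;> ring

lemma mul_self_of_trace_eq_zero {Y : Matrix (Fin 2) (Fin 2) K} (hY : Y.trace = 0) :
    Y * Y = (- Y.det) • (1 : Matrix (Fin 2) (Fin 2) K) := by
  have h11 : Y 1 1 = - Y 0 0 := by
    rw [Matrix.trace_fin_two] at hY; linear_combination hY
  ext i j
  fin_cases i <;> fin_cases j <;>
    simp [mul_two, Matrix.det_fin_two, h11] <;> ring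

lemma det_tl (h2 : (2 : K) ≠ 0) (A : Matrix (Fin 2) (Fin 2) K) :
    (tl A).det = - (disc A / 4) := by
  have h4 : (4 : K) ≠ 0 := by
    have : (4 : K) = 2 * 2 := by norm_num
    rw [this]; exact mul_ne_zero h2 h2
  simp only [Matrix.det_fin_two, tl_apply, disc, Matrix.trace_fin_two]
  simp
  field_simp
  ring

lemma tl_eq_self {A : Matrix (Fin 2) (Fin 2) K} (hA : A.trace = 0) : tl A = A := by
  simp [tl, hA]

lemma disc_of_trace_eq_zero {A : Matrix (Fin 2) (Fin 2) K} (hA : A.trace = 0) :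
    disc A = - (4 * A.det) := by
  simp [disc, hA]

lemma eq_smul_one_of_tl_eq_zero {A : Matrix (Fin 2) (Fin 2) K} (hA : tl A = 0) :
    A = (A.trace / 2) • (1 : Matrix (Fin 2) (Fin 2) K) := by
  have := hA; unfold tl at this
  exact sub_eq_zero.mp this

lemma disc_eq_zero_of_tl_eq_zero (h2 : (2 : K) ≠ 0) {A : Matrix (Fin 2) (Fin 2) K}
    (hA : tl A = 0) : disc A = 0 := by
  have h := det_tl h2 A
  rw [hA, Matrix.det_zero] at h
  have h4 : (4 : K) ≠ 0 := by
    have : (4 : K) = 2 * 2 := by norm_num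
    rw [this]; exact mul_ne_zero h2 h2
  field_simp at h
  linear_combination h

lemma trace_mul_tl {w : Matrix (Fin 2) (Fin 2) K} (hw : w.trace = 0)
    (A : Matrix (Fin 2) (Fin 2) K) : (w * tl A).trace = (w * A).trace := by
  unfold tl
  rw [Matrix.mul_sub, Matrix.trace_sub, Matrix.mul_smul, Matrix.trace_smul, Matrix.mul_one, hw]
  simp

lemma tl_conj (g : (Matrix (Fin 2) (Fin 2) K)ˣ) (A : Matrix (Fin 2) (Fin 2) K) :
    tl ((g : Matrix (Fin 2) (Fin 2) K) * A * ((g⁻¹ : (Matrix (Fin 2) (Fin 2) K)ˣ) :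
      Matrix (Fin 2) (Fin 2) K)) =
      (g : Matrix (Fin 2) (Fin 2) K) * tl A * ((g⁻¹ : (Matrix (Fin 2) (Fin 2) K)ˣ) :
      Matrix (Fin 2) (Fin 2) K) := by
  unfold tl
  rw [Matrix.trace_units_conj, Matrix.mul_sub, Matrix.sub_mul, Matrix.mul_smul, Matrix.mul_one,
    Matrix.smul_mul, Units.mul_inv]

lemma disc_conj (g : (Matrix (Fin 2) (Fin 2) K)ˣ) (A : Matrix (Fin 2) (Fin 2) K) :
    disc ((g : Matrix (Fin 2) (Fin 2) K) * A * ((g⁻¹ : (Matrix (Fin 2) (Fin 2) K)ˣ) :
      Matrix (Fin 2) (Fin 2) K)) = disc A := by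
  unfold disc
  rw [Matrix.trace_units_conj, Matrix.det_units_conj]

lemma apply_one_one_of_trace_eq_zero {A : Matrix (Fin 2) (Fin 2) K} (hA : A.trace = 0) :
    A 1 1 = - A 0 0 := by
  rw [Matrix.trace_fin_two] at hA; linear_combination hA

/-- Every `2 × 2` matrix over an algebraically closed field has an eigenvector. -/
lemma exists_eigenvector [IsAlgClosed K] (A : Matrix (Fin 2) (Fin 2) K) :
    ∃ (μ : K) (v : Fin 2 → K), v ≠ 0 ∧ A *ᵥ v = μ • v := by
  obtain ⟨μ, hμ⟩ := Module.End.exists_eigenvalue (Matrix.toLin' A)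
  obtain ⟨v, hv⟩ := hμ.exists_hasEigenvector
  exact ⟨μ, v, hv.2, by simpa using hv.apply_eq_smul⟩

/-- Matrices commuting with a fixed non-scalar matrix have a common eigenvector. -/
lemma exists_common_eigenvector_of_commute [IsAlgClosed K] {Y : Matrix (Fin 2) (Fin 2) K}
    (hY : ∀ a : K, Y ≠ a • (1 : Matrix (Fin 2) (Fin 2) K))
    (S : Set (Matrix (Fin 2) (Fin 2) K)) (hS : ∀ g ∈ S, g * Y = Y * g) :
    ∃ v : Fin 2 → K, v ≠ 0 ∧ ∀ g ∈ S, ∃ c : K, g *ᵥ v = c • v := by
  obtain ⟨μ, v, hv, hYv⟩ := exists_eigenvector Y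
  refine ⟨v, hv, fun g hg => ?_⟩
  apply exists_smul_of_cr_eq_zero hv
  by_contra hne
  have h1 : (Y - μ • (1 : Matrix (Fin 2) (Fin 2) K)) *ᵥ (g *ᵥ v) = 0 := by
    rw [Matrix.sub_mulVec, Matrix.mulVec_mulVec, ← hS g hg, ← Matrix.mulVec_mulVec, hYv,
      Matrix.mulVec_smul, Matrix.smul_mulVec, Matrix.one_mulVec, sub_self]
  have h2' : (Y - μ • (1 : Matrix (Fin 2) (Fin 2) K)) *ᵥ v = 0 := by
    rw [Matrix.sub_mulVec, hYv, Matrix.smul_mulVec, Matrix.one_mulVec, sub_self]
  have := eq_zero_of_mulVec_eq_zero hne h1 h2'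
  exact hY μ (sub_eq_zero.mp this)

/-- Two commuting traceless `2 × 2` matrices are proportional (characteristic `≠ 2`). -/
lemma exists_smul_of_commute_traceless (h2 : (2 : K) ≠ 0) {X Y : Matrix (Fin 2) (Fin 2) K}
    (hX : X.trace = 0) (hY : Y.trace = 0) (hY0 : Y ≠ 0) (hc : X * Y = Y * X) :
    ∃ c : K, X = c • Y := by
  have hX11 := apply_one_one_of_trace_eq_zero hX
  have hY11 := apply_one_one_of_trace_eq_zero hY
  have e00 := congrFun (congrFun hc 0) 0
  have e01 := congrFun (congrFun hc 0) 1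
  have e10 := congrFun (congrFun hc 1) 0
  simp only [mul_two, hX11, hY11] at e00 e01 e10
  have r1 : X 0 1 * Y 1 0 = X 1 0 * Y 0 1 := by linear_combination e00
  have r2 : X 0 0 * Y 0 1 = X 0 1 * Y 0 0 := by
    have : (2 : K) * (X 0 0 * Y 0 1 - X 0 1 * Y 0 0) = 0 := by linear_combination e01
    have := (mul_eq_zero.mp this).resolve_left h2
    linear_combination this
  have r3 : X 1 0 * Y 0 0 = X 0 0 * Y 1 0 := by
    have : (2 : K) * (X 1 0 * Y 0 0 - X 0 0 * Y 1 0) = 0 := by linear_combination e10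
    have := (mul_eq_zero.mp this).resolve_left h2
    linear_combination this
  by_cases h00 : Y 0 0 = 0
  · by_cases h01 : Y 0 1 = 0
    · have h10 : Y 1 0 ≠ 0 := by
        intro h10; apply hY0; ext i j
        fin_cases i <;> fin_cases j <;> simp [h00, h01, h10, hY11]
      refine ⟨X 1 0 / Y 1 0, ?_⟩
      have a1 : X 0 0 = 0 := by
        have : X 0 0 * Y 1 0 = 0 := by rw [← r3, h00, mul_zero]
        exact (mul_eq_zero.mp this).resolve_right h10
      have a2 : X 0 1 = 0 := by
        have : X 0 1 * Y 1 0 = 0 := by rw [r1, h01, mul_zero]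
        exact (mul_eq_zero.mp this).resolve_right h10
      ext i j
      fin_cases i <;> fin_cases j <;> simp [h00, h01, hX11, hY11, a1, a2]
      field_simp
    · refine ⟨X 0 1 / Y 0 1, ?_⟩
      have a1 : X 0 0 = 0 := by
        have : X 0 0 * Y 0 1 = 0 := by rw [r2, h00, mul_zero]
        exact (mul_eq_zero.mp this).resolve_right h01
      ext i j
      fin_cases i <;> fin_cases j <;> simp [h00, hX11, hY11, a1]
      · field_simp
      · field_simp
        linear_combination -r1
  · refine ⟨X 0 0 / Y 0 0, ?_⟩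
    ext i j
    fin_cases i <;> fin_cases j <;> simp [hX11, hY11]
    · field_simp
    · field_simp
      linear_combination -r2
    · field_simp
      linear_combination r3
    · field_simp

/-- The double commutator identity for traceless `2 × 2` matrices. -/
lemma comm_comm_traceless {A B C : Matrix (Fin 2) (Fin 2) K}
    (hA : A.trace = 0) (hB : B.trace = 0) (hC : C.trace = 0) :
    (A * B - B * A) * C - C * (A * B - B * A) =
      (2 : K) • ((B * C).trace • A - (A * C).trace • B) := by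
  have hA11 := apply_one_one_of_trace_eq_zero hA
  have hB11 := apply_one_one_of_trace_eq_zero hB
  have hC11 := apply_one_one_of_trace_eq_zero hC
  ext i j
  fin_cases i <;> fin_cases j <;>
    simp [mul_two, Matrix.trace_fin_two, hA11, hB11, hC11] <;> ring

lemma trace_comm (A B : Matrix (Fin 2) (Fin 2) K) : (A * B - B * A).trace = 0 := by
  rw [Matrix.trace_sub, Matrix.trace_mul_comm, sub_self]

end Basic


section Core

variable {K : Type*} [Field K]

lemma mulVec_of_tl_eq_zero {A : Matrix (Fin 2) (Fin 2) K} (hA : tl A = 0) (v : Fin 2 → K) :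
    A *ᵥ v = (A.trace / 2) • v := by
  have h := eq_smul_one_of_tl_eq_zero hA
  conv_lhs => rw [h]
  rw [Matrix.smul_mulVec, Matrix.one_mulVec]

lemma eq_one_or_neg_one_of_mul_eq_smul {g Y : Matrix (Fin 2) (Fin 2) K} (hg : g.det ≠ 0)
    (hY : Y.det ≠ 0) {c : K} (h : g * Y = c • (Y * g)) : c = 1 ∨ c = -1 := by
  have hdet := congrArg Matrix.det h
  rw [Matrix.det_mul, Matrix.det_smul, Matrix.det_mul, Fintype.card_fin] at hdet
  have : (c - 1) * (c + 1) * (Y.det * g.det) = 0 := by linear_combination -hdet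
  rcases mul_eq_zero.mp this with h1 | h1
  · rcases mul_eq_zero.mp h1 with h1 | h1
    · left; linear_combination h1
    · right; linear_combination h1
  · exact absurd h1 (mul_ne_zero hY hg)

/-- The kernel line of a nonzero nilpotent traceless matrix. -/
lemma exists_ker_line {w : Matrix (Fin 2) (Fin 2) K} (hw0 : w ≠ 0) (hw : w.trace = 0)
    (hww : w * w = 0) :
    ∃ u : Fin 2 → K, u ≠ 0 ∧ w *ᵥ u = 0 ∧ (∀ x : Fin 2 → K, w *ᵥ x = 0 → cr x u = 0) ∧
      (∀ h : Matrix (Fin 2) (Fin 2) K, (w * h).trace = 0 → cr (h *ᵥ u) u = 0) := by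
  have h11 := apply_one_one_of_trace_eq_zero hw
  have hnil : w 0 0 * w 0 0 + w 0 1 * w 1 0 = 0 := by
    have := congrFun (congrFun hww 0) 0
    simpa [mul_two] using this
  by_cases hu : w 0 1 = 0 ∧ w 0 0 = 0
  · -- use `(w 0 0, w 1 0)`
    obtain ⟨h01, h00⟩ := hu
    have h10 : w 1 0 ≠ 0 := by
      intro h10; apply hw0; ext i j
      fin_cases i <;> fin_cases j <;> simp [h00, h01, h10, h11]
    refine ⟨![w 0 0, w 1 0], ?_, ?_, ?_, ?_⟩
    · intro h; apply h10
      have := congrFun h 1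
      simpa using this
    · funext i
      fin_cases i <;> simp [mulVec_two, h00, h01, h11]
    · intro x hx
      have := congrFun hx 1
      simp only [mulVec_two, h11, Pi.zero_apply] at this
      simp only [cr, Matrix.cons_val_zero, Matrix.cons_val_one]
      linear_combination this
    · intro h hh
      rw [Matrix.trace_fin_two] at hh
      simp only [mul_two, h11] at hh
      simp only [cr, mulVec_two, Matrix.cons_val_zero, Matrix.cons_val_one]
      linear_combination (w 1 0) * hh - (h 1 0) * hnil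
  · refine ⟨![w 0 1, - w 0 0], ?_, ?_, ?_, ?_⟩
    · intro h; apply hu
      have e0 := congrFun h 0
      have e1 := congrFun h 1
      simp at e0 e1
      exact ⟨e0, e1⟩
    · funext i
      fin_cases i
      · simp [mulVec_two]; ring
      · simp [mulVec_two, h11]; linear_combination hnil
    · intro x hx
      have := congrFun hx 0
      simp only [mulVec_two, Pi.zero_apply] at this
      simp only [cr, Matrix.cons_val_zero, Matrix.cons_val_one]
      linear_combination -this
    · intro h hh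
      rw [Matrix.trace_fin_two] at hh
      simp only [mul_two, h11] at hh
      simp only [cr, mulVec_two, Matrix.cons_val_zero, Matrix.cons_val_one]
      linear_combination (- w 0 1) * hh + (h 0 1) * hnil

lemma trace_mul_conj (X W : Matrix (Fin 2) (Fin 2) K) (g : (Matrix (Fin 2) (Fin 2) K)ˣ) :
    (X * ((g : Matrix (Fin 2) (Fin 2) K) * W *
      ((g⁻¹ : (Matrix (Fin 2) (Fin 2) K)ˣ) : Matrix (Fin 2) (Fin 2) K))).trace =
    (W * (((g⁻¹ : (Matrix (Fin 2) (Fin 2) K)ˣ) : Matrix (Fin 2) (Fin 2) K) * X *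
      (g : Matrix (Fin 2) (Fin 2) K))).trace := by
  have e1 : X * ((g : Matrix (Fin 2) (Fin 2) K) * W *
      ((g⁻¹ : (Matrix (Fin 2) (Fin 2) K)ˣ) : Matrix (Fin 2) (Fin 2) K)) =
      (X * (g : Matrix (Fin 2) (Fin 2) K)) *
        (W * ((g⁻¹ : (Matrix (Fin 2) (Fin 2) K)ˣ) : Matrix (Fin 2) (Fin 2) K)) := by
    simp only [Matrix.mul_assoc]
  have e2 : W * (((g⁻¹ : (Matrix (Fin 2) (Fin 2) K)ˣ) : Matrix (Fin 2) (Fin 2) K) * X *
      (g : Matrix (Fin 2) (Fin 2) K)) =
      (W * ((g⁻¹ : (Matrix (Fin 2) (Fin 2) K)ˣ) : Matrix (Fin 2) (Fin 2) K)) *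
        (X * (g : Matrix (Fin 2) (Fin 2) K)) := by
    simp only [Matrix.mul_assoc]
  rw [e1, e2, Matrix.trace_mul_comm]

end Core


section Main

variable {K : Type*} [Field K]

/-- A subgroup of `GL₂(K)` has a stable line. -/
def HasStableLine (Γ : Subgroup (GL (Fin 2) K)) : Prop :=
  ∃ v : Fin 2 → K, v ≠ 0 ∧ ∀ g ∈ Γ, ∃ c : K, (g : Matrix (Fin 2) (Fin 2) K) *ᵥ v = c • v

lemma det_coe_ne_zero (g : GL (Fin 2) K) : (g : Matrix (Fin 2) (Fin 2) K).det ≠ 0 := by
  have h : IsUnit (g : Matrix (Fin 2) (Fin 2) K).det :=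
    (Matrix.isUnit_iff_isUnit_det _).mp g.isUnit
  exact h.ne_zero

lemma four_ne_zero_of_two (h2 : (2 : K) ≠ 0) : (4 : K) ≠ 0 := by
  have : (4 : K) = 2 * 2 := by norm_num
  rw [this]; exact mul_ne_zero h2 h2

/-- An irreducible subgroup of `GL₂(K)` contains an element with distinct eigenvalues. -/
lemma exists_regular (h2 : (2 : K) ≠ 0) (Γ : Subgroup (GL (Fin 2) K)) (hirr : ¬ HasStableLine Γ) :
    ∃ σ ∈ Γ, disc (σ : Matrix (Fin 2) (Fin 2) K) ≠ 0 := by
  by_contra! hall
  apply hirr
  have h4 := four_ne_zero_of_two h2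
  by_cases hsc : ∀ g ∈ Γ, tl (g : Matrix (Fin 2) (Fin 2) K) = 0
  · refine ⟨![1, 0], ?_, fun g hg => ⟨_, mulVec_of_tl_eq_zero (hsc g hg) _⟩⟩
    intro h; simpa using congrFun h 0
  · push Not at hsc
    obtain ⟨g₁, hg₁, hn0⟩ := hsc
    set n := tl (g₁ : Matrix (Fin 2) (Fin 2) K) with hn
    set lam : K := (g₁ : Matrix (Fin 2) (Fin 2) K).trace / 2 with hlam
    have hnn : n * n = 0 := by rw [hn, tl_mul_tl h2, hall g₁ hg₁]; simp
    have hntr : n.trace = 0 := trace_tl h2 _
    have hg₁eq : (g₁ : Matrix (Fin 2) (Fin 2) K) = lam • (1 : Matrix (Fin 2) (Fin 2) K) + n := by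
      rw [hn, hlam]; unfold tl; abel
    have hdet₁ : (g₁ : Matrix (Fin 2) (Fin 2) K).det = lam ^ 2 := by
      have := hall g₁ hg₁
      unfold disc at this
      rw [hlam]; field_simp; linear_combination -this
    have hlam0 : lam ≠ 0 := by
      intro h; apply det_coe_ne_zero g₁; rw [hdet₁, h]; ring
    have hgg : (g₁ : Matrix (Fin 2) (Fin 2) K) * (g₁ : Matrix (Fin 2) (Fin 2) K) =
        (lam ^ 2) • (1 : Matrix (Fin 2) (Fin 2) K) + (2 * lam) • n := by
      rw [hg₁eq]
      simp only [Matrix.add_mul, Matrix.mul_add, Matrix.smul_mul, Matrix.mul_smul, Matrix.one_mul,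
        Matrix.mul_one, hnn, add_zero, smul_add, smul_smul]
      module
    have key : ∀ h ∈ Γ, (n * (h : Matrix (Fin 2) (Fin 2) K)).trace = 0 := by
      intro h hh
      have d0 := hall h hh
      have d1 := hall (g₁ * h) (Γ.mul_mem hg₁ hh)
      have d2 := hall (g₁ * g₁ * h) (Γ.mul_mem (Γ.mul_mem hg₁ hg₁) hh)
      have t1 : ((g₁ : Matrix (Fin 2) (Fin 2) K) * (h : Matrix (Fin 2) (Fin 2) K)).trace =
          lam * (h : Matrix (Fin 2) (Fin 2) K).trace +
            (n * (h : Matrix (Fin 2) (Fin 2) K)).trace := by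
        conv_lhs => rw [hg₁eq]
        rw [Matrix.add_mul, Matrix.trace_add, Matrix.smul_mul, Matrix.one_mul, Matrix.trace_smul,
          smul_eq_mul]
      have t2 : ((g₁ : Matrix (Fin 2) (Fin 2) K) * (g₁ : Matrix (Fin 2) (Fin 2) K) *
          (h : Matrix (Fin 2) (Fin 2) K)).trace =
          lam ^ 2 * (h : Matrix (Fin 2) (Fin 2) K).trace +
            2 * lam * (n * (h : Matrix (Fin 2) (Fin 2) K)).trace := by
        rw [hgg, Matrix.add_mul, Matrix.trace_add, Matrix.smul_mul, Matrix.one_mul,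
          Matrix.trace_smul, Matrix.smul_mul, Matrix.trace_smul, smul_eq_mul, smul_eq_mul]
      simp only [disc, Units.val_mul, Matrix.det_mul, t1, t2, hdet₁] at d0 d1 d2
      set t := (h : Matrix (Fin 2) (Fin 2) K).trace
      set s := (n * (h : Matrix (Fin 2) (Fin 2) K)).trace
      set D := (h : Matrix (Fin 2) (Fin 2) K).det
      -- d0 : t^2 - 4 D = 0; d1 : (lam t + s)^2 - 4 (lam^2 D) = 0;
      -- d2 : (lam^2 t + 2 lam s)^2 - 4 (lam^2 lam^2 D) = 0
      have e1 : 2 * lam * t * s + s ^ 2 = 0 := by linear_combination d1 - lam ^ 2 * d0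
      have e2 : 4 * lam ^ 2 * (lam * t * s + s ^ 2) = 0 := by
        linear_combination d2 - lam ^ 4 * d0
      have e3 : lam * t * s + s ^ 2 = 0 := by
        rcases mul_eq_zero.mp e2 with h' | h'
        · exact absurd h' (mul_ne_zero h4 (pow_ne_zero 2 hlam0))
        · exact h'
      have e4 : s ^ 2 = 0 := by linear_combination 2 * e3 - e1
      exact pow_eq_zero_iff (two_ne_zero) |>.mp e4
    obtain ⟨u, hu0, -, -, hu⟩ := exists_ker_line hn0 hntr hnn
    exact ⟨u, hu0, fun h hh => exists_smul_of_cr_eq_zero hu0 (hu _ (key h hh))⟩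

end Main


section MainThm

variable {K : Type*} [Field K]

/-- **Choice of `σ`** (the group-theoretic heart of DDT Theorem 2.49).  If `Γ ⊆ GL₂(K)` has no
stable line (`K` algebraically closed of characteristic `≠ 2`), then for every nonzero traceless
matrix `w` there is `σ ∈ Γ` with distinct eigenvalues such that `tr (w σ) ≠ 0`. -/
theorem exists_regular_trace_ne_zero [IsAlgClosed K] (h2 : (2 : K) ≠ 0)
    (Γ : Subgroup (GL (Fin 2) K)) (hirr : ¬ HasStableLine Γ)
    {w : Matrix (Fin 2) (Fin 2) K} (hw0 : w ≠ 0) (hw : w.trace = 0) :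
    ∃ σ ∈ Γ, disc (σ : Matrix (Fin 2) (Fin 2) K) ≠ 0 ∧
      (w * (σ : Matrix (Fin 2) (Fin 2) K)).trace ≠ 0 := by
  by_contra! H
  have h4 := four_ne_zero_of_two h2
  obtain ⟨σ₁, hσ₁, hd₁⟩ := exists_regular h2 Γ hirr
  set Z := tl (σ₁ : Matrix (Fin 2) (Fin 2) K) with hZ
  have hZtr : Z.trace = 0 := trace_tl h2 _
  have hZdet : Z.det ≠ 0 := by
    rw [hZ, det_tl h2]; exact neg_ne_zero.mpr (div_ne_zero hd₁ h4)
  have hZ0 : Z ≠ 0 := by
    intro h; apply hZdet; rw [h, Matrix.det_zero]
  -- orthogonality of `w` and its conjugates to traceless parts of regular elements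
  have hperpσ : ∀ g ∈ Γ, ∀ σ ∈ Γ, disc (σ : Matrix (Fin 2) (Fin 2) K) ≠ 0 →
      (tl (σ : Matrix (Fin 2) (Fin 2) K) * ((g : Matrix (Fin 2) (Fin 2) K) * w *
        ((g⁻¹ : GL (Fin 2) K) : Matrix (Fin 2) (Fin 2) K))).trace = 0 := by
    intro g hg σ hσ hd
    rw [trace_mul_conj]
    have hmem : g⁻¹ * σ * g ∈ Γ := Γ.mul_mem (Γ.mul_mem (Γ.inv_mem hg) hσ) hg
    have hd' : disc ((g⁻¹ * σ * g : GL (Fin 2) K) : Matrix (Fin 2) (Fin 2) K) ≠ 0 := by
      have := disc_conj (g⁻¹ : GL (Fin 2) K) (σ : Matrix (Fin 2) (Fin 2) K)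
      rw [inv_inv] at this
      rw [Units.val_mul, Units.val_mul, this]; exact hd
    have h := H _ hmem hd'
    rw [← trace_mul_tl hw] at h
    have := tl_conj (g⁻¹ : GL (Fin 2) K) (σ : Matrix (Fin 2) (Fin 2) K)
    rw [inv_inv] at this
    rw [Units.val_mul, Units.val_mul, this] at h
    exact h
  have hperp1 : ∀ σ ∈ Γ, disc (σ : Matrix (Fin 2) (Fin 2) K) ≠ 0 →
      (tl (σ : Matrix (Fin 2) (Fin 2) K) * w).trace = 0 := by
    intro σ hσ hd
    have := hperpσ 1 Γ.one_mem σ hσ hd
    simpa using this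
  by_cases hcase : ∀ σ ∈ Γ, disc (σ : Matrix (Fin 2) (Fin 2) K) ≠ 0 →
      ∃ c : K, tl (σ : Matrix (Fin 2) (Fin 2) K) = c • Z
  · -- Case (i): all regular traceless parts are proportional to `Z`.
    apply hirr
    have hcomm : ∀ g ∈ Γ, (g : Matrix (Fin 2) (Fin 2) K) * Z = Z * (g : Matrix (Fin 2) (Fin 2) K) := by
      intro g hg
      have hmem : g * σ₁ * g⁻¹ ∈ Γ := Γ.mul_mem (Γ.mul_mem hg hσ₁) (Γ.inv_mem hg)
      have hd' : disc ((g * σ₁ * g⁻¹ : GL (Fin 2) K) : Matrix (Fin 2) (Fin 2) K) ≠ 0 := by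
        rw [Units.val_mul, Units.val_mul, disc_conj]; exact hd₁
      obtain ⟨c, hc⟩ := hcase _ hmem hd'
      rw [Units.val_mul, Units.val_mul, tl_conj] at hc
      have hc' : (g : Matrix (Fin 2) (Fin 2) K) * Z = c • (Z * (g : Matrix (Fin 2) (Fin 2) K)) := by
        have := congrArg (· * (g : Matrix (Fin 2) (Fin 2) K)) hc
        simp only [Matrix.mul_assoc, Units.inv_mul, Matrix.mul_one, Matrix.smul_mul] at this
        exact this
      rcases eq_one_or_neg_one_of_mul_eq_smul (det_coe_ne_zero g) hZdet hc' with rfl | rfl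
      · simpa using hc'
      · exfalso
        have hanti : (g : Matrix (Fin 2) (Fin 2) K) * Z = - (Z * (g : Matrix (Fin 2) (Fin 2) K)) := by
          simpa using hc'
        have htr : (g : Matrix (Fin 2) (Fin 2) K).trace = 0 := by
          have hZZ : Z * Z = (- Z.det) • (1 : Matrix (Fin 2) (Fin 2) K) :=
            mul_self_of_trace_eq_zero hZtr
          have e1 : ((g : Matrix (Fin 2) (Fin 2) K) * Z * Z).trace =
              (- Z.det) * (g : Matrix (Fin 2) (Fin 2) K).trace := by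
            rw [Matrix.mul_assoc, hZZ, Matrix.mul_smul, Matrix.mul_one, Matrix.trace_smul,
              smul_eq_mul]
          have e2 : ((g : Matrix (Fin 2) (Fin 2) K) * Z * Z).trace =
              - ((g : Matrix (Fin 2) (Fin 2) K) * Z * Z).trace := by
            conv_lhs => rw [hanti]
            rw [Matrix.neg_mul, Matrix.trace_neg, Matrix.mul_assoc, Matrix.trace_mul_comm]
          have e3 : (2 : K) * ((g : Matrix (Fin 2) (Fin 2) K) * Z * Z).trace = 0 := by
            linear_combination e2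
          have e4 := (mul_eq_zero.mp e3).resolve_left h2
          rw [e1] at e4
          exact (mul_eq_zero.mp e4).resolve_left (neg_ne_zero.mpr hZdet)
        have hdg : disc (g : Matrix (Fin 2) (Fin 2) K) ≠ 0 := by
          rw [disc_of_trace_eq_zero htr]
          exact neg_ne_zero.mpr (mul_ne_zero h4 (det_coe_ne_zero g))
        obtain ⟨c', hc''⟩ := hcase g hg hdg
        rw [tl_eq_self htr] at hc''
        have hcm : (g : Matrix (Fin 2) (Fin 2) K) * Z = Z * (g : Matrix (Fin 2) (Fin 2) K) := by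
          rw [hc'']; simp
        have h0 : (2 : K) • ((g : Matrix (Fin 2) (Fin 2) K) * Z) = 0 := by
          rw [two_smul]
          nth_rewrite 2 [hanti]
          rw [hcm]; abel
        have h0' : (g : Matrix (Fin 2) (Fin 2) K) * Z = 0 := by
          rcases smul_eq_zero.mp h0 with h | h
          · exact absurd h h2
          · exact h
        have := congrArg Matrix.det h0'
        rw [Matrix.det_mul, Matrix.det_zero] at this
        exact (mul_ne_zero (det_coe_ne_zero g) hZdet) this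
    have hZns : ∀ a : K, Z ≠ a • (1 : Matrix (Fin 2) (Fin 2) K) := by
      intro a ha
      have htr := hZtr
      rw [ha, Matrix.trace_smul, Matrix.trace_one, Fintype.card_fin, smul_eq_mul] at htr
      have ha0 : a = 0 := by
        rcases mul_eq_zero.mp htr with h | h
        · exact h
        · exact absurd (by exact_mod_cast h) h2
      apply hZ0; rw [ha, ha0, zero_smul]
    obtain ⟨v, hv, hv'⟩ := exists_common_eigenvector_of_commute hZns
      {M | ∃ g ∈ Γ, M = (g : Matrix (Fin 2) (Fin 2) K)}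
      (by rintro _ ⟨g, hg, rfl⟩; exact hcomm g hg)
    exact ⟨v, hv, fun g hg => hv' _ ⟨g, hg, rfl⟩⟩
  · -- Case (ii): two independent traceless parts.
    push Not at hcase
    obtain ⟨σ₂, hσ₂, hd₂, hZ'⟩ := hcase
    set Z' := tl (σ₂ : Matrix (Fin 2) (Fin 2) K) with hZ'def
    have hZ'tr : Z'.trace = 0 := trace_tl h2 _
    set n := Z * Z' - Z' * Z with hn
    have hntr : n.trace = 0 := trace_comm _ _
    have hn0 : n ≠ 0 := by
      intro h0
      have hcm : Z' * Z = Z * Z' := (sub_eq_zero.mp h0).symm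
      obtain ⟨c, hc⟩ := exists_smul_of_commute_traceless h2 hZ'tr hZtr hZ0 hcm
      exact hZ' c hc
    have hperp : ∀ X : Matrix (Fin 2) (Fin 2) K, X.trace = 0 → (Z * X).trace = 0 →
        (Z' * X).trace = 0 → ∃ c : K, X = c • n := by
      intro X hX h1 h2'
      have := comm_comm_traceless hZtr hZ'tr hX
      rw [h1, h2'] at this
      simp only [zero_smul, sub_self, smul_zero] at this
      have hc : X * n = n * X := (sub_eq_zero.mp this).symm
      exact exists_smul_of_commute_traceless h2 hX hntr hn0 hc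
    obtain ⟨c₀, hc₀⟩ := hperp w hw (hperp1 σ₁ hσ₁ hd₁) (hperp1 σ₂ hσ₂ hd₂)
    have hc₀0 : c₀ ≠ 0 := by
      rintro rfl; apply hw0; simpa using hc₀
    have hstab : ∀ g ∈ Γ, ∃ c : K, (g : Matrix (Fin 2) (Fin 2) K) * w =
        c • (w * (g : Matrix (Fin 2) (Fin 2) K)) := by
      intro g hg
      have hwgtr : ((g : Matrix (Fin 2) (Fin 2) K) * w *
        ((g⁻¹ : GL (Fin 2) K) : Matrix (Fin 2) (Fin 2) K)).trace = 0 := by
        rw [Matrix.trace_units_conj]; exact hw
      obtain ⟨c, hc⟩ := hperp _ hwgtr (hperpσ g hg σ₁ hσ₁ hd₁) (hperpσ g hg σ₂ hσ₂ hd₂)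
      refine ⟨c / c₀, ?_⟩
      have e : (g : Matrix (Fin 2) (Fin 2) K) * w = ((g : Matrix (Fin 2) (Fin 2) K) * w *
        ((g⁻¹ : GL (Fin 2) K) : Matrix (Fin 2) (Fin 2) K)) * (g : Matrix (Fin 2) (Fin 2) K) := by
        simp only [Matrix.mul_assoc, Units.inv_mul, Matrix.mul_one]
      rw [e, hc]
      conv_rhs => rw [hc₀]
      rw [Matrix.smul_mul, Matrix.smul_mul, smul_smul, div_mul_cancel₀ _ hc₀0]
    by_cases hwdet : w.det = 0
    · -- `w` nilpotent: its kernel is a stable line
      have hww : w * w = 0 := by rw [mul_self_of_trace_eq_zero hw, hwdet]; simp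
      obtain ⟨u, hu0, hwu, hker, -⟩ := exists_ker_line hw0 hw hww
      apply hirr
      refine ⟨u, hu0, fun g hg => exists_smul_of_cr_eq_zero hu0 (hker _ ?_)⟩
      obtain ⟨c, hc⟩ := hstab g hg
      have hc0 : c ≠ 0 := by
        rintro rfl
        rw [zero_smul] at hc
        have := congrArg (((g⁻¹ : GL (Fin 2) K) : Matrix (Fin 2) (Fin 2) K) * ·) hc
        simp only [← Matrix.mul_assoc, Units.inv_mul, Matrix.one_mul, Matrix.mul_zero] at this
        exact hw0 this
      have hwg : w * (g : Matrix (Fin 2) (Fin 2) K) =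
          c⁻¹ • ((g : Matrix (Fin 2) (Fin 2) K) * w) := by
        rw [hc, smul_smul, inv_mul_cancel₀ hc0, one_smul]
      rw [Matrix.mulVec_mulVec, hwg, Matrix.smul_mulVec, ← Matrix.mulVec_mulVec, hwu,
        Matrix.mulVec_zero, smul_zero]
    · -- `w` invertible: sign character
      have hsign : ∀ g ∈ Γ,
          (g : Matrix (Fin 2) (Fin 2) K) * w = w * (g : Matrix (Fin 2) (Fin 2) K) ∨
          (g : Matrix (Fin 2) (Fin 2) K) * w = -(w * (g : Matrix (Fin 2) (Fin 2) K)) := by
        intro g hg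
        obtain ⟨c, hc⟩ := hstab g hg
        rcases eq_one_or_neg_one_of_mul_eq_smul (det_coe_ne_zero g) hwdet hc with rfl | rfl
        · left; simpa using hc
        · right; simpa using hc
      have hwwtr : (w * w).trace = - (2 * w.det) := by
        rw [mul_self_of_trace_eq_zero hw, Matrix.trace_smul, Matrix.trace_one, Fintype.card_fin,
          smul_eq_mul]
        push_cast; ring
      have hscal : ∀ g ∈ Γ,
          (g : Matrix (Fin 2) (Fin 2) K) * w = w * (g : Matrix (Fin 2) (Fin 2) K) →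
          tl (g : Matrix (Fin 2) (Fin 2) K) = 0 := by
        intro g hg hc
        have hc' : tl (g : Matrix (Fin 2) (Fin 2) K) * w = w * tl (g : Matrix (Fin 2) (Fin 2) K) := by
          unfold tl
          rw [Matrix.sub_mul, Matrix.mul_sub, hc, Matrix.smul_mul, Matrix.mul_smul, Matrix.one_mul,
            Matrix.mul_one]
        obtain ⟨b, hb⟩ := exists_smul_of_commute_traceless h2 (trace_tl h2 _) hw hw0 hc'
        have hb0 : b = 0 := by
          by_cases hd : disc (g : Matrix (Fin 2) (Fin 2) K) = 0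
          · have h := tl_mul_tl h2 (g : Matrix (Fin 2) (Fin 2) K)
            rw [hd, hb, Matrix.smul_mul, Matrix.mul_smul, smul_smul] at h
            have h' := congrArg Matrix.trace h
            rw [Matrix.trace_smul, hwwtr] at h'
            simp only [zero_div, zero_smul, Matrix.trace_zero, smul_eq_mul] at h'
            have : b * b * (2 * w.det) = 0 := by linear_combination -h'
            rcases mul_eq_zero.mp this with h'' | h''
            · exact mul_self_eq_zero.mp h''
            · exact absurd h'' (mul_ne_zero h2 hwdet)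
          · have h := H g hg hd
            rw [← trace_mul_tl hw, hb, Matrix.mul_smul, Matrix.trace_smul, hwwtr,
              smul_eq_mul] at h
            have : b * (2 * w.det) = 0 := by linear_combination -h
            rcases mul_eq_zero.mp this with h'' | h''
            · exact h''
            · exact absurd h'' (mul_ne_zero h2 hwdet)
        rw [hb, hb0, zero_smul]
      by_cases hall : ∀ g ∈ Γ,
          (g : Matrix (Fin 2) (Fin 2) K) * w = w * (g : Matrix (Fin 2) (Fin 2) K)
      · apply hirr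
        refine ⟨![1, 0], ?_, fun g hg => ⟨_, mulVec_of_tl_eq_zero (hscal g hg (hall g hg)) _⟩⟩
        intro h; simpa using congrFun h 0
      · push Not at hall
        obtain ⟨g₁, hg₁, hg₁w⟩ := hall
        have hanti₁ := (hsign g₁ hg₁).resolve_left hg₁w
        obtain ⟨μ, v, hv0, hv⟩ := exists_eigenvector (g₁ : Matrix (Fin 2) (Fin 2) K)
        apply hirr
        refine ⟨v, hv0, fun h hh => ?_⟩
        rcases hsign h hh with hc | ha
        · exact ⟨_, mulVec_of_tl_eq_zero (hscal h hh hc) _⟩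
        · have hmem : g₁⁻¹ * h ∈ Γ := Γ.mul_mem (Γ.inv_mem hg₁) hh
          -- `w g₁⁻¹ = - g₁⁻¹ w`
          have hinv : w * ((g₁⁻¹ : GL (Fin 2) K) : Matrix (Fin 2) (Fin 2) K) =
              - (((g₁⁻¹ : GL (Fin 2) K) : Matrix (Fin 2) (Fin 2) K) * w) := by
            have e : w * ((g₁⁻¹ : GL (Fin 2) K) : Matrix (Fin 2) (Fin 2) K) =
                ((g₁⁻¹ : GL (Fin 2) K) : Matrix (Fin 2) (Fin 2) K) *
                  ((g₁ : Matrix (Fin 2) (Fin 2) K) * w) *
                  ((g₁⁻¹ : GL (Fin 2) K) : Matrix (Fin 2) (Fin 2) K) := by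
              rw [← Matrix.mul_assoc, Units.inv_mul, Matrix.one_mul]
            rw [e, hanti₁]
            simp only [Matrix.mul_neg, Matrix.neg_mul, Matrix.mul_assoc, Units.mul_inv,
              Matrix.mul_one]
          have hcomm : ((g₁⁻¹ * h : GL (Fin 2) K) : Matrix (Fin 2) (Fin 2) K) * w =
              w * ((g₁⁻¹ * h : GL (Fin 2) K) : Matrix (Fin 2) (Fin 2) K) := by
            rw [Units.val_mul, Matrix.mul_assoc, ha, ← Matrix.mul_assoc w, hinv]
            simp only [Matrix.mul_neg, Matrix.neg_mul, Matrix.mul_assoc]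
          have hs := mulVec_of_tl_eq_zero (hscal _ hmem hcomm) v
          have hh' : (h : Matrix (Fin 2) (Fin 2) K) = (g₁ : Matrix (Fin 2) (Fin 2) K) *
              ((g₁⁻¹ * h : GL (Fin 2) K) : Matrix (Fin 2) (Fin 2) K) := by
            rw [Units.val_mul, ← Matrix.mul_assoc, Units.mul_inv, Matrix.one_mul]
          refine ⟨((g₁⁻¹ * h : GL (Fin 2) K) : Matrix (Fin 2) (Fin 2) K).trace / 2 * μ, ?_⟩
          rw [hh', ← Matrix.mulVec_mulVec, hs, Matrix.mulVec_smul, hv, smul_smul]

end MainThm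


section Clifford

variable {K : Type*} [Field K] {G : Type*} [Group G]

/-- The restriction of `ρ` to the subgroup `H` has a stable line. -/
def StableLineOn (ρ : G →* GL (Fin 2) K) (H : Subgroup G) : Prop :=
  ∃ v : Fin 2 → K, v ≠ 0 ∧ ∀ g ∈ H, ∃ c : K, (ρ g : Matrix (Fin 2) (Fin 2) K) *ᵥ v = c • v

/-- The stabiliser of the line through `v`. -/
def lineStab (ρ : G →* GL (Fin 2) K) (v : Fin 2 → K) : Subgroup G where
  carrier := {g | ∃ c : K, (ρ g : Matrix (Fin 2) (Fin 2) K) *ᵥ v = c • v}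
  one_mem' := ⟨1, by simp⟩
  mul_mem' := by
    rintro a b ⟨ca, ha⟩ ⟨cb, hb⟩
    refine ⟨cb * ca, ?_⟩
    rw [map_mul, Units.val_mul, ← Matrix.mulVec_mulVec, hb, Matrix.mulVec_smul, ha, smul_smul]
  inv_mem' := by
    rintro a ⟨c, ha⟩
    refine ⟨c⁻¹, ?_⟩
    have h1 : ((ρ a⁻¹ : GL (Fin 2) K) : Matrix (Fin 2) (Fin 2) K) *ᵥ
        ((ρ a : Matrix (Fin 2) (Fin 2) K) *ᵥ v) = v := by
      rw [Matrix.mulVec_mulVec, ← Units.val_mul, ← map_mul, inv_mul_cancel, map_one,
        Units.val_one, Matrix.one_mulVec]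
    rw [ha, Matrix.mulVec_smul] at h1
    by_cases hc : c = 0
    · have hv : v = 0 := by rw [← h1, hc, zero_smul]
      rw [hv]; simp
    · have h3 : c⁻¹ • v = ((ρ a⁻¹ : GL (Fin 2) K) : Matrix (Fin 2) (Fin 2) K) *ᵥ v := by
        conv_lhs => rw [← h1]
        rw [smul_smul, inv_mul_cancel₀ hc, one_smul]
      exact h3.symm

lemma mem_lineStab {ρ : G →* GL (Fin 2) K} {v : Fin 2 → K} {g : G} :
    g ∈ lineStab ρ v ↔ ∃ c : K, (ρ g : Matrix (Fin 2) (Fin 2) K) *ᵥ v = c • v := Iff.rfl

/-- **Clifford-type lemma.**  Let `N ⊴ G` with `G/N` cyclic (generated by the class of `g₀`).  If a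
two-dimensional representation `ρ` over an algebraically closed field has no stable line on `G`
nor on any subgroup of index `2` containing `N`, then it has no stable line on `N`. -/
theorem not_stableLineOn_of_cyclic_quotient [IsAlgClosed K] (ρ : G →* GL (Fin 2) K)
    (N : Subgroup G) [hN : N.Normal] (g₀ : G)
    (hgen : ∀ g : G, ∃ i : ℤ, ∃ n ∈ N, g = g₀ ^ i * n)
    (hG : ¬ StableLineOn ρ ⊤)
    (hH : ∀ H : Subgroup G, N ≤ H → H.index = 2 → ¬ StableLineOn ρ H) :
    ¬ StableLineOn ρ N := by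
  rintro ⟨v, hv0, hv⟩
  by_cases hsc : ∀ n ∈ N, ∃ a : K,
      (ρ n : Matrix (Fin 2) (Fin 2) K) = a • (1 : Matrix (Fin 2) (Fin 2) K)
  · -- `N` acts through scalars: an eigenvector of `g₀` spans a `G`-stable line
    obtain ⟨μ, u, hu0, hu⟩ := exists_eigenvector (ρ g₀ : Matrix (Fin 2) (Fin 2) K)
    apply hG
    refine ⟨u, hu0, fun g _ => ?_⟩
    obtain ⟨i, n, hn, rfl⟩ := hgen g
    have h1 : g₀ ∈ lineStab ρ u := ⟨μ, hu⟩
    have h2' : n ∈ lineStab ρ u := by
      obtain ⟨a, ha⟩ := hsc n hn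
      exact ⟨a, by rw [ha, Matrix.smul_mulVec, Matrix.one_mulVec]⟩
    exact (lineStab ρ u).mul_mem ((lineStab ρ u).zpow_mem h1 i) h2'
  · push Not at hsc
    obtain ⟨n₁, hn₁, hns⟩ := hsc
    have hNH : N ≤ lineStab ρ v := fun n hn => hv n hn
    by_cases htop : lineStab ρ v = ⊤
    · apply hG
      refine ⟨v, hv0, fun g _ => ?_⟩
      have : g ∈ lineStab ρ v := htop ▸ Subgroup.mem_top g
      exact this
    · refine hH (lineStab ρ v) hNH ?_ ⟨v, hv0, fun g hg => hg⟩
      obtain ⟨g₁, hg₁⟩ : ∃ g₁, g₁ ∉ lineStab ρ v := by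
        by_contra h
        push Not at h
        exact htop (eq_top_iff.mpr (fun g _ => h g))
      rw [Subgroup.index_eq_two_iff_exists_notMem_and]
      refine ⟨g₁, hg₁, fun b => ?_⟩
      set v' := (ρ g₁ : Matrix (Fin 2) (Fin 2) K) *ᵥ v with hv'
      have hcr : cr v' v ≠ 0 := fun h => hg₁ (exists_smul_of_cr_eq_zero hv0 h)
      have hv'0 : v' ≠ 0 := by
        intro h; apply hcr; rw [h]; simp [cr]
      -- every translate of `v` is an eigenvector of every element of `N`
      have hNb : ∀ b : G, ∀ n ∈ N, ∃ c : K, (ρ n : Matrix (Fin 2) (Fin 2) K) *ᵥ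
          ((ρ b : Matrix (Fin 2) (Fin 2) K) *ᵥ v) = c • ((ρ b : Matrix (Fin 2) (Fin 2) K) *ᵥ v) := by
        intro b n hn
        have hmem : b⁻¹ * n * b ∈ N := by
          have := hN.conj_mem n hn b⁻¹
          simpa using this
        obtain ⟨c, hc⟩ := hv _ hmem
        refine ⟨c, ?_⟩
        have e : (ρ n : Matrix (Fin 2) (Fin 2) K) * (ρ b : Matrix (Fin 2) (Fin 2) K) =
            (ρ b : Matrix (Fin 2) (Fin 2) K) * (ρ (b⁻¹ * n * b) : Matrix (Fin 2) (Fin 2) K) := by
          rw [← Units.val_mul, ← Units.val_mul, ← map_mul, ← map_mul]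
          congr 2
          group
        rw [Matrix.mulVec_mulVec, e, ← Matrix.mulVec_mulVec, hc, Matrix.mulVec_smul]
      obtain ⟨a, ha⟩ := hv n₁ hn₁
      obtain ⟨a', ha'⟩ := hNb g₁ n₁ hn₁
      have haa' : a ≠ a' := by
        rintro rfl
        apply hns a
        have h1 : ((ρ n₁ : Matrix (Fin 2) (Fin 2) K) - a • (1 : Matrix (Fin 2) (Fin 2) K)) *ᵥ v' = 0 := by
          rw [Matrix.sub_mulVec, ha', Matrix.smul_mulVec, Matrix.one_mulVec, sub_self]
        have h2' : ((ρ n₁ : Matrix (Fin 2) (Fin 2) K) - a • (1 : Matrix (Fin 2) (Fin 2) K)) *ᵥ v = 0 := by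
          rw [Matrix.sub_mulVec, ha, Matrix.smul_mulVec, Matrix.one_mulVec, sub_self]
        exact sub_eq_zero.mp (eq_zero_of_mulVec_eq_zero hcr h1 h2')
      have factE : ∀ x : Fin 2 → K, (∃ c : K, (ρ n₁ : Matrix (Fin 2) (Fin 2) K) *ᵥ x = c • x) →
          cr x v = 0 ∨ cr x v' = 0 := by
        rintro x ⟨c, hc⟩
        have e1 := cr_mulVec (ρ n₁ : Matrix (Fin 2) (Fin 2) K) x v
        rw [hc, ha, cr_smul_left, cr_smul_right] at e1
        have e2 := cr_mulVec (ρ n₁ : Matrix (Fin 2) (Fin 2) K) x v'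
        rw [hc, ha', cr_smul_left, cr_smul_right] at e2
        by_contra hne
        push Not at hne
        have h1 : c * a = (ρ n₁ : Matrix (Fin 2) (Fin 2) K).det :=
          mul_right_cancel₀ hne.1 (by linear_combination e1)
        have h2' : c * a' = (ρ n₁ : Matrix (Fin 2) (Fin 2) K).det :=
          mul_right_cancel₀ hne.2 (by linear_combination e2)
        have h3 : c * (a - a') = 0 := by linear_combination h1 - h2'
        rcases mul_eq_zero.mp h3 with h | h
        · rw [h, zero_mul] at h1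
          exact det_coe_ne_zero _ h1.symm
        · exact haa' (sub_eq_zero.mp h)
      have memH : ∀ g : G, g ∈ lineStab ρ v ↔
          cr ((ρ g : Matrix (Fin 2) (Fin 2) K) *ᵥ v) v = 0 := fun g =>
        ⟨fun ⟨c, hc⟩ => by rw [hc, cr_smul_left, cr_self, mul_zero],
          fun h => exists_smul_of_cr_eq_zero hv0 h⟩
      have hbg : (ρ (b * g₁) : Matrix (Fin 2) (Fin 2) K) *ᵥ v =
          (ρ b : Matrix (Fin 2) (Fin 2) K) *ᵥ v' := by
        rw [map_mul, Units.val_mul, ← Matrix.mulVec_mulVec]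
      rw [memH, memH, hbg]
      set x := (ρ b : Matrix (Fin 2) (Fin 2) K) *ᵥ v with hx
      set y := (ρ b : Matrix (Fin 2) (Fin 2) K) *ᵥ v' with hy
      have hxy : cr y x ≠ 0 := by
        rw [hx, hy, cr_mulVec]; exact mul_ne_zero (det_coe_ne_zero _) hcr
      have hxE := factE x (hNb b n₁ hn₁)
      have hyE := factE y (by
        have := hNb (b * g₁) n₁ hn₁
        rw [hbg] at this
        exact this)
      by_cases h1 : cr x v = 0
      · exact Or.inr h1
      · left
        by_contra h2'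
        have hx' := hxE.resolve_left h1
        have hy' := hyE.resolve_left h2'
        obtain ⟨c1, hc1⟩ := exists_smul_of_cr_eq_zero hv'0 hx'
        obtain ⟨c2, hc2⟩ := exists_smul_of_cr_eq_zero hv'0 hy'
        apply hxy
        rw [hc1, hc2, cr_smul_left, cr_smul_right, cr_self]; ring

end Clifford


section Wrappers

variable {k : Type*} [Field k] {K : Type*} [Field K] [Algebra k K] {G : Type*} [Group G]

/-- Base change of a matrix representation along `k → K`. -/
def baseChangeRep (K : Type*) [Field K] [Algebra k K] (r : G →* GL (Fin 2) k) :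
    G →* GL (Fin 2) K :=
  (Matrix.GeneralLinearGroup.map (algebraMap k K)).comp r

lemma coe_baseChangeRep (r : G →* GL (Fin 2) k) (g : G) :
    (baseChangeRep K r g : Matrix (Fin 2) (Fin 2) K) =
      (r g : Matrix (Fin 2) (Fin 2) k).map (algebraMap k K) := rfl

/-- `r` restricted to `H` has a stable line after extending scalars to `K`
(the matrix shape of "reducible over `K`"). -/
def StableLineOver (K : Type*) [Field K] [Algebra k K] (r : G →* GL (Fin 2) k)
    (H : Subgroup G) : Prop :=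
  ∃ v : Fin 2 → K, v ≠ 0 ∧ ∀ g ∈ H, ∃ c : K,
    ((r g : Matrix (Fin 2) (Fin 2) k).map (algebraMap k K)) *ᵥ v = c • v

lemma stableLineOver_iff (r : G →* GL (Fin 2) k) (H : Subgroup G) :
    StableLineOver K r H ↔ StableLineOn (baseChangeRep K r) H := Iff.rfl

lemma trace_map_algebraMap (A : Matrix (Fin 2) (Fin 2) k) :
    (A.map (algebraMap k K)).trace = algebraMap k K A.trace := by
  simp [Matrix.trace_fin_two]

lemma det_map_algebraMap (A : Matrix (Fin 2) (Fin 2) k) :
    (A.map (algebraMap k K)).det = algebraMap k K A.det := by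
  simp [Matrix.det_fin_two]

lemma disc_map_algebraMap (A : Matrix (Fin 2) (Fin 2) k) :
    disc (A.map (algebraMap k K)) = algebraMap k K (disc A) := by
  unfold disc
  rw [trace_map_algebraMap, det_map_algebraMap, map_sub, map_pow, map_mul]
  congr 2
  exact (map_ofNat (algebraMap k K) 4).symm

/-- **Choice of `σ`**, rational form.  `r : G →* GL₂(k)`, `char k ≠ 2`, `N ≤ G` a subgroup on which
`r` has no stable line over the algebraically closed extension `K`.  For every nonzero traceless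
`w ∈ M₂(k)` there is `σ ∈ N` with `tr(r σ)² - 4 det(r σ) ≠ 0` and `tr (w · r σ) ≠ 0`. -/
theorem exists_mem_regular_trace_ne_zero [IsAlgClosed K] (h2 : (2 : k) ≠ 0)
    (r : G →* GL (Fin 2) k) (N : Subgroup G) (hirr : ¬ StableLineOver K r N)
    {w : Matrix (Fin 2) (Fin 2) k} (hw0 : w ≠ 0) (hw : w.trace = 0) :
    ∃ σ ∈ N, disc (r σ : Matrix (Fin 2) (Fin 2) k) ≠ 0 ∧
      (w * (r σ : Matrix (Fin 2) (Fin 2) k)).trace ≠ 0 := by
  have hinj : Function.Injective (algebraMap k K) := (algebraMap k K).injective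
  have h2K : (2 : K) ≠ 0 := by
    have : (2 : K) = algebraMap k K 2 := (map_ofNat (algebraMap k K) 2).symm
    rw [this]; exact fun h => h2 (hinj (by rw [h, map_zero]))
  have hirr' : ¬ HasStableLine (N.map (baseChangeRep K r)) := by
    rintro ⟨v, hv0, hv⟩
    exact hirr ⟨v, hv0, fun g hg => hv _ (Subgroup.mem_map_of_mem _ hg)⟩
  have hw0' : w.map (algebraMap k K) ≠ 0 := by
    intro h
    apply hw0
    ext i j
    have := congrFun (congrFun h i) j
    simp only [Matrix.map_apply, Matrix.zero_apply] at this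
    rw [Matrix.zero_apply]
    exact hinj (by rw [this, map_zero])
  have hw' : (w.map (algebraMap k K)).trace = 0 := by rw [trace_map_algebraMap, hw, map_zero]
  obtain ⟨σ', hσ', hd, htr⟩ := exists_regular_trace_ne_zero h2K _ hirr' hw0' hw'
  obtain ⟨σ, hσ, rfl⟩ := Subgroup.mem_map.mp hσ'
  refine ⟨σ, hσ, ?_, ?_⟩
  · intro h
    apply hd
    rw [coe_baseChangeRep, disc_map_algebraMap, h, map_zero]
  · intro h
    apply htr
    rw [coe_baseChangeRep, ← Matrix.map_mul, trace_map_algebraMap, h, map_zero]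

/-- **Clifford-type lemma**, rational form. -/
theorem not_stableLineOver_of_cyclic_quotient [IsAlgClosed K] (r : G →* GL (Fin 2) k)
    (N : Subgroup G) [N.Normal] (g₀ : G)
    (hgen : ∀ g : G, ∃ i : ℤ, ∃ n ∈ N, g = g₀ ^ i * n)
    (hG : ¬ StableLineOver K r ⊤)
    (hH : ∀ H : Subgroup G, N ≤ H → H.index = 2 → ¬ StableLineOver K r H) :
    ¬ StableLineOver K r N :=
  not_stableLineOn_of_cyclic_quotient (baseChangeRep K r) N g₀ hgen hG hH

/-- A generator of a cyclic quotient: if `χ : G →* C` has cyclic target then `G` is generated by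
one element modulo `ker χ`. -/
theorem exists_zpow_mul_of_isCyclic {C : Type*} [Group C] [IsCyclic C] (χ : G →* C) :
    ∃ g₀ : G, ∀ g : G, ∃ i : ℤ, ∃ n ∈ χ.ker, g = g₀ ^ i * n := by
  obtain ⟨⟨c₀, hc₀⟩, hgen⟩ := (inferInstance : IsCyclic χ.range).exists_generator
  obtain ⟨g₀, rfl⟩ := MonoidHom.mem_range.mp hc₀
  refine ⟨g₀, fun g => ?_⟩
  obtain ⟨i, hi⟩ := Subgroup.mem_zpowers_iff.mp (hgen ⟨χ g, MonoidHom.mem_range.mpr ⟨g, rfl⟩⟩)
  have hi' : χ g₀ ^ i = χ g := by
    have := congrArg Subtype.val hi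
    simpa using this
  refine ⟨i, (g₀ ^ i)⁻¹ * g, ?_, by group⟩
  rw [MonoidHom.mem_ker, map_mul, map_inv, map_zpow, hi', inv_mul_cancel]

/-- The Clifford-type lemma for the kernel of a character with cyclic target. -/
theorem not_stableLineOver_ker_of_isCyclic [IsAlgClosed K] {C : Type*} [Group C] [IsCyclic C]
    (r : G →* GL (Fin 2) k) (χ : G →* C)
    (hG : ¬ StableLineOver K r ⊤)
    (hH : ∀ H : Subgroup G, H.index = 2 → ¬ StableLineOver K r H) :
    ¬ StableLineOver K r χ.ker := by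
  obtain ⟨g₀, hg₀⟩ := exists_zpow_mul_of_isCyclic χ
  exact not_stableLineOver_of_cyclic_quotient r χ.ker g₀ hg₀ hG (fun H _ hi => hH H hi)

end Wrappers

section Eigenvalues

variable {k : Type*} [Field k]

open Polynomial in
/-- If the characteristic polynomial splits as `(X - α)(X - β)` and the discriminant is nonzero then
`α ≠ β`. -/
theorem ne_of_charpoly_eq {A : Matrix (Fin 2) (Fin 2) k} (hd : disc A ≠ 0) {α β : k}
    (h : A.charpoly = (X - C α) * (X - C β)) : α ≠ β := by
  rintro rfl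
  apply hd
  rw [Matrix.charpoly_fin_two] at h
  have h0 := congrArg (Polynomial.eval 0) h
  have h1 := congrArg (Polynomial.eval 1) h
  simp only [eval_add, eval_sub, eval_pow, eval_X, eval_mul, eval_C] at h0 h1
  unfold disc
  have hdet : A.det = α * α := by linear_combination h0
  have htr : A.trace = 2 * α := by linear_combination h0 - h1
  rw [hdet, htr]; ring

end Eigenvalues

section Range

variable {k : Type*} [Field k]

/-- Elements of `(Ad σ - 1) M₂(k)` are orthogonal to `σ` for the trace form. -/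
theorem trace_mul_eq_zero_of_mem_range (σ : GL (Fin 2) k) (B : Matrix (Fin 2) (Fin 2) k) :
    (((σ : Matrix (Fin 2) (Fin 2) k) * B * ((σ⁻¹ : GL (Fin 2) k) : Matrix (Fin 2) (Fin 2) k) - B) *
      (σ : Matrix (Fin 2) (Fin 2) k)).trace = 0 := by
  rw [Matrix.sub_mul, Matrix.trace_sub, Matrix.mul_assoc, Matrix.mul_assoc, Units.inv_mul,
    Matrix.mul_one, Matrix.trace_mul_comm, sub_self]

/-- If `tr (w σ) ≠ 0` then `w ∉ (Ad σ - 1) M₂(k)`. -/
theorem ne_conj_sub_of_trace_ne_zero (σ : GL (Fin 2) k) {w : Matrix (Fin 2) (Fin 2) k}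
    (hw : (w * (σ : Matrix (Fin 2) (Fin 2) k)).trace ≠ 0) (B : Matrix (Fin 2) (Fin 2) k) :
    (σ : Matrix (Fin 2) (Fin 2) k) * B * ((σ⁻¹ : GL (Fin 2) k) : Matrix (Fin 2) (Fin 2) k) - B ≠ w := by
  intro h
  apply hw
  rw [← h]
  exact trace_mul_eq_zero_of_mem_range σ B

/-- The `τ`-step: if `w ∉ U` then for every `x` one of `x`, `w + x` is not in `U`. -/
theorem not_mem_or_add_not_mem {M : Type*} [AddCommGroup M] [Module k M] (U : Submodule k M)
    {w : M} (hw : w ∉ U) (x : M) : x ∉ U ∨ w + x ∉ U := by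
  by_cases hx : x ∈ U
  · right
    intro h
    exact hw ((Submodule.add_mem_iff_left U hx).mp h)
  · exact Or.inl hx

/-- The `τ`-step for an additive subgroup `Φ` not contained in the subspace `U`. -/
theorem exists_add_not_mem {M : Type*} [AddCommGroup M] [Module k M] (U : Submodule k M)
    (Φ : AddSubgroup M) (hΦ : ¬ (Φ : Set M) ⊆ U) (x : M) : ∃ f ∈ Φ, f + x ∉ U := by
  obtain ⟨w, hwΦ, hwU⟩ := Set.not_subset.mp hΦ
  rcases not_mem_or_add_not_mem U hwU x with h | h
  · exact ⟨0, Φ.zero_mem, by rwa [zero_add]⟩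
  · exact ⟨w, hwΦ, h⟩

end Range

end Fermat.Agent.S56x.Group.SigmaChoice
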