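/-
P-S56 (Taylor–Wiles primes), block (D) GROUP THEORY: the ADAPTER between the language of the
Prelude (`ρ : G →* Module.End k V`, `Module.finrank k V = 2`, e.g. `ResidualGaloisRep.ρ`) and the
matrix language of block (D) (`Group/Cocycle.lean`: `r : G →* GL (Fin 2) k`, `adTwMat`,
`IsCocycle`, `IsCoboundary`).  (helper95)

* `matHom b ρ : G →* Matrix (Fin 2) (Fin 2) k`, `matRep b ρ : G →* GL (Fin 2) k` for a basis `b`;
  `matRep_val`, `matRep_inv_val`, `det_matRep`, `charpoly_eq`, `trace_eq`;
* `disc_ne_zero_iff` : given a splitting of the characteristic polynomial over `k`, the two roots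
  are distinct iff `trace² - 4 det ≠ 0`;
* `endTw ρ g X = det (ρ g) • (ρ g * X * ρ g⁻¹)`, `IsEndCocycle`, `IsEndCoboundary`, `InEndRange`
  and their matrix translations `isEndCocycle_iff`, `isEndCoboundary_iff`, `inEndRange_iff`;
* stable lines: `exists_stable_submodule_of_stable_line` and its two specialisations to the frozen
  hypotheses `habs` / `hTW` of S56: `noStableLine_of_isAbsolutelyIrreducible`,
  `noStableLine_of_index_two`, and in the `StableLineOver` form of `Group/SigmaChoice.lean`:
  `not_stableLineOver_top`, `not_stableLineOver_of_index_two`, `not_stableLineOver_ker`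
  (no stable line on the kernel of a character with cyclic target, e.g. the cyclotomic character
  modulo `p ^ (n + 1)`).
-/
import Mathlib
import Fermat.Prelude.Def_GaloisRep_Residual
import Fermat.Agent.S56x.Group.Cocycle
import Fermat.Agent.S56x.Group.SigmaChoice

set_option autoImplicit false
set_option linter.style.haveILetI false
set_option linter.unusedSectionVars false

open Matrix Polynomial
open scoped TensorProduct

noncomputable section

namespace Fermat.Agent.S56x.Group.EndAdapter

open Fermat.Agent.S56x.Group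

section general

variable {k : Type*} [Field k] {V : Type*} [AddCommGroup V] [Module k V]
variable {G : Type*} [Group G]

/-! ### (1) the matrix form of a representation -/

/-- The matrix form of `ρ` in the basis `b`, as a monoid homomorphism to matrices. -/
def matHom (b : Module.Basis (Fin 2) k V) (ρ : G →* Module.End k V) :
    G →* Matrix (Fin 2) (Fin 2) k :=
  ((LinearMap.toMatrixAlgEquiv b : Module.End k V ≃ₐ[k] Matrix (Fin 2) (Fin 2) k) :
    Module.End k V →* Matrix (Fin 2) (Fin 2) k).comp ρ

theorem matHom_apply (b : Module.Basis (Fin 2) k V) (ρ : G →* Module.End k V) (g : G) :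
    matHom b ρ g = LinearMap.toMatrix b b (ρ g) := rfl

/-- The matrix form of `ρ` in the basis `b`, with values in `GL₂(k)`. -/
def matRep (b : Module.Basis (Fin 2) k V) (ρ : G →* Module.End k V) :
    G →* GL (Fin 2) k :=
  (matHom b ρ).toHomUnits

theorem matRep_val (b : Module.Basis (Fin 2) k V) (ρ : G →* Module.End k V) (g : G) :
    ((matRep b ρ g : GL (Fin 2) k) : Matrix (Fin 2) (Fin 2) k) = LinearMap.toMatrix b b (ρ g) :=
  rfl

theorem matRep_inv_val (b : Module.Basis (Fin 2) k V) (ρ : G →* Module.End k V) (g : G) :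
    (((matRep b ρ g)⁻¹ : GL (Fin 2) k) : Matrix (Fin 2) (Fin 2) k) =
      LinearMap.toMatrix b b (ρ g⁻¹) := by
  rw [← map_inv, matRep_val]

theorem det_matRep (b : Module.Basis (Fin 2) k V) (ρ : G →* Module.End k V) (g : G) :
    ((Matrix.GeneralLinearGroup.det (matRep b ρ g) : kˣ) : k) = LinearMap.det (ρ g) := by
  rw [Matrix.GeneralLinearGroup.val_det_apply, matRep_val, LinearMap.det_toMatrix]

theorem det_toMatrix_eq (b : Module.Basis (Fin 2) k V) (f : Module.End k V) :
    (LinearMap.toMatrix b b f).det = LinearMap.det f := LinearMap.det_toMatrix b f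

theorem charpoly_toMatrix_eq [Module.Finite k V] (b : Module.Basis (Fin 2) k V)
    (f : Module.End k V) : (LinearMap.toMatrix b b f).charpoly = LinearMap.charpoly f :=
  LinearMap.charpoly_toMatrix f b

theorem charpoly_eq [Module.Finite k V] (b : Module.Basis (Fin 2) k V) (ρ : G →* Module.End k V)
    (g : G) :
    LinearMap.charpoly (ρ g) =
      ((matRep b ρ g : GL (Fin 2) k) : Matrix (Fin 2) (Fin 2) k).charpoly := by
  rw [matRep_val, LinearMap.charpoly_toMatrix]

theorem trace_toMatrix_eq (b : Module.Basis (Fin 2) k V) (f : Module.End k V) :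
    (LinearMap.toMatrix b b f).trace = LinearMap.trace k V f :=
  (LinearMap.trace_eq_matrix_trace k b f).symm

theorem trace_eq (b : Module.Basis (Fin 2) k V) (ρ : G →* Module.End k V) (g : G) :
    LinearMap.trace k V (ρ g) =
      ((matRep b ρ g : GL (Fin 2) k) : Matrix (Fin 2) (Fin 2) k).trace := by
  rw [matRep_val, LinearMap.trace_eq_matrix_trace k b]

/-- If the characteristic polynomial of a `2 × 2` matrix is `(X - α)(X - β)` then
`trace = α + β` and `det = α β`. -/
theorem trace_det_of_charpoly (M : Matrix (Fin 2) (Fin 2) k) (α β : k)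
    (h : M.charpoly = (X - C α) * (X - C β)) : M.trace = α + β ∧ M.det = α * β := by
  have h2 : ((X - C α) * (X - C β) : k[X]) = X ^ 2 - C (α + β) * X + C (α * β) := by
    rw [map_add, map_mul]; ring
  rw [Matrix.charpoly_fin_two, h2] at h
  have c0 := congrArg (fun q : k[X] => q.coeff 0) h
  have c1 := congrArg (fun q : k[X] => q.coeff 1) h
  simp [coeff_C, coeff_X] at c0 c1
  refine ⟨?_, c0⟩
  have : -M.trace = -(α + β) := by rw [c1]; ring
  exact neg_injective this

/-- Conversely a `2 × 2` matrix with `trace = α + β`, `det = α β` has characteristic polynomial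
`(X - α)(X - β)`. -/
theorem charpoly_of_trace_det (M : Matrix (Fin 2) (Fin 2) k) (α β : k)
    (ht : M.trace = α + β) (hd : M.det = α * β) : M.charpoly = (X - C α) * (X - C β) := by
  rw [Matrix.charpoly_fin_two, ht, hd, map_add, map_mul]; ring

/-- Given a splitting of the characteristic polynomial of the matrix `M` over `k`, the two roots
can be chosen distinct iff the discriminant `trace² - 4 det` is nonzero. -/
theorem disc_ne_zero_iff_matrix (M : Matrix (Fin 2) (Fin 2) k)
    (hs : ∃ α β : k, M.charpoly = (X - C α) * (X - C β)) :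
    (∃ α β : k, α ≠ β ∧ M.charpoly = (X - C α) * (X - C β)) ↔
      M.trace ^ 2 - 4 * M.det ≠ 0 := by
  constructor
  · rintro ⟨α, β, hne, h⟩
    obtain ⟨ht, hd⟩ := trace_det_of_charpoly M α β h
    rw [ht, hd]
    have : (α + β) ^ 2 - 4 * (α * β) = (α - β) ^ 2 := by ring
    rw [this]
    exact pow_ne_zero 2 (sub_ne_zero.mpr hne)
  · intro hd
    obtain ⟨α, β, h⟩ := hs
    refine ⟨α, β, ?_, h⟩
    rintro rfl
    obtain ⟨ht, hd'⟩ := trace_det_of_charpoly M α α h
    apply hd
    rw [ht, hd']; ring

/-- Given a splitting of the characteristic polynomial of `ρ g` over `k` (the frozen hypothesis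
`hsplit` of S56), the two roots can be chosen distinct iff the discriminant of the matrix of
`ρ g` is nonzero. -/
theorem disc_ne_zero_iff [Module.Finite k V] (b : Module.Basis (Fin 2) k V)
    (ρ : G →* Module.End k V) (g : G)
    (hs : ∃ α β : k, LinearMap.charpoly (ρ g) = (X - C α) * (X - C β)) :
    (∃ α β : k, α ≠ β ∧ LinearMap.charpoly (ρ g) = (X - C α) * (X - C β)) ↔
      ((matRep b ρ g : GL (Fin 2) k) : Matrix (Fin 2) (Fin 2) k).trace ^ 2 -
        4 * ((matRep b ρ g : GL (Fin 2) k) : Matrix (Fin 2) (Fin 2) k).det ≠ 0 := by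
  rw [charpoly_eq b ρ g] at hs ⊢
  exact disc_ne_zero_iff_matrix _ hs

/-! ### (2) the dictionary for cocycles with values in `ad⁰(1)` -/

/-- The adjoint action on endomorphisms twisted by the determinant:
`X ↦ det (ρ g) • (ρ g ∘ X ∘ ρ g⁻¹)`. -/
def endTw (ρ : G →* Module.End k V) (g : G) (X : Module.End k V) : Module.End k V :=
  LinearMap.det (ρ g) • (ρ g * X * ρ g⁻¹)

theorem toMatrix_endTw (b : Module.Basis (Fin 2) k V) (ρ : G →* Module.End k V) (g : G)
    (X : Module.End k V) :
    LinearMap.toMatrix b b (endTw ρ g X) =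
      adTwMat (matRep b ρ g) (LinearMap.toMatrix b b X) := by
  unfold endTw adTwMat
  rw [det_matRep, matRep_val, matRep_inv_val, map_smul, LinearMap.toMatrix_mul,
    LinearMap.toMatrix_mul]

theorem endTw_toLin (b : Module.Basis (Fin 2) k V) (ρ : G →* Module.End k V) (g : G)
    (m : Matrix (Fin 2) (Fin 2) k) :
    endTw ρ g (Matrix.toLin b b m) = Matrix.toLin b b (adTwMat (matRep b ρ g) m) := by
  apply (LinearMap.toMatrix b b).injective
  rw [toMatrix_endTw, LinearMap.toMatrix_toLin, LinearMap.toMatrix_toLin]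

/-- `Ψ : G → End V` is a 1-cocycle for the twisted adjoint action. -/
def IsEndCocycle (ρ : G →* Module.End k V) (Ψ : G → Module.End k V) : Prop :=
  ∀ g h : G, Ψ (g * h) = Ψ g + endTw ρ g (Ψ h)

/-- `Ψ : G → End V` is the coboundary of a trace-zero endomorphism. -/
def IsEndCoboundary (ρ : G →* Module.End k V) (Ψ : G → Module.End k V) : Prop :=
  ∃ m : Module.End k V, LinearMap.trace k V m = 0 ∧ ∀ g : G, Ψ g = endTw ρ g m - m

/-- `Y ∈ (σ - 1) ad⁰(1)`: `Y = det (ρ σ) • ρ σ X ρ σ⁻¹ - X` for some trace-zero `X`. -/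
def InEndRange (ρ : G →* Module.End k V) (σ : G) (Y : Module.End k V) : Prop :=
  ∃ X : Module.End k V, LinearMap.trace k V X = 0 ∧ Y = endTw ρ σ X - X

theorem isEndCocycle_iff (b : Module.Basis (Fin 2) k V) (ρ : G →* Module.End k V)
    (Ψ : G → Module.End k V) :
    IsEndCocycle ρ Ψ ↔ IsCocycle (matRep b ρ) (fun g => LinearMap.toMatrix b b (Ψ g)) := by
  constructor
  · intro h g x
    show LinearMap.toMatrix b b (Ψ (g * x)) = _
    rw [h g x, map_add, toMatrix_endTw]
  · intro h g x
    apply (LinearMap.toMatrix b b).injective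
    rw [map_add, toMatrix_endTw]
    exact h g x

theorem isEndCoboundary_iff (b : Module.Basis (Fin 2) k V) (ρ : G →* Module.End k V)
    (Ψ : G → Module.End k V) :
    IsEndCoboundary ρ Ψ ↔ IsCoboundary (matRep b ρ) (fun g => LinearMap.toMatrix b b (Ψ g)) := by
  constructor
  · rintro ⟨m, hm, h⟩
    refine ⟨LinearMap.toMatrix b b m, by rw [trace_toMatrix_eq, hm], fun g => ?_⟩
    show LinearMap.toMatrix b b (Ψ g) = _
    rw [h g, map_sub, toMatrix_endTw]
  · rintro ⟨m, hm, h⟩
    refine ⟨Matrix.toLin b b m, ?_, fun g => ?_⟩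
    · rw [← trace_toMatrix_eq b, LinearMap.toMatrix_toLin, hm]
    · apply (LinearMap.toMatrix b b).injective
      rw [map_sub, toMatrix_endTw, LinearMap.toMatrix_toLin]
      exact h g

theorem inEndRange_iff (b : Module.Basis (Fin 2) k V) (ρ : G →* Module.End k V) (σ : G)
    (Y : Module.End k V) :
    InEndRange ρ σ Y ↔ ∃ m : Matrix (Fin 2) (Fin 2) k, m.trace = 0 ∧
      LinearMap.toMatrix b b Y = adTwMat (matRep b ρ σ) m - m := by
  constructor
  · rintro ⟨X, hX, h⟩
    refine ⟨LinearMap.toMatrix b b X, by rw [trace_toMatrix_eq, hX], ?_⟩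
    rw [h, map_sub, toMatrix_endTw]
  · rintro ⟨m, hm, h⟩
    refine ⟨Matrix.toLin b b m, ?_, ?_⟩
    · rw [← trace_toMatrix_eq b, LinearMap.toMatrix_toLin, hm]
    · apply (LinearMap.toMatrix b b).injective
      rw [map_sub, toMatrix_endTw, LinearMap.toMatrix_toLin]
      exact h

theorem trace_toMatrix_eq_zero_iff (b : Module.Basis (Fin 2) k V) (Ψ : G → Module.End k V) :
    (∀ g, LinearMap.trace k V (Ψ g) = 0) ↔ ∀ g, (LinearMap.toMatrix b b (Ψ g)).trace = 0 := by
  simp only [trace_toMatrix_eq]

/-! ### (3) stable lines and stable submodules after base change -/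

/-- A line `K v` in `K²` stable under the matrices of `ρ g`, `g ∈ H`, gives a proper nonzero
`K`-submodule of `K ⊗[k] V` stable under `(ρ g).baseChange K`, `g ∈ H`. -/
theorem exists_stable_submodule_of_stable_line (b : Module.Basis (Fin 2) k V)
    (ρ : G →* Module.End k V) (K : Type*) [Field K] [Algebra k K] (H : Set G)
    (v : Fin 2 → K) (hv : v ≠ 0)
    (hstab : ∀ g ∈ H, ∃ c : K,
      (LinearMap.toMatrix b b (ρ g)).map (algebraMap k K) *ᵥ v = c • v) :
    ∃ W : Submodule K (K ⊗[k] V), W ≠ ⊥ ∧ W ≠ ⊤ ∧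
      ∀ g ∈ H, ∀ x ∈ W, (ρ g).baseChange K x ∈ W := by
  classical
  set B : Module.Basis (Fin 2) K (K ⊗[k] V) := Algebra.TensorProduct.basis K b with hB
  set x : K ⊗[k] V := B.equivFun.symm v with hx
  have hrepr : ∀ i, B.repr x i = v i := by
    intro i
    have : B.equivFun x = v := by rw [hx, LinearEquiv.apply_symm_apply]
    exact congrFun this i
  have hx0 : x ≠ 0 := by
    intro h0
    apply hv
    funext i
    rw [← hrepr i, h0]
    simp
  refine ⟨K ∙ x, ?_, ?_, ?_⟩
  · rw [Ne, Submodule.span_singleton_eq_bot]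
    exact hx0
  · intro htop
    have h1 : Module.finrank K (K ∙ x) = 1 := finrank_span_singleton hx0
    rw [htop, finrank_top, Module.finrank_eq_card_basis B] at h1
    simp at h1
  · intro g hg y hy
    obtain ⟨a, rfl⟩ := Submodule.mem_span_singleton.mp hy
    obtain ⟨c, hc⟩ := hstab g hg
    have hgx : (ρ g).baseChange K x = c • x := by
      apply B.repr.injective
      ext i
      have h1 := LinearMap.toMatrix_mulVec_repr B B ((ρ g).baseChange K) x
      rw [hB, LinearMap.toMatrix_baseChange, ← hB] at h1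
      have h2 : (fun i => B.repr x i) = v := funext hrepr
      have h3 : ((B.repr x : Fin 2 →₀ K) : Fin 2 → K) = v := h2
      rw [h3, hc] at h1
      have h4 := congrFun h1 i
      rw [map_smul, Finsupp.smul_apply, hrepr i, ← h4]
      rfl
    rw [map_smul, hgx, smul_smul]
    exact Submodule.mem_span_singleton.mpr ⟨a * c, rfl⟩

end general

/-! ### the frozen hypotheses of S56 in matrix form -/

section prelude

local notation "Γℚ" => (AlgebraicClosure ℚ ≃ₐ[ℚ] AlgebraicClosure ℚ)

variable {k : Type} [Field k]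

/-- A basis of the space of a residual representation. -/
def resBasis (ρbar : ResidualGaloisRep k) : Module.Basis (Fin 2) k ρbar.V :=
  Module.finBasisOfFinrankEq k ρbar.V ρbar.finrank_eq

/-- `habs` in matrix form: over the algebraic closure the matrices of `ρbar` have no common
eigenvector. -/
theorem noStableLine_of_isAbsolutelyIrreducible (ρbar : ResidualGaloisRep k)
    (habs : ρbar.IsAbsolutelyIrreducible) (b : Module.Basis (Fin 2) k ρbar.V)
    (v : Fin 2 → AlgebraicClosure k) (hv : v ≠ 0) :
    ¬ ∀ g : Γℚ, ∃ c : AlgebraicClosure k,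
      (LinearMap.toMatrix b b (ρbar.ρ g)).map (algebraMap k (AlgebraicClosure k)) *ᵥ v =
        c • v := by
  intro hstab
  obtain ⟨W, hW0, hW1, hW⟩ := exists_stable_submodule_of_stable_line b ρbar.ρ
    (AlgebraicClosure k) Set.univ v hv (fun g _ => hstab g)
  rcases habs W (fun σ x hx => hW σ (Set.mem_univ σ) x hx) with h | h
  · exact hW0 h
  · exact hW1 h

/-- `hTW` in matrix form: over any field extension `K` of `k`, the matrices of `ρbar` on a
subgroup of index `2` have no common eigenvector. -/
theorem noStableLine_of_index_two (ρbar : ResidualGaloisRep k)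
    (hTW : ∀ (K : Type) [Field K] [Algebra k K] (G : Subgroup Γℚ), G.index = 2 →
      ∀ V : Submodule K (ρbar.baseChange K).V,
        (∀ σ ∈ G, ∀ x ∈ V, (ρbar.baseChange K).ρ σ x ∈ V) → V = ⊥ ∨ V = ⊤)
    (b : Module.Basis (Fin 2) k ρbar.V) (K : Type) [Field K] [Algebra k K]
    (H : Subgroup Γℚ) (hH : H.index = 2) (v : Fin 2 → K) (hv : v ≠ 0) :
    ¬ ∀ g ∈ H, ∃ c : K,
      (LinearMap.toMatrix b b (ρbar.ρ g)).map (algebraMap k K) *ᵥ v = c • v := by
  intro hstab
  obtain ⟨W, hW0, hW1, hW⟩ := exists_stable_submodule_of_stable_line b ρbar.ρ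
    K (H : Set Γℚ) v hv hstab
  rcases hTW K H hH W (fun σ hσ x hx => hW σ hσ x hx) with h | h
  · exact hW0 h
  · exact hW1 h

open Fermat.Agent.S56x.Group.SigmaChoice in
/-- `habs` in the `StableLineOver` form of `Group/SigmaChoice.lean`. -/
theorem not_stableLineOver_top (ρbar : ResidualGaloisRep k)
    (habs : ρbar.IsAbsolutelyIrreducible) (b : Module.Basis (Fin 2) k ρbar.V) :
    ¬ StableLineOver (AlgebraicClosure k) (matRep b ρbar.ρ) ⊤ := by
  rintro ⟨v, hv, hstab⟩
  exact noStableLine_of_isAbsolutelyIrreducible ρbar habs b v hv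
    (fun g => hstab g (Subgroup.mem_top g))

open Fermat.Agent.S56x.Group.SigmaChoice in
/-- `hTW` in the `StableLineOver` form of `Group/SigmaChoice.lean`. -/
theorem not_stableLineOver_of_index_two (ρbar : ResidualGaloisRep k)
    (hTW : ∀ (K : Type) [Field K] [Algebra k K] (G : Subgroup Γℚ), G.index = 2 →
      ∀ V : Submodule K (ρbar.baseChange K).V,
        (∀ σ ∈ G, ∀ x ∈ V, (ρbar.baseChange K).ρ σ x ∈ V) → V = ⊥ ∨ V = ⊤)
    (b : Module.Basis (Fin 2) k ρbar.V) (K : Type) [Field K] [Algebra k K]
    (H : Subgroup Γℚ) (hH : H.index = 2) :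
    ¬ StableLineOver K (matRep b ρbar.ρ) H := by
  rintro ⟨v, hv, hstab⟩
  exact noStableLine_of_index_two ρbar hTW b K H hH v hv hstab

open Fermat.Agent.S56x.Group.SigmaChoice in
/-- `habs` + `hTW` ⟹ no stable line over the algebraic closure on the kernel of any character
with cyclic target (Clifford-type lemma of `Group/SigmaChoice.lean`); e.g. the absolute Galois
group of `ℚ(ζ_{p^(n+1)})`, `p` odd. -/
theorem not_stableLineOver_ker (ρbar : ResidualGaloisRep k)
    (habs : ρbar.IsAbsolutelyIrreducible)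
    (hTW : ∀ (K : Type) [Field K] [Algebra k K] (G : Subgroup Γℚ), G.index = 2 →
      ∀ V : Submodule K (ρbar.baseChange K).V,
        (∀ σ ∈ G, ∀ x ∈ V, (ρbar.baseChange K).ρ σ x ∈ V) → V = ⊥ ∨ V = ⊤)
    (b : Module.Basis (Fin 2) k ρbar.V) {C : Type*} [Group C] [IsCyclic C] (χ : Γℚ →* C) :
    ¬ StableLineOver (AlgebraicClosure k) (matRep b ρbar.ρ) χ.ker :=
  not_stableLineOver_ker_of_isCyclic (matRep b ρbar.ρ) χ (not_stableLineOver_top ρbar habs b)
    (fun H hH => not_stableLineOver_of_index_two ρbar hTW b (AlgebraicClosure k) H hH)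

end prelude

end Fermat.Agent.S56x.Group.EndAdapter

end
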