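/-
P-S56 (Taylor–Wiles primes), block (D) GROUP THEORY, file D5b (helper98).

The choice of `σ` (DDT Theorem 2.49) in the cocycle language of `Group/Cocycle.lean`
(`adTwMat g X = det g • g X g⁻¹`, `IsCocycle r ψ`): glue of `Group/SigmaChoice.lean`.

* `adTwMat_eq_conj_of_det_eq_one`: on elements of determinant one `adTwMat` is plain conjugation;
* `adTwMat_sub_ne_of_trace_ne_zero`: `det σ = 1`, `tr (w σ) ≠ 0 ⟹ w ∉ range (adTw σ - 1)`;
* `exists_good_sigma`: `ψ` a cocycle, `N ≤ G` a subgroup on which `det ∘ r = 1` and `r` has no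
  stable line over `K`; if `ψ τ₀ ≠ 0` for some `τ₀ ∈ N` with `r τ₀ = 1` then there is `σ ∈ N` with
  distinct eigenvalues such that `ψ σ ∉ range (adTw (r σ) - 1)`;
* `exists_good_sigma_charpoly`: the same with the eigenvalues `α ≠ β` exhibited from a splitting
  hypothesis on the characteristic polynomials.
-/
import Fermat.Agent.S56x.Group.Cocycle
import Fermat.Agent.S56x.Group.SigmaChoice

set_option autoImplicit false

open Matrix

namespace Fermat.Agent.S56x.Group.SigmaChoice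

variable {k : Type*} [Field k]

/-- On elements of determinant one the twisted adjoint action is plain conjugation. -/
theorem adTwMat_eq_conj_of_det_eq_one {σ : GL (Fin 2) k}
    (hσ : (σ : Matrix (Fin 2) (Fin 2) k).det = 1) (B : Matrix (Fin 2) (Fin 2) k) :
    adTwMat σ B = (σ : Matrix (Fin 2) (Fin 2) k) * B *
      ((σ⁻¹ : GL (Fin 2) k) : Matrix (Fin 2) (Fin 2) k) := by
  have h : ((Matrix.GeneralLinearGroup.det σ : kˣ) : k) = 1 := by
    rw [Matrix.GeneralLinearGroup.val_det_apply]; exact hσ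
  rw [adTwMat, h, one_smul]

/-- If `det σ = 1` and `tr (w σ) ≠ 0` then `w` is not in the range of `adTw σ - 1`. -/
theorem adTwMat_sub_ne_of_trace_ne_zero {σ : GL (Fin 2) k}
    (hσ : (σ : Matrix (Fin 2) (Fin 2) k).det = 1) {w : Matrix (Fin 2) (Fin 2) k}
    (hw : (w * (σ : Matrix (Fin 2) (Fin 2) k)).trace ≠ 0) (B : Matrix (Fin 2) (Fin 2) k) :
    adTwMat σ B - B ≠ w := by
  rw [adTwMat_eq_conj_of_det_eq_one hσ]
  exact ne_conj_sub_of_trace_ne_zero σ hw B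

/-- The range of `adTw σ - 1` as a subspace. -/
def adTwRange (σ : GL (Fin 2) k) : Submodule k (Matrix (Fin 2) (Fin 2) k) :=
  LinearMap.range (adTw σ - LinearMap.id)

theorem mem_adTwRange {σ : GL (Fin 2) k} {A : Matrix (Fin 2) (Fin 2) k} :
    A ∈ adTwRange σ ↔ ∃ B : Matrix (Fin 2) (Fin 2) k, adTwMat σ B - B = A := by
  simp [adTwRange, LinearMap.mem_range]

variable {K : Type*} [Field K] [Algebra k K] {G : Type*} [Group G]

/-- **Choice of `σ`, cocycle form.**  Let `ψ` be a cocycle for `r : G →* GL₂(k)` (`char k ≠ 2`)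
and `N ≤ G` a subgroup with `det (r σ) = 1` for `σ ∈ N` and such that `r|_N` has no stable line over
the algebraically closed extension `K`.  If `ψ τ₀ ≠ 0` for some `τ₀ ∈ N` acting trivially
(`r τ₀ = 1`), then there is `σ ∈ N` such that `r σ` has distinct eigenvalues and
`ψ σ ∉ (adTw (r σ) - 1) M₂(k)`.  Moreover `σ` may be chosen in `{σ', τ₀ σ'}`. -/
theorem exists_good_sigma [IsAlgClosed K] (h2 : (2 : k) ≠ 0) (r : G →* GL (Fin 2) k)
    {ψ : G → Matrix (Fin 2) (Fin 2) k} (hψ : IsCocycle r ψ) (htr : ∀ g, (ψ g).trace = 0)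
    (N : Subgroup G) (hdet : ∀ σ ∈ N, (r σ : Matrix (Fin 2) (Fin 2) k).det = 1)
    (hirr : ¬ StableLineOver K r N)
    {τ₀ : G} (hτ₀N : τ₀ ∈ N) (hτ₀r : r τ₀ = 1) (hτ₀ : ψ τ₀ ≠ 0) :
    ∃ σ ∈ N, disc (r σ : Matrix (Fin 2) (Fin 2) k) ≠ 0 ∧
      ∀ B : Matrix (Fin 2) (Fin 2) k, adTwMat (r σ) B - B ≠ ψ σ := by
  obtain ⟨σ, hσN, hd, hw⟩ :=
    exists_mem_regular_trace_ne_zero (K := K) h2 r N hirr hτ₀ (htr τ₀)
  have hwU : ψ τ₀ ∉ adTwRange (r σ) := by
    rw [mem_adTwRange]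
    rintro ⟨B, hB⟩
    exact adTwMat_sub_ne_of_trace_ne_zero (hdet σ hσN) hw B hB
  rcases not_mem_or_add_not_mem (adTwRange (r σ)) hwU (ψ σ) with h | h
  · exact ⟨σ, hσN, hd, fun B hB => h (mem_adTwRange.mpr ⟨B, hB⟩)⟩
  · have hr : r (τ₀ * σ) = r σ := by rw [map_mul, hτ₀r, one_mul]
    refine ⟨τ₀ * σ, N.mul_mem hτ₀N hσN, by rw [hr]; exact hd, fun B hB => h ?_⟩
    rw [hr] at hB
    have : ψ (τ₀ * σ) = ψ τ₀ + ψ σ := by rw [hψ τ₀ σ, hτ₀r, adTwMat_one]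
    rw [this] at hB
    exact mem_adTwRange.mpr ⟨B, hB⟩

open Polynomial in
/-- `exists_good_sigma` with the two distinct eigenvalues exhibited. -/
theorem exists_good_sigma_charpoly [IsAlgClosed K] (h2 : (2 : k) ≠ 0) (r : G →* GL (Fin 2) k)
    {ψ : G → Matrix (Fin 2) (Fin 2) k} (hψ : IsCocycle r ψ) (htr : ∀ g, (ψ g).trace = 0)
    (N : Subgroup G) (hdet : ∀ σ ∈ N, (r σ : Matrix (Fin 2) (Fin 2) k).det = 1)
    (hirr : ¬ StableLineOver K r N)
    (hsplit : ∀ g : G, ∃ α β : k,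
      (r g : Matrix (Fin 2) (Fin 2) k).charpoly = (X - C α) * (X - C β))
    {τ₀ : G} (hτ₀N : τ₀ ∈ N) (hτ₀r : r τ₀ = 1) (hτ₀ : ψ τ₀ ≠ 0) :
    ∃ σ ∈ N, (∃ α β : k, α ≠ β ∧
        (r σ : Matrix (Fin 2) (Fin 2) k).charpoly = (X - C α) * (X - C β)) ∧
      ∀ B : Matrix (Fin 2) (Fin 2) k, adTwMat (r σ) B - B ≠ ψ σ := by
  obtain ⟨σ, hσN, hd, hB⟩ := exists_good_sigma (K := K) h2 r hψ htr N hdet hirr hτ₀N hτ₀r hτ₀
  obtain ⟨α, β, hαβ⟩ := hsplit σ
  exact ⟨σ, hσN, ⟨α, β, ne_of_charpoly_eq hd hαβ, hαβ⟩, hB⟩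

end Fermat.Agent.S56x.Group.SigmaChoice
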