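/-
P-S56 (Taylor–Wiles primes), block (D) GROUP THEORY: the choice of `σ` (DDT Theorem 2.49) in the
language of the Prelude, for a residual representation `ρbar : ResidualGaloisRep k` satisfying
the frozen hypotheses `habs`, `hdet`, `hsplit`, `hTW` of S56.  (helper95)

Glue of `Group/EndAdapter.lean` (adapter `End k V` ↔ matrices) and `Group/SigmaChoiceTw.lean`
(helper98: `exists_good_sigma_charpoly`).

* `mem_ker_autToPow_iff` : the kernel of the cyclotomic character `σ ↦ a`, `σ ζ = ζ ^ a`, is the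
  stabiliser of the primitive root `ζ`;
* `cast_prime_eq_zero_of_detIsCyclotomic`, `two_ne_zero_of_detIsCyclotomic`;
* `det_eq_one_of_fixes` : `hdet` ⟹ `det (ρbar σ) = 1` when `σ` fixes a primitive `p^(n+1)`-th
  root of unity;
* `exists_good_sigma_end` : if the twisted `End`-cocycle `Ψ` (values of trace `0`) does not vanish
  at some `τ₀` fixing `ζ` with `ρbar τ₀ = 1`, then there is `σ` fixing `ζ`, with two distinct
  eigenvalues in `k`, such that `Ψ σ ∉ (σ - 1) End(V)` (twisted adjoint action).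
-/
import Mathlib
import Fermat.Prelude.Def_GaloisRep_LocalConditions
import Fermat.Agent.S56x.Group.EndAdapter
import Fermat.Agent.S56x.Group.SigmaChoiceTw

set_option autoImplicit false
set_option linter.style.haveILetI false
set_option linter.unusedSectionVars false

open Matrix Polynomial

noncomputable section

namespace Fermat.Agent.S56x.Group.EndGoodSigma

open Fermat.Agent.S56x.Group Fermat.Agent.S56x.Group.EndAdapter
  Fermat.Agent.S56x.Group.SigmaChoice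

local notation "Qb" => AlgebraicClosure ℚ
local notation "Γℚ" => (AlgebraicClosure ℚ ≃ₐ[ℚ] AlgebraicClosure ℚ)

/-- The kernel of the cyclotomic character attached to a primitive `N`-th root of unity `ζ` is
the stabiliser of `ζ`. -/
theorem mem_ker_autToPow_iff {N : ℕ} [NeZero N] (hN : 1 < N) {ζ : Qb}
    (hζ : IsPrimitiveRoot ζ N) (σ : Γℚ) :
    σ ∈ (hζ.autToPow ℚ).ker ↔ σ ζ = ζ := by
  haveI : Fact (1 < N) := ⟨hN⟩
  have hspec := hζ.autToPow_spec ℚ σ
  rw [MonoidHom.mem_ker]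
  constructor
  · intro h
    rw [h, Units.val_one, ZMod.val_one, pow_one] at hspec
    exact hspec.symm
  · intro h
    rw [h] at hspec
    have h1 : ((hζ.autToPow ℚ σ : (ZMod N)ˣ) : ZMod N).val = 1 := by
      have := hζ.pow_inj (ZMod.val_lt _) hN (by rw [hspec, pow_one])
      exact this
    apply Units.ext
    apply ZMod.val_injective N
    rw [h1, Units.val_one, ZMod.val_one]

section field

variable {k : Type} [Field k]

theorem cast_prime_eq_zero_of_detIsCyclotomic (p : ℕ) (ρbar : ResidualGaloisRep k)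
    (hdet : (GaloisRepAdic.ofResidualGaloisRep ρbar).DetIsCyclotomic p) : (p : k) = 0 := by
  have h := hdet.1
  rw [IsLocalRing.isField_iff_maximalIdeal_eq.mp (Field.toIsField k)] at h
  exact h

theorem two_ne_zero_of_prime_cast_eq_zero {p : ℕ} (hp : p.Prime) (hp2 : p ≠ 2)
    (h : (p : k) = 0) : (2 : k) ≠ 0 := by
  intro h2
  have h1 : ringChar k ∣ p := (ringChar.spec k p).mp h
  have h2' : ringChar k ∣ 2 := (ringChar.spec k 2).mp (by exact_mod_cast h2)
  rcases (Nat.dvd_prime hp).mp h1 with h | h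
  · exact CharP.ringChar_ne_one h
  · rw [h] at h2'
    exact hp2 ((Nat.prime_dvd_prime_iff_eq hp Nat.prime_two).mp h2')

theorem two_ne_zero_of_detIsCyclotomic (p : ℕ) [Fact p.Prime] (hp2 : p ≠ 2)
    (ρbar : ResidualGaloisRep k)
    (hdet : (GaloisRepAdic.ofResidualGaloisRep ρbar).DetIsCyclotomic p) : (2 : k) ≠ 0 :=
  two_ne_zero_of_prime_cast_eq_zero Fact.out hp2
    (cast_prime_eq_zero_of_detIsCyclotomic p ρbar hdet)

/-- `hdet` ⟹ `det (ρbar σ) = 1` when `σ` fixes a primitive `p ^ (n + 1)`-th root of unity. -/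
theorem det_eq_one_of_fixes (p : ℕ) [Fact p.Prime] (ρbar : ResidualGaloisRep k)
    (hdet : (GaloisRepAdic.ofResidualGaloisRep ρbar).DetIsCyclotomic p)
    (n : ℕ) {ζ : Qb} (hζ : IsPrimitiveRoot ζ (p ^ (n + 1))) {σ : Γℚ} (hσ : σ ζ = ζ) :
    LinearMap.det (ρbar.ρ σ) = 1 := by
  have hp0 := cast_prime_eq_zero_of_detIsCyclotomic p ρbar hdet
  have hfix : ∀ μ : Qb, μ ^ p ^ 1 = 1 → σ μ = μ ^ 1 := by
    intro μ hμ
    rw [pow_one] at hμ ⊢
    have hμN : μ ^ p ^ (n + 1) = 1 := by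
      rw [pow_succ', pow_mul, hμ, one_pow]
    obtain ⟨i, -, rfl⟩ := hζ.eq_pow_of_pow_eq_one hμN
    rw [map_pow, hσ]
  have h := hdet.2 1 σ 1 hfix
  have h0 : ((p ^ 1 : ℕ) : k) = 0 := by rw [pow_one]; exact hp0
  rw [h0, Ideal.span_singleton_eq_bot.mpr rfl, Ideal.mem_bot, Nat.cast_one, sub_eq_zero] at h
  exact h

/-- **Choice of `σ`, Prelude form.**  `ρbar` satisfies the frozen hypotheses of S56, `ζ` is a
primitive `p ^ (n + 1)`-th root of unity, `Ψ : Γℚ → End(V)` is a 1-cocycle for the adjoint action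
twisted by `det ρbar` with values of trace `0`.  If `Ψ τ₀ ≠ 0` for some `τ₀` fixing `ζ` with
`ρbar τ₀ = 1`, then some `σ` fixing `ζ` has two distinct eigenvalues in `k` and
`Ψ σ ∉ (σ - 1) End(V)`. -/
theorem exists_good_sigma_end (p : ℕ) [Fact p.Prime] (hp2 : p ≠ 2)
    (ρbar : ResidualGaloisRep k) (habs : ρbar.IsAbsolutelyIrreducible)
    (hdet : (GaloisRepAdic.ofResidualGaloisRep ρbar).DetIsCyclotomic p)
    (hsplit : ∀ σ : Γℚ, ∃ α β : k, LinearMap.charpoly (ρbar.ρ σ) = (X - C α) * (X - C β))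
    (hTW : ∀ (K : Type) [Field K] [Algebra k K] (G : Subgroup Γℚ), G.index = 2 →
      ∀ V : Submodule K (ρbar.baseChange K).V,
        (∀ σ ∈ G, ∀ x ∈ V, (ρbar.baseChange K).ρ σ x ∈ V) → V = ⊥ ∨ V = ⊤)
    (n : ℕ) {ζ : Qb} (hζ : IsPrimitiveRoot ζ (p ^ (n + 1)))
    (Ψ : Γℚ → Module.End k ρbar.V) (hΨ : IsEndCocycle ρbar.ρ Ψ)
    (htr : ∀ g, LinearMap.trace k ρbar.V (Ψ g) = 0)
    {τ₀ : Γℚ} (hτ₀ζ : τ₀ ζ = ζ) (hτ₀ρ : ρbar.ρ τ₀ = 1) (hτ₀Ψ : Ψ τ₀ ≠ 0) :
    ∃ σ : Γℚ, σ ζ = ζ ∧ LinearMap.det (ρbar.ρ σ) = 1 ∧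
      (∃ α β : k, α ≠ β ∧ LinearMap.charpoly (ρbar.ρ σ) = (X - C α) * (X - C β)) ∧
      ∀ X : Module.End k ρbar.V, endTw ρbar.ρ σ X - X ≠ Ψ σ := by
  have hp : p.Prime := Fact.out
  have hN : 1 < p ^ (n + 1) := Nat.one_lt_pow (Nat.succ_ne_zero n) hp.one_lt
  haveI : NeZero (p ^ (n + 1)) := ⟨(Nat.zero_lt_of_lt hN).ne'⟩
  haveI : IsCyclic (ZMod (p ^ (n + 1)))ˣ := ZMod.isCyclic_units_of_prime_pow p hp hp2 (n + 1)
  set b := resBasis ρbar with hb
  set χ := hζ.autToPow ℚ with hχ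
  have h2 := two_ne_zero_of_detIsCyclotomic p hp2 ρbar hdet
  have hψ : IsCocycle (matRep b ρbar.ρ) (fun g => LinearMap.toMatrix b b (Ψ g)) :=
    (isEndCocycle_iff b ρbar.ρ Ψ).mp hΨ
  have htr' : ∀ g, (LinearMap.toMatrix b b (Ψ g)).trace = 0 := fun g => by
    rw [trace_toMatrix_eq, htr g]
  have hdetN : ∀ σ ∈ χ.ker,
      ((matRep b ρbar.ρ σ : GL (Fin 2) k) : Matrix (Fin 2) (Fin 2) k).det = 1 := by
    intro σ hσ
    rw [matRep_val, det_toMatrix_eq]
    exact det_eq_one_of_fixes p ρbar hdet n hζ ((mem_ker_autToPow_iff hN hζ σ).mp hσ)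
  have hirr := not_stableLineOver_ker ρbar habs hTW b χ
  have hsplit' : ∀ g : Γℚ, ∃ α β : k,
      ((matRep b ρbar.ρ g : GL (Fin 2) k) : Matrix (Fin 2) (Fin 2) k).charpoly =
        (X - C α) * (X - C β) := by
    intro g
    rw [← charpoly_eq b ρbar.ρ g]
    exact hsplit g
  have hτ₀N : τ₀ ∈ χ.ker := (mem_ker_autToPow_iff hN hζ τ₀).mpr hτ₀ζ
  have hτ₀r : matRep b ρbar.ρ τ₀ = 1 := by
    apply Units.ext
    rw [matRep_val, hτ₀ρ, Units.val_one]
    exact LinearMap.toMatrix_one b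
  have hτ₀ : LinearMap.toMatrix b b (Ψ τ₀) ≠ 0 := by
    intro h
    apply hτ₀Ψ
    apply (LinearMap.toMatrix b b).injective
    rw [h, map_zero]
  obtain ⟨σ, hσN, ⟨α, β, hαβ, hcp⟩, hB⟩ :=
    exists_good_sigma_charpoly (K := AlgebraicClosure k) h2 (matRep b ρbar.ρ) hψ htr' χ.ker hdetN
      hirr hsplit' hτ₀N hτ₀r hτ₀
  have hσζ : σ ζ = ζ := (mem_ker_autToPow_iff hN hζ σ).mp hσN
  refine ⟨σ, hσζ, det_eq_one_of_fixes p ρbar hdet n hζ hσζ, ⟨α, β, hαβ, ?_⟩, fun X hX => ?_⟩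
  · rw [charpoly_eq b ρbar.ρ σ]
    exact hcp
  · apply hB (LinearMap.toMatrix b b X)
    rw [← toMatrix_endTw, ← map_sub, hX]

end field

end Fermat.Agent.S56x.Group.EndGoodSigma

end
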