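/-
P-S56 (Taylor–Wiles primes), block (D) GROUP THEORY: from "`Ψ` is not a coboundary" to the choice
of `σ`, in the language of the Prelude.  (helper95)

* `irr2_of_not_stableLineOver` : the hypothesis `Kill.Irr2 (Kill.bc K r)` of `Kill/Select.lean`
  from the `StableLineOver` form; `irr2_matRep` : it holds for `matRep b ρbar.ρ` under the frozen
  hypotheses `habs` + `hTW` of S56;
* `eq_zero_of_adTwMat_fixed` : `(ad⁰(1))^G = 0`;
* `vanish_on_ker_of_comm` : a cocycle vanishing on a subgroup `N₀ ≤ ker r` containing the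
  commutators `[G, ker r]` vanishes on `ker r` (the central-`P` step of inflation–restriction, in
  explicit form);
* `GTStatement r` : every trace-zero cocycle vanishing on `ker r` is a coboundary (the group
  theoretic statement (GT) `H¹(Gbar, ad⁰ ⊗ det) = 0` of block (D));
* `exists_good_sigma_of_not_coboundary` : under the frozen hypotheses and (GT), a twisted
  `End`-cocycle `Ψ` which is not a coboundary admits `σ` fixing `ζ_{p^(n+1)}` with two distinct
  eigenvalues in `k` and `Ψ σ ∉ (σ - 1) End(V)`.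
-/
import Mathlib
import Fermat.Prelude.Def_GaloisRep_LocalConditions
import Fermat.Agent.S56x.Group.EndAdapter
import Fermat.Agent.S56x.Group.EndGoodSigma
import Fermat.Agent.S56x.Kill.Select

set_option autoImplicit false
set_option linter.style.haveILetI false
set_option linter.unusedSectionVars false

open Matrix Polynomial

noncomputable section

namespace Fermat.Agent.S56x.Group.EndKill

open Fermat.Agent.S56x.Group Fermat.Agent.S56x.Group.EndAdapter
  Fermat.Agent.S56x.Group.SigmaChoice Fermat.Agent.S56x.Group.EndGoodSigma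

section general

variable {k : Type*} [Field k] {G : Type*} [Group G]

/-- The irreducibility hypothesis of `Kill/Select.lean` from the `StableLineOver` form of
`Group/SigmaChoice.lean`. -/
theorem irr2_of_not_stableLineOver (K : Type*) [Field K] [Algebra k K] (r : G →* GL (Fin 2) k)
    (h : ∀ H : Subgroup G, (H.index = 1 ∨ H.index = 2) → ¬ StableLineOver K r H) :
    Kill.Irr2 (Kill.bc K r) := by
  intro H hH W hW
  by_contra hcon
  push Not at hcon
  obtain ⟨hbot, htop⟩ := hcon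
  obtain ⟨v, hvW, hv0⟩ := Submodule.exists_mem_ne_zero_of_ne_bot hbot
  apply h H hH
  refine ⟨v, hv0, fun g hg => ?_⟩
  have hlt : Module.finrank K W < 2 := by
    have := Submodule.finrank_lt htop
    simpa using this
  have hpos : 0 < Module.finrank K W := by
    rw [Module.finrank_pos_iff]
    exact ⟨⟨⟨v, hvW⟩, 0, fun h0 => hv0 (congrArg Subtype.val h0)⟩⟩
  have h1 : Module.finrank K W = 1 := by omega
  have hv0' : (⟨v, hvW⟩ : W) ≠ 0 := fun h0 => hv0 (congrArg Subtype.val h0)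
  obtain ⟨c, hc⟩ := (finrank_eq_one_iff_of_nonzero' (⟨v, hvW⟩ : W) hv0').mp h1
    ⟨_, hW g hg v hvW⟩
  refine ⟨c, ?_⟩
  have := congrArg Subtype.val hc
  exact this.symm

/-- `(ad⁰(1))^G = 0` under the irreducibility hypothesis of `Kill/Select.lean`. -/
theorem eq_zero_of_adTwMat_fixed (K : Type*) [Field K] [Algebra k K] [IsAlgClosed K]
    (h2 : (2 : k) ≠ 0) (r : G →* GL (Fin 2) k) (hirr : Kill.Irr2 (Kill.bc K r))
    (m : Matrix (Fin 2) (Fin 2) k) (hm : m.trace = 0) (hfix : ∀ g : G, adTwMat (r g) m = m) :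
    m = 0 := by
  by_contra hm0
  refine Kill.no_stable_line_base (K := K) h2 r hirr m hm0 hm (fun γ => ?_)
  refine ⟨(((Matrix.GeneralLinearGroup.det (r γ))⁻¹ : kˣ) : k), ?_⟩
  have h := hfix γ
  have h' : ((Matrix.GeneralLinearGroup.det (r γ) : kˣ) : k) • Kill.cj (r γ) m = m := h
  conv_rhs => rw [← h']
  rw [smul_smul, ← Units.val_mul, inv_mul_cancel, Units.val_one, one_smul]

/-- A cocycle vanishing on a subgroup `N₀ ≤ ker r` which contains the commutators `[G, ker r]`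
vanishes on `ker r`, provided `(ad⁰(1))^G = 0`. -/
theorem vanish_on_ker_of_comm {r : G →* GL (Fin 2) k} {ψ : G → Matrix (Fin 2) (Fin 2) k}
    (hψ : IsCocycle r ψ) (htr : ∀ g, (ψ g).trace = 0)
    (hinv : ∀ m : Matrix (Fin 2) (Fin 2) k, m.trace = 0 → (∀ g : G, adTwMat (r g) m = m) → m = 0)
    (N₀ : Subgroup G) (hN₀r : ∀ ν ∈ N₀, r ν = 1) (hN₀ : ∀ ν ∈ N₀, ψ ν = 0)
    (hcomm : ∀ γ τ : G, r τ = 1 → γ * τ * γ⁻¹ * τ⁻¹ ∈ N₀) :
    ∀ τ : G, r τ = 1 → ψ τ = 0 := by
  intro τ hτ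
  apply hinv (ψ τ) (htr τ)
  intro γ
  have hconj : r (γ * τ * γ⁻¹) = 1 := by
    rw [map_mul, map_mul, hτ, mul_one, ← map_mul, mul_inv_cancel, map_one]
  have h1 : ψ (γ * τ * γ⁻¹) = adTwMat (r γ) (ψ τ) := by
    rw [hψ.map_conj γ τ, hconj, adTwMat_one]
    abel
  have hn := hcomm γ τ hτ
  have h2 : ψ (γ * τ * γ⁻¹) = ψ τ := by
    have : γ * τ * γ⁻¹ = (γ * τ * γ⁻¹ * τ⁻¹) * τ := by group
    rw [this, hψ _ τ, hN₀ _ hn, hN₀r _ hn, adTwMat_one, zero_add]
  rw [← h1, h2]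

/-- The group theoretic statement (GT) for `r`: every trace-zero cocycle for the twisted adjoint
action which vanishes on `ker r` is a coboundary (`H¹(r(G), ad⁰ ⊗ det) = 0`). -/
def GTStatement (r : G →* GL (Fin 2) k) : Prop :=
  ∀ ψ : G → Matrix (Fin 2) (Fin 2) k, IsCocycle r ψ → (∀ g, (ψ g).trace = 0) →
    (∀ g, r g = 1 → ψ g = 0) → IsCoboundary r ψ

end general

section prelude

local notation "Qb" => AlgebraicClosure ℚ
local notation "Γℚ" => (AlgebraicClosure ℚ ≃ₐ[ℚ] AlgebraicClosure ℚ)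

variable {k : Type} [Field k]

/-- The irreducibility hypothesis of `Kill/Select.lean` for the matrix form of `ρbar`, from the
frozen hypotheses `habs` + `hTW` of S56. -/
theorem irr2_matRep (ρbar : ResidualGaloisRep k) (habs : ρbar.IsAbsolutelyIrreducible)
    (hTW : ∀ (K : Type) [Field K] [Algebra k K] (G : Subgroup Γℚ), G.index = 2 →
      ∀ V : Submodule K (ρbar.baseChange K).V,
        (∀ σ ∈ G, ∀ x ∈ V, (ρbar.baseChange K).ρ σ x ∈ V) → V = ⊥ ∨ V = ⊤)
    (b : Module.Basis (Fin 2) k ρbar.V) :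
    Kill.Irr2 (Kill.bc (AlgebraicClosure k) (matRep b ρbar.ρ)) := by
  apply irr2_of_not_stableLineOver
  rintro H (hH | hH)
  · rw [Subgroup.index_eq_one] at hH
    rw [hH]
    exact not_stableLineOver_top ρbar habs b
  · exact not_stableLineOver_of_index_two ρbar hTW b (AlgebraicClosure k) H hH

/-- `(ad⁰ ρbar (1))^{Γℚ} = 0` in matrix form. -/
theorem eq_zero_of_fixed (p : ℕ) [Fact p.Prime] (hp2 : p ≠ 2) (ρbar : ResidualGaloisRep k)
    (habs : ρbar.IsAbsolutelyIrreducible)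
    (hdet : (GaloisRepAdic.ofResidualGaloisRep ρbar).DetIsCyclotomic p)
    (hTW : ∀ (K : Type) [Field K] [Algebra k K] (G : Subgroup Γℚ), G.index = 2 →
      ∀ V : Submodule K (ρbar.baseChange K).V,
        (∀ σ ∈ G, ∀ x ∈ V, (ρbar.baseChange K).ρ σ x ∈ V) → V = ⊥ ∨ V = ⊤)
    (b : Module.Basis (Fin 2) k ρbar.V) (m : Matrix (Fin 2) (Fin 2) k) (hm : m.trace = 0)
    (hfix : ∀ g : Γℚ, adTwMat (matRep b ρbar.ρ g) m = m) : m = 0 :=
  eq_zero_of_adTwMat_fixed (AlgebraicClosure k) (two_ne_zero_of_detIsCyclotomic p hp2 ρbar hdet)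
    (matRep b ρbar.ρ) (irr2_matRep ρbar habs hTW b) m hm hfix

/-- A twisted `End`-cocycle (traces `0`) vanishing on `N₀ = {τ | τ ζ = ζ ∧ ρbar τ = 1}` vanishes
on `ker ρbar`. -/
theorem vanish_on_ker_rho (p : ℕ) [Fact p.Prime] (hp2 : p ≠ 2) (ρbar : ResidualGaloisRep k)
    (habs : ρbar.IsAbsolutelyIrreducible)
    (hdet : (GaloisRepAdic.ofResidualGaloisRep ρbar).DetIsCyclotomic p)
    (hTW : ∀ (K : Type) [Field K] [Algebra k K] (G : Subgroup Γℚ), G.index = 2 →
      ∀ V : Submodule K (ρbar.baseChange K).V,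
        (∀ σ ∈ G, ∀ x ∈ V, (ρbar.baseChange K).ρ σ x ∈ V) → V = ⊥ ∨ V = ⊤)
    (n : ℕ) {ζ : Qb} (hζ : IsPrimitiveRoot ζ (p ^ (n + 1)))
    (Ψ : Γℚ → Module.End k ρbar.V) (hΨ : IsEndCocycle ρbar.ρ Ψ)
    (htr : ∀ g, LinearMap.trace k ρbar.V (Ψ g) = 0)
    (hvan : ∀ τ : Γℚ, τ ζ = ζ → ρbar.ρ τ = 1 → Ψ τ = 0) :
    ∀ τ : Γℚ, ρbar.ρ τ = 1 → Ψ τ = 0 := by
  have hp : p.Prime := Fact.out
  have hN : 1 < p ^ (n + 1) := Nat.one_lt_pow (Nat.succ_ne_zero n) hp.one_lt
  haveI : NeZero (p ^ (n + 1)) := ⟨(Nat.zero_lt_of_lt hN).ne'⟩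
  set b := resBasis ρbar with hb
  set χ := hζ.autToPow ℚ with hχ
  have hone : ∀ τ : Γℚ, matRep b ρbar.ρ τ = 1 ↔ ρbar.ρ τ = 1 := by
    intro τ
    constructor
    · intro h
      have h' := congrArg (fun u : GL (Fin 2) k => (u : Matrix (Fin 2) (Fin 2) k)) h
      simp only [matRep_val, Units.val_one] at h'
      apply (LinearMap.toMatrix b b).injective
      rw [h']
      exact (LinearMap.toMatrix_one b).symm
    · intro h
      apply Units.ext
      rw [matRep_val, h, Units.val_one]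
      exact LinearMap.toMatrix_one b
  have hψ : IsCocycle (matRep b ρbar.ρ) (fun g => LinearMap.toMatrix b b (Ψ g)) :=
    (isEndCocycle_iff b ρbar.ρ Ψ).mp hΨ
  have htr' : ∀ g, (LinearMap.toMatrix b b (Ψ g)).trace = 0 := fun g => by
    rw [trace_toMatrix_eq, htr g]
  -- the subgroup `N₀`
  let N₀ : Subgroup Γℚ := χ.ker ⊓ (matRep b ρbar.ρ).ker
  have hmem : ∀ ν : Γℚ, ν ∈ N₀ ↔ ν ζ = ζ ∧ ρbar.ρ ν = 1 := by
    intro ν
    simp only [N₀, Subgroup.mem_inf, MonoidHom.mem_ker]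
    rw [← MonoidHom.mem_ker, mem_ker_autToPow_iff hN hζ ν, hone ν]
  intro τ hτ
  have key := vanish_on_ker_of_comm hψ htr'
    (eq_zero_of_fixed p hp2 ρbar habs hdet hTW b) N₀
    (fun ν hν => (hone ν).mpr ((hmem ν).mp hν).2)
    (fun ν hν => by
      have := (hmem ν).mp hν
      show LinearMap.toMatrix b b (Ψ ν) = 0
      rw [hvan ν this.1 this.2, map_zero])
    (fun γ τ' hτ' => by
      simp only [N₀, Subgroup.mem_inf, MonoidHom.mem_ker]
      refine ⟨?_, ?_⟩
      · rw [map_mul, map_mul, map_mul, map_inv, map_inv]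
        rw [mul_comm (χ γ) (χ τ'), mul_assoc (χ τ'), mul_inv_cancel, mul_one, mul_inv_cancel]
      · rw [map_mul, map_mul, map_mul, map_inv, map_inv, hτ', mul_one, inv_one, mul_one,
          mul_inv_cancel])
    τ ((hone τ).mpr hτ)
  apply (LinearMap.toMatrix b b).injective
  rw [map_zero]
  exact key

/-- **Choice of `σ` from a non-trivial class.**  Under the frozen hypotheses of S56 and the group
theoretic statement (GT) for the matrix form of `ρbar`, a twisted `End`-cocycle `Ψ` (traces `0`)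
which is not a coboundary admits `σ` fixing `ζ_{p^(n+1)}`, with two distinct eigenvalues in `k`,
such that `Ψ σ ∉ (σ - 1) End(V)`. -/
theorem exists_good_sigma_of_not_coboundary (p : ℕ) [Fact p.Prime] (hp2 : p ≠ 2)
    (ρbar : ResidualGaloisRep k) (habs : ρbar.IsAbsolutelyIrreducible)
    (hdet : (GaloisRepAdic.ofResidualGaloisRep ρbar).DetIsCyclotomic p)
    (hsplit : ∀ σ : Γℚ, ∃ α β : k, LinearMap.charpoly (ρbar.ρ σ) = (X - C α) * (X - C β))
    (hTW : ∀ (K : Type) [Field K] [Algebra k K] (G : Subgroup Γℚ), G.index = 2 →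
      ∀ V : Submodule K (ρbar.baseChange K).V,
        (∀ σ ∈ G, ∀ x ∈ V, (ρbar.baseChange K).ρ σ x ∈ V) → V = ⊥ ∨ V = ⊤)
    (hGT : GTStatement (matRep (resBasis ρbar) ρbar.ρ))
    (n : ℕ) {ζ : Qb} (hζ : IsPrimitiveRoot ζ (p ^ (n + 1)))
    (Ψ : Γℚ → Module.End k ρbar.V) (hΨ : IsEndCocycle ρbar.ρ Ψ)
    (htr : ∀ g, LinearMap.trace k ρbar.V (Ψ g) = 0)
    (hcob : ¬ IsEndCoboundary ρbar.ρ Ψ) :
    ∃ σ : Γℚ, σ ζ = ζ ∧ LinearMap.det (ρbar.ρ σ) = 1 ∧
      (∃ α β : k, α ≠ β ∧ LinearMap.charpoly (ρbar.ρ σ) = (X - C α) * (X - C β)) ∧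
      ∀ X : Module.End k ρbar.V, endTw ρbar.ρ σ X - X ≠ Ψ σ := by
  by_cases hex : ∃ τ₀ : Γℚ, τ₀ ζ = ζ ∧ ρbar.ρ τ₀ = 1 ∧ Ψ τ₀ ≠ 0
  · obtain ⟨τ₀, h1, h2, h3⟩ := hex
    exact exists_good_sigma_end p hp2 ρbar habs hdet hsplit hTW n hζ Ψ hΨ htr h1 h2 h3
  · exfalso
    apply hcob
    push Not at hex
    have hker := vanish_on_ker_rho p hp2 ρbar habs hdet hTW n hζ Ψ hΨ htr hex
    set b := resBasis ρbar with hb
    rw [isEndCoboundary_iff b ρbar.ρ Ψ]
    apply hGT _ ((isEndCocycle_iff b ρbar.ρ Ψ).mp hΨ)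
      (fun g => by rw [trace_toMatrix_eq, htr g])
    intro g hg
    have hg' : ρbar.ρ g = 1 := by
      have h' := congrArg (fun u : GL (Fin 2) k => (u : Matrix (Fin 2) (Fin 2) k)) hg
      simp only [matRep_val, Units.val_one] at h'
      apply (LinearMap.toMatrix b b).injective
      rw [h']
      exact (LinearMap.toMatrix_one b).symm
    show LinearMap.toMatrix b b (Ψ g) = 0
    rw [hker g hg', map_zero]

end prelude

end Fermat.Agent.S56x.Group.EndKill

end
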