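/-
P-S56 (Taylor–Wiles primes), block (D) GROUP THEORY (helper19): normal form of a `p`-subgroup of
a finite group `G` represented in `GL₂(k)`, `char k = p`.

* `sub_one_sq_eq_zero_of_mem`: elements of a `p`-subgroup act unipotently;
* `exists_fixed_vector`: a `p`-subgroup fixes a nonzero vector (`k` finite);
* `exists_conj_upper`: after conjugation the `p`-subgroup is upper unitriangular;
* `lower_left_eq_zero_of_conj`, `conj_upper_eq`: an element conjugating a nontrivial upper
  unitriangular matrix to an upper unitriangular one is upper triangular, and it scales the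
  parameter by `λ = n₀₀ / n₁₁`.
-/
import Mathlib
import Fermat.Agent.S56x.Group.Cocycle
import Fermat.Agent.S48x.Group.Unipotent

set_option autoImplicit false
set_option linter.style.haveILetI false

open Matrix

namespace Fermat.Agent.S56x.Group

open Fermat.Agent.S48x.Group

variable {k : Type*} [Field k]

/-- the upper unitriangular matrix `u(a)`. -/
def upperU (a : k) : Matrix (Fin 2) (Fin 2) k := !![1, a; 0, 1]

theorem upperU_zero : upperU (0 : k) = 1 := by
  ext i j
  fin_cases i <;> fin_cases j <;> simp [upperU]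

theorem upperU_add (a b : k) : upperU (a + b) = upperU a * upperU b := by
  ext i j
  fin_cases i <;> fin_cases j <;> simp [upperU, Matrix.mul_apply, Fin.sum_univ_two, add_comm]

theorem upperU_injective : Function.Injective (upperU : k → Matrix (Fin 2) (Fin 2) k) := by
  intro a b h
  have := congrFun (congrFun h 0) 1
  simpa [upperU] using this

section pgroup

variable {p : ℕ} [Fact p.Prime] [CharP k p] {G : Type*} [Group G]

/-- elements of `p`-power order are unipotent. -/
theorem sub_one_sq_eq_zero_of_pow_prime_pow {U : Matrix (Fin 2) (Fin 2) k} {n : ℕ}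
    (hU : U ^ p ^ n = 1) : (U - 1) * (U - 1) = 0 := by
  apply sq_eq_zero_of_pow_eq_zero (m := p ^ n)
  rw [sub_pow_char_pow_of_commute p n (Commute.one_right U), hU, one_pow, sub_self]

theorem sub_one_sq_eq_zero_of_mem (r : G →* GL (Fin 2) k) {P : Subgroup G} (hP : IsPGroup p P)
    {x : G} (hx : x ∈ P) :
    (((r x : GL (Fin 2) k) : Matrix (Fin 2) (Fin 2) k) - 1) *
      (((r x : GL (Fin 2) k) : Matrix (Fin 2) (Fin 2) k) - 1) = 0 := by
  obtain ⟨n, hn⟩ := hP ⟨x, hx⟩
  have h1 : x ^ p ^ n = 1 := by
    have := congrArg Subtype.val hn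
    simpa using this
  apply sub_one_sq_eq_zero_of_pow_prime_pow (p := p) (n := n)
  rw [← Units.val_pow_eq_pow_val, ← map_pow, h1, map_one, Units.val_one]

/-- a `p`-subgroup fixes a nonzero vector. -/
theorem exists_fixed_vector [Finite k] (r : G →* GL (Fin 2) k) {P : Subgroup G}
    (hP : IsPGroup p P) :
    ∃ v : Fin 2 → k, v ≠ 0 ∧
      ∀ x ∈ P, ((r x : GL (Fin 2) k) : Matrix (Fin 2) (Fin 2) k).mulVec v = v := by
  classical
  letI : MulAction P (Fin 2 → k) :=
    { smul := fun x v => ((r x : GL (Fin 2) k) : Matrix (Fin 2) (Fin 2) k).mulVec v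
      one_smul := fun v => by
        show ((r ((1 : P) : G) : GL (Fin 2) k) : Matrix (Fin 2) (Fin 2) k).mulVec v = v
        simp
      mul_smul := fun x y v => by
        show ((r ((x * y : P) : G) : GL (Fin 2) k) : Matrix (Fin 2) (Fin 2) k).mulVec v =
          ((r x : GL (Fin 2) k) : Matrix (Fin 2) (Fin 2) k).mulVec
            (((r y : GL (Fin 2) k) : Matrix (Fin 2) (Fin 2) k).mulVec v)
        rw [Subgroup.coe_mul, map_mul, Units.val_mul, Matrix.mulVec_mulVec] }
  have hsmul : ∀ (x : P) (v : Fin 2 → k),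
      x • v = ((r x : GL (Fin 2) k) : Matrix (Fin 2) (Fin 2) k).mulVec v := fun _ _ => rfl
  have hcard : p ∣ Nat.card (Fin 2 → k) := by
    have hk : p ∣ Nat.card k := by
      have h1 : p = addOrderOf (1 : k) := CharP.eq k inferInstance (CharP.addOrderOf_one k)
      rw [h1]
      exact addOrderOf_dvd_natCard (1 : k)
    rw [Nat.card_fun, Nat.card_eq_fintype_card (α := Fin 2), Fintype.card_fin]
    exact dvd_pow hk (by norm_num)
  have h0 : (0 : Fin 2 → k) ∈ MulAction.fixedPoints P (Fin 2 → k) := by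
    intro x
    rw [hsmul]
    simp
  obtain ⟨v, hv, hv0⟩ := hP.exists_fixed_point_of_prime_dvd_card_of_fixed_point (Fin 2 → k) hcard h0
  refine ⟨v, fun h => hv0 h.symm, fun x hx => ?_⟩
  have := hv ⟨x, hx⟩
  rwa [hsmul] at this

/-- after conjugation a `p`-subgroup is upper unitriangular. -/
theorem exists_conj_upper [Finite k] (r : G →* GL (Fin 2) k) {P : Subgroup G}
    (hP : IsPGroup p P) :
    ∃ g₀ : GL (Fin 2) k, ∀ x ∈ P, ∃ a : k,
      ((conjRep g₀ r x : GL (Fin 2) k) : Matrix (Fin 2) (Fin 2) k) = upperU a := by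
  obtain ⟨v, hv0, hv⟩ := exists_fixed_vector r hP
  obtain ⟨v', hdet⟩ : ∃ v' : Fin 2 → k, (colMat v v').det ≠ 0 := by
    by_cases h0 : v 0 = 0
    · have h1 : v 1 ≠ 0 := fun h1 => hv0 (by ext i; fin_cases i <;> simp [h0, h1])
      refine ⟨![1, 0], ?_⟩
      simp [colMat, Matrix.det_fin_two, h0, h1]
    · refine ⟨![0, 1], ?_⟩
      simp [colMat, Matrix.det_fin_two, h0]
  let g₀ : GL (Fin 2) k := Matrix.GeneralLinearGroup.mkOfDetNeZero (colMat v v') hdet
  have hg₀ : (g₀ : Matrix (Fin 2) (Fin 2) k) = colMat v v' := rfl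
  refine ⟨g₀, fun x hx => ?_⟩
  have hUsq := sub_one_sq_eq_zero_of_mem r hP hx
  by_cases hU1 : ((r x : GL (Fin 2) k) : Matrix (Fin 2) (Fin 2) k) = 1
  · refine ⟨0, ?_⟩
    have h1 : r x = 1 := Units.ext hU1
    rw [upperU_zero, conjRep_apply, h1, mul_one, inv_mul_cancel, Units.val_one]
  · obtain ⟨a, _, hA⟩ := conj_upper hUsq hU1 hdet (hv x hx)
    refine ⟨a, ?_⟩
    rw [conjRep_apply, Units.val_mul, Units.val_mul, hg₀, Matrix.mul_assoc, hA, ← Matrix.mul_assoc,
      ← hg₀, ← Units.val_mul, inv_mul_cancel, Units.val_one, Matrix.one_mul]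
    rfl

end pgroup

/-- a matrix intertwining two upper unitriangular matrices (the first nontrivial) is upper
triangular, and it scales the parameter. -/
theorem lower_left_eq_zero_of_mul_upperU {n : Matrix (Fin 2) (Fin 2) k} {a a' : k} (ha : a ≠ 0)
    (h : n * upperU a = upperU a' * n) : n 1 0 = 0 ∧ n 0 0 * a = a' * n 1 1 := by
  have e11 := congrFun (congrFun h 1) 1
  have e01 := congrFun (congrFun h 0) 1
  simp only [upperU, Matrix.mul_apply, Fin.sum_univ_two, Matrix.of_apply, Matrix.cons_val',
    Matrix.cons_val_zero, Matrix.cons_val_one, Matrix.cons_val_fin_one] at e11 e01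
  have h10 : n 1 0 = 0 := by
    have : n 1 0 * a = 0 := by linear_combination e11
    rcases mul_eq_zero.mp this with h | h
    · exact h
    · exact absurd h ha
  refine ⟨h10, ?_⟩
  linear_combination e01

/-- conjugating `u(a)` by an upper triangular invertible matrix. -/
theorem upper_mul_upperU {n : Matrix (Fin 2) (Fin 2) k} (h10 : n 1 0 = 0) (h11 : n 1 1 ≠ 0)
    (a : k) : n * upperU a = upperU (n 0 0 / n 1 1 * a) * n := by
  ext i j
  fin_cases i <;> fin_cases j <;>
    simp [upperU, Matrix.mul_apply, Fin.sum_univ_two, h10] <;> field_simp <;> ring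

end Fermat.Agent.S56x.Group
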