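/-
P-S56 (Taylor–Wiles primes), block (D) GROUP THEORY (helper19): the additive parameter group of an
upper unitriangular subgroup and the restriction of a cocycle to it.

For `r : G →* GL (Fin 2) k` injective and `P ≤ G` with `r(P)` upper unitriangular:
* `paramSubgroup r P : AddSubgroup k` (`A = {t | u(t) ∈ r(P)}`), `sec` (the element of `P` with
  parameter `t`), `sec_add`, `sec_mem`;
* `cocParam r P ψ : A → Matrix` (`c t = ψ (sec t)`) with the additive cocycle relation
  `c (s + t) = c s + u(s) c(t) u(-s)` (`cocParam_add`);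
* the normaliser relation `cocParam_normalizer`: for `n` in the normaliser of `P` (`r n` is then
  upper triangular, `λ = n₀₀ / n₁₁`):
  `c (λ t) = adTwMat (r n) (c t) + ψ n - u(λ t) (ψ n) u(-λ t)`;
* `isCoboundary_restrict_of_cocParam`: if `c t = u(t) m u(-t) - m` for a trace-zero `m` then
  `ψ|_P` is a coboundary.
-/
import Mathlib
import Fermat.Agent.S56x.Group.SylowUpper

set_option autoImplicit false
set_option linter.style.haveILetI false

open Matrix

namespace Fermat.Agent.S56x.Group

variable {k : Type*} [Field k] {G : Type*} [Group G]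

theorem upperU_mul_neg (s : k) : upperU s * upperU (-s) = 1 := by
  rw [← upperU_add, add_neg_cancel, upperU_zero]

theorem det_upperU (s : k) : (upperU s).det = 1 := by
  simp [upperU, Matrix.det_fin_two]

/-- the twisted adjoint action of an element whose matrix is `u(s)`. -/
theorem adTwMat_of_val_eq_upperU {g : GL (Fin 2) k} {s : k}
    (h : (g : Matrix (Fin 2) (Fin 2) k) = upperU s) (X : Matrix (Fin 2) (Fin 2) k) :
    adTwMat g X = upperU s * X * upperU (-s) := by
  have hinv : ((g⁻¹ : GL (Fin 2) k) : Matrix (Fin 2) (Fin 2) k) = upperU (-s) :=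
    Units.inv_eq_of_mul_eq_one_right (by rw [h, upperU_mul_neg])
  have hdet : ((Matrix.GeneralLinearGroup.det g : kˣ) : k) = 1 := by
    rw [Matrix.GeneralLinearGroup.val_det_apply, h, det_upperU]
  rw [adTwMat, hdet, one_smul, h, hinv]

variable (r : G →* GL (Fin 2) k) (P : Subgroup G)

/-- the additive group of parameters `t` with `u(t) ∈ r(P)`. -/
def paramSubgroup : AddSubgroup k where
  carrier := {t | ∃ x ∈ P, ((r x : GL (Fin 2) k) : Matrix (Fin 2) (Fin 2) k) = upperU t}
  zero_mem' := ⟨1, P.one_mem, by rw [map_one, Units.val_one, upperU_zero]⟩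
  add_mem' := by
    rintro s t ⟨x, hx, hxs⟩ ⟨y, hy, hyt⟩
    exact ⟨x * y, P.mul_mem hx hy, by rw [map_mul, Units.val_mul, hxs, hyt, upperU_add]⟩
  neg_mem' := by
    rintro s ⟨x, hx, hxs⟩
    refine ⟨x⁻¹, P.inv_mem hx, ?_⟩
    rw [map_inv]
    exact Units.inv_eq_of_mul_eq_one_right (by rw [hxs, upperU_mul_neg])

theorem mem_paramSubgroup {t : k} :
    t ∈ paramSubgroup r P ↔
      ∃ x ∈ P, ((r x : GL (Fin 2) k) : Matrix (Fin 2) (Fin 2) k) = upperU t := Iff.rfl

/-- a chosen element of `P` with parameter `t`. -/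
noncomputable def sec (t : paramSubgroup r P) : G := t.2.choose

theorem sec_mem (t : paramSubgroup r P) : sec r P t ∈ P := t.2.choose_spec.1

theorem r_sec (t : paramSubgroup r P) :
    ((r (sec r P t) : GL (Fin 2) k) : Matrix (Fin 2) (Fin 2) k) = upperU (t : k) :=
  t.2.choose_spec.2

variable {r} in
theorem eq_sec (hr : Function.Injective r) {x : G} {t : paramSubgroup r P}
    (hx : ((r x : GL (Fin 2) k) : Matrix (Fin 2) (Fin 2) k) = upperU (t : k)) :
    x = sec r P t := by
  apply hr
  apply Units.ext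
  rw [hx, r_sec]

variable {r} in
theorem sec_add (hr : Function.Injective r) (s t : paramSubgroup r P) :
    sec r P (s + t) = sec r P s * sec r P t := by
  symm
  apply eq_sec P hr
  rw [map_mul, Units.val_mul, r_sec, r_sec, AddSubgroup.coe_add, upperU_add]

/-- the restriction of a function on `G` to the parameter group. -/
noncomputable def cocParam (ψ : G → Matrix (Fin 2) (Fin 2) k) :
    paramSubgroup r P → Matrix (Fin 2) (Fin 2) k :=
  fun t => ψ (sec r P t)

variable {r} in
/-- the additive form of the cocycle relation on the parameter group. -/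
theorem cocParam_add (hr : Function.Injective r) {ψ : G → Matrix (Fin 2) (Fin 2) k}
    (h : IsCocycle r ψ) (s t : paramSubgroup r P) :
    cocParam r P ψ (s + t) =
      cocParam r P ψ s + upperU (s : k) * cocParam r P ψ t * upperU (-(s : k)) := by
  rw [cocParam, cocParam, cocParam, sec_add P hr, h, adTwMat_of_val_eq_upperU (r_sec r P s)]

theorem trace_cocParam {ψ : G → Matrix (Fin 2) (Fin 2) k} (htr : ∀ g, (ψ g).trace = 0)
    (t : paramSubgroup r P) : (cocParam r P ψ t).trace = 0 := htr _

variable {r} in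
/-- if the restriction to the parameter group is the coboundary of `m`, then `ψ|_P` is a
coboundary (all elements of `P` being upper unitriangular). -/
theorem isCoboundary_restrict_of_cocParam (hr : Function.Injective r)
    (hPu : ∀ x ∈ P, ∃ a : k, ((r x : GL (Fin 2) k) : Matrix (Fin 2) (Fin 2) k) = upperU a)
    {ψ : G → Matrix (Fin 2) (Fin 2) k} {m : Matrix (Fin 2) (Fin 2) k} (hm : m.trace = 0)
    (hc : ∀ t : paramSubgroup r P,
      cocParam r P ψ t = upperU (t : k) * m * upperU (-(t : k)) - m) :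
    IsCoboundary (r.comp P.subtype) (fun x : P => ψ x) := by
  refine ⟨m, hm, fun x => ?_⟩
  obtain ⟨a, ha⟩ := hPu x x.2
  have hmem : a ∈ paramSubgroup r P := ⟨x, x.2, ha⟩
  have hx : (x : G) = sec r P ⟨a, hmem⟩ := eq_sec P hr ha
  have := hc ⟨a, hmem⟩
  rw [cocParam, ← hx] at this
  show ψ (x : G) = adTwMat (r (x : G)) m - m
  rw [this, adTwMat_of_val_eq_upperU ha]

variable {r} in
/-- **the normaliser relation**: for `n` normalising `P` with `r n` upper triangular. -/
theorem cocParam_normalizer (hr : Function.Injective r) {ψ : G → Matrix (Fin 2) (Fin 2) k}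
    (h : IsCocycle r ψ) {n : G} (hn : n ∈ Subgroup.normalizer (P : Set G))
    (h10 : ((r n : GL (Fin 2) k) : Matrix (Fin 2) (Fin 2) k) 1 0 = 0)
    (t : paramSubgroup r P) :
    ∃ ht : ((r n : GL (Fin 2) k) : Matrix (Fin 2) (Fin 2) k) 0 0 /
        ((r n : GL (Fin 2) k) : Matrix (Fin 2) (Fin 2) k) 1 1 * (t : k) ∈ paramSubgroup r P,
      cocParam r P ψ ⟨_, ht⟩ = adTwMat (r n) (cocParam r P ψ t) + ψ n -
        upperU (((r n : GL (Fin 2) k) : Matrix (Fin 2) (Fin 2) k) 0 0 /
          ((r n : GL (Fin 2) k) : Matrix (Fin 2) (Fin 2) k) 1 1 * (t : k)) * ψ n *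
        upperU (-(((r n : GL (Fin 2) k) : Matrix (Fin 2) (Fin 2) k) 0 0 /
          ((r n : GL (Fin 2) k) : Matrix (Fin 2) (Fin 2) k) 1 1 * (t : k))) := by
  set N := ((r n : GL (Fin 2) k) : Matrix (Fin 2) (Fin 2) k) with hN
  have h11 : N 1 1 ≠ 0 := by
    intro h11
    have hdet : N.det ≠ 0 := by
      have := (Matrix.GeneralLinearGroup.det (r n)).ne_zero
      rwa [Matrix.GeneralLinearGroup.val_det_apply] at this
    apply hdet
    rw [Matrix.det_fin_two, h10, h11]
    ring
  have hconj : ((r (n * sec r P t * n⁻¹) : GL (Fin 2) k) : Matrix (Fin 2) (Fin 2) k)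
      = upperU (N 0 0 / N 1 1 * (t : k)) := by
    rw [map_mul, map_mul, Units.val_mul, Units.val_mul, r_sec, ← hN,
      upper_mul_upperU h10 h11, Matrix.mul_assoc, map_inv, ← Units.val_mul, mul_inv_cancel,
      Units.val_one, Matrix.mul_one]
  have hmemP : n * sec r P t * n⁻¹ ∈ P :=
    (Subgroup.mem_normalizer_iff.mp hn (sec r P t)).mp (sec_mem r P t)
  have ht : N 0 0 / N 1 1 * (t : k) ∈ paramSubgroup r P := ⟨_, hmemP, hconj⟩
  refine ⟨ht, ?_⟩
  have hsec : n * sec r P t * n⁻¹ = sec r P ⟨_, ht⟩ := eq_sec P hr hconj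
  rw [cocParam, ← hsec, h.map_conj, adTwMat_of_val_eq_upperU hconj]
  rfl

end Fermat.Agent.S56x.Group
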