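/-
P-S56 (Taylor–Wiles primes), block (D) GROUP THEORY, file D2 (helper7): explicit matrix half.

1-cocycles of a group of upper unitriangular matrices `upperU x = !![1, x; 0, 1]`, `x ∈ A ≤ (k, +)`,
with values in the trace zero `2 × 2` matrices under conjugation (conventions of
`S56x/Group/Cocycle.lean`, `SylowUpper.lean`, `SylowParam.lean`: the cocycle relation is the one of
`cocParam_add`, the normaliser relation the one of `cocParam_normalizer`).

* `IsUCocycle.exists_normalForm` (U1)-(U5): every trace zero cocycle is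
  `c x = nf γ μ (a₀ x) x = (a₀ x - γ x³/3 - μ x²) e + (γ x²/2 + μ x) h + γ x f` with `a₀` additive,
  and `γ = 0` in characteristic `3`;
* `isCoboundary_of_nf` (U6): it is a coboundary as soon as `γ = 0` and `a₀ = ν • id`;
* `nf_relation`, `normaliser_relation` (U7): an upper triangular `N` (`λ = N₀₀/N₁₁`, twist `δ`,
  `m = ψ(N)`) with `c (λ x) = δ • (N c(x) N⁻¹) + m - u(λ x) m u(-λ x)` forces
  `γ (λ² - δ) x = 0` and, if `γ = 0`, `a₀ (λ x) = δ λ a₀ x + (2 m₀₀ - 2 δ (N₀₁/N₀₀) μ) λ x`;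
* `exists_eq_mul_of_homogeneous`, `exists_eq_mul_of_twisted_homogeneous` (U8): an additive
  `a₀ : A → k` with `a₀ (l x) = l a₀ x + ν_l l x` for `l ∈ K`, `|A| < (|K| + 1)²`, is `ν • id`;
  `exists_eq_mul_of_card_prime`: the same when `|A|` is prime;
* `IsUCocycle.isCoboundary_of_relations`: the summary used in `DMain`.
-/
import Mathlib
import Fermat.Agent.S56x.Group.SylowUpper

set_option autoImplicit false

namespace Fermat.Agent.S56x.Group.UnipotentH1

open Matrix

variable {k : Type*} [Field k]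

theorem upperU_mul_upperU_neg (x : k) : upperU x * upperU (-x) = 1 := by
  rw [← upperU_add, add_neg_cancel, upperU_zero]

/-- conjugation by `upperU x`, entrywise -/
theorem conj_u (x : k) (X : Matrix (Fin 2) (Fin 2) k) :
    upperU x * X * upperU (-x) =
      !![X 0 0 + x * X 1 0, X 0 1 + x * (X 1 1 - X 0 0) - x ^ 2 * X 1 0;
         X 1 0, X 1 1 - x * X 1 0] := by
  rw [Matrix.eta_fin_two X]
  simp only [upperU, Matrix.mul_fin_two, Matrix.of_apply, Matrix.cons_val', Matrix.cons_val_zero,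
    Matrix.cons_val_one, Matrix.empty_val', Matrix.cons_val_fin_one]
  ext i j
  fin_cases i <;> fin_cases j <;> simp <;> ring

/-- the normal form of a cocycle -/
def nf (γ μ : k) (a : k) (x : k) : Matrix (Fin 2) (Fin 2) k :=
  !![γ * x ^ 2 / 2 + μ * x, a - γ * x ^ 3 / 3 - μ * x ^ 2; γ * x, -(γ * x ^ 2 / 2 + μ * x)]

section Cocycle

variable (A : AddSubgroup k) (c : A → Matrix (Fin 2) (Fin 2) k)

/-- the cocycle condition for the conjugation action -/
def IsUCocycle : Prop := ∀ x y : A, c (x + y) = c x + upperU (x : k) * c y * upperU (-(x : k))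

variable {A c}

theorem IsUCocycle.entry10 (hc : IsUCocycle A c) (x y : A) :
    c (x + y) 1 0 = c x 1 0 + c y 1 0 := by
  have := congrFun (congrFun (hc x y) 1) 0
  rw [Matrix.add_apply, conj_u] at this
  simpa using this

theorem IsUCocycle.entry00 (hc : IsUCocycle A c) (x y : A) :
    c (x + y) 0 0 = c x 0 0 + c y 0 0 + (x : k) * c y 1 0 := by
  have := congrFun (congrFun (hc x y) 0) 0
  rw [Matrix.add_apply, conj_u] at this
  simp at this
  rw [this]
  ring

theorem IsUCocycle.entry11 (hc : IsUCocycle A c) (x y : A) :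
    c (x + y) 1 1 = c x 1 1 + c y 1 1 - (x : k) * c y 1 0 := by
  have := congrFun (congrFun (hc x y) 1) 1
  rw [Matrix.add_apply, conj_u] at this
  simp at this
  rw [this]
  ring

theorem IsUCocycle.entry01 (hc : IsUCocycle A c) (x y : A) :
    c (x + y) 0 1 = c x 0 1 + c y 0 1 + (x : k) * (c y 1 1 - c y 0 0) - (x : k) ^ 2 * c y 1 0 := by
  have := congrFun (congrFun (hc x y) 0) 1
  rw [Matrix.add_apply, conj_u] at this
  simp at this
  rw [this]
  ring

/-- a function with `x φ(y) = y φ(x)` is a multiple of the identity -/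
theorem exists_eq_mul_of_cross {φ : A → k} (h0 : φ 0 = 0)
    (h : ∀ x y : A, (x : k) * φ y = (y : k) * φ x) : ∃ γ : k, ∀ x : A, φ x = γ * (x : k) := by
  by_cases hA : ∃ x₀ : A, (x₀ : k) ≠ 0
  · obtain ⟨x₀, hx₀⟩ := hA
    refine ⟨φ x₀ / (x₀ : k), fun x => ?_⟩
    have := h x₀ x
    rw [div_mul_eq_mul_div, eq_div_iff hx₀]
    linear_combination this
  · push Not at hA
    refine ⟨0, fun x => ?_⟩
    have hx : x = 0 := Subtype.ext (hA x)
    rw [hx, h0, zero_mul]

variable (htr : ∀ x : A, (c x).trace = 0)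

include htr in
theorem entry11_eq (x : A) : c x 1 1 = -c x 0 0 := by
  have := htr x
  rw [Matrix.trace_fin_two] at this
  linear_combination this

theorem IsUCocycle.map_zero (hc : IsUCocycle A c) : c 0 = 0 := by
  have := hc 0 0
  rw [add_zero] at this
  have h2 : upperU ((0 : A) : k) * c 0 * upperU (-((0 : A) : k)) = c 0 := by
    rw [AddSubgroup.coe_zero, neg_zero, upperU_zero, one_mul, mul_one]
  rw [h2] at this
  exact left_eq_add.mp this

/-- **(U1)** the lower left entry is `γ x`. -/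
theorem IsUCocycle.exists_gamma (hc : IsUCocycle A c) : ∃ γ : k, ∀ x : A, c x 1 0 = γ * (x : k) := by
  refine exists_eq_mul_of_cross (φ := fun x => c x 1 0) ?_ ?_
  · show c 0 1 0 = 0
    rw [hc.map_zero]
    rfl
  · intro x y
    have h1 := hc.entry00 x y
    have h2 := hc.entry00 y x
    rw [add_comm y x] at h2
    show (x : k) * c y 1 0 = (y : k) * c x 1 0
    linear_combination h2 - h1

include htr in
/-- **(U2)** the diagonal entry is `γ x²/2 + μ x`. -/
theorem IsUCocycle.exists_mu (hc : IsUCocycle A c) (h2 : (2 : k) ≠ 0) {γ : k}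
    (hγ : ∀ x : A, c x 1 0 = γ * (x : k)) :
    ∃ μ : k, ∀ x : A, c x 0 0 = γ * (x : k) ^ 2 / 2 + μ * (x : k) := by
  obtain ⟨μ, hμ⟩ := exists_eq_mul_of_cross (φ := fun x : A => c x 0 0 - γ * (x : k) ^ 2 / 2) (by
      show c 0 0 0 - γ * ((0 : A) : k) ^ 2 / 2 = 0
      rw [hc.map_zero]
      simp) (by
    intro x y
    show (x : k) * (c y 0 0 - γ * (y : k) ^ 2 / 2) = (y : k) * (c x 0 0 - γ * (x : k) ^ 2 / 2)
    have h1 := hc.entry01 x y
    have h3 := hc.entry01 y x
    rw [add_comm y x] at h3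
    rw [entry11_eq htr x, hγ x] at h3
    rw [entry11_eq htr y, hγ y] at h1
    have key : (2 : k) * ((x : k) * (c y 0 0 - γ * (y : k) ^ 2 / 2)
        - (y : k) * (c x 0 0 - γ * (x : k) ^ 2 / 2)) = 0 := by
      field_simp
      linear_combination h1 - h3
    have := (mul_eq_zero.mp key).resolve_left h2
    exact sub_eq_zero.mp this)
  refine ⟨μ, fun x => ?_⟩
  have : c x 0 0 - γ * (x : k) ^ 2 / 2 = μ * (x : k) := hμ x
  linear_combination this

include htr in
/-- the upper right entry: the "cocycle" equation for `α`. -/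
theorem IsUCocycle.entry01' (hc : IsUCocycle A c) {γ μ : k}
    (hγ : ∀ x : A, c x 1 0 = γ * (x : k))
    (hμ : ∀ x : A, c x 0 0 = γ * (x : k) ^ 2 / 2 + μ * (x : k)) (h2 : (2 : k) ≠ 0) (x y : A) :
    c (x + y) 0 1 = c x 0 1 + c y 0 1 - γ * (x : k) * (y : k) ^ 2 - 2 * μ * (x : k) * (y : k)
      - γ * (x : k) ^ 2 * (y : k) := by
  rw [hc.entry01 x y, entry11_eq htr y, hγ y, hμ y]
  field_simp
  ring

include htr in
/-- **(U3)** in characteristic `3` the invariant `γ` vanishes. -/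
theorem IsUCocycle.gamma_mul_eq_zero (hc : IsUCocycle A c) (h2 : (2 : k) ≠ 0) (h3 : (3 : k) = 0)
    {γ μ : k} (hγ : ∀ x : A, c x 1 0 = γ * (x : k))
    (hμ : ∀ x : A, c x 0 0 = γ * (x : k) ^ 2 / 2 + μ * (x : k)) (x : A) : γ * (x : k) = 0 := by
  have e1 := hc.entry01' htr hγ hμ h2 x x
  have e2 := hc.entry01' htr hγ hμ h2 x (x + x)
  have hx3 : x + (x + x) = 0 := by
    apply Subtype.ext
    push_cast
    linear_combination (x : k) * h3
  rw [hx3, hc.map_zero] at e2
  rw [e1] at e2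
  push_cast at e2
  -- `e2 : 0 = 3 α(x) - 8 γ x³ - 6 μ x²`
  have key : γ * (x : k) ^ 3 * 2 = 0 := by
    have e3 : (0 : Matrix (Fin 2) (Fin 2) k) 0 1 = 0 := rfl
    rw [e3] at e2
    linear_combination e2 + (c x 0 1 - 2 * γ * (x : k) ^ 3 - 2 * μ * (x : k) ^ 2) * h3
  have hk2 : γ * (x : k) ^ 3 = 0 := (mul_eq_zero.mp key).resolve_right h2
  rcases mul_eq_zero.mp hk2 with h | h
  · rw [h, zero_mul]
  · rw [pow_eq_zero_iff (by norm_num) |>.mp h, mul_zero]

include htr in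
/-- **(U4)+(U5)** the normal form of a cocycle: `c x = nf γ μ (a₀ x) x` with `a₀` additive, and
`γ = 0` in characteristic `3`. -/
theorem IsUCocycle.exists_normalForm (hc : IsUCocycle A c) (h2 : (2 : k) ≠ 0) :
    ∃ (γ μ : k) (a₀ : A →+ k), ((3 : k) = 0 → γ = 0) ∧ ∀ x : A, c x = nf γ μ (a₀ x) x := by
  -- choose `γ`, normalised to `0` in characteristic `3`
  obtain ⟨γ, hγ, hγ3⟩ : ∃ γ : k, (∀ x : A, c x 1 0 = γ * (x : k)) ∧ ((3 : k) = 0 → γ = 0) := by
    obtain ⟨γ, hγ⟩ := hc.exists_gamma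
    by_cases h3 : (3 : k) = 0
    · obtain ⟨μ, hμ⟩ := hc.exists_mu htr h2 hγ
      have hz := hc.gamma_mul_eq_zero htr h2 h3 hγ hμ
      refine ⟨0, fun x => ?_, fun _ => rfl⟩
      rw [hγ x, hz x, zero_mul]
    · exact ⟨γ, hγ, fun h => absurd h h3⟩
  obtain ⟨μ, hμ⟩ := hc.exists_mu htr h2 hγ
  have h01 := hc.entry01' htr hγ hμ h2
  -- the additive function `a₀`
  have hadd : ∀ x y : A, c (x + y) 0 1 + γ * ((x + y : A) : k) ^ 3 / 3 + μ * ((x + y : A) : k) ^ 2
      = (c x 0 1 + γ * (x : k) ^ 3 / 3 + μ * (x : k) ^ 2)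
        + (c y 0 1 + γ * (y : k) ^ 3 / 3 + μ * (y : k) ^ 2) := by
    intro x y
    rw [h01 x y]
    push_cast
    by_cases h3 : (3 : k) = 0
    · rw [hγ3 h3]
      ring
    · field_simp
      ring
  let a₀ : A →+ k :=
    { toFun := fun x => c x 0 1 + γ * (x : k) ^ 3 / 3 + μ * (x : k) ^ 2
      map_zero' := by
        show c 0 0 1 + γ * ((0 : A) : k) ^ 3 / 3 + μ * ((0 : A) : k) ^ 2 = 0
        rw [hc.map_zero]
        simp
      map_add' := hadd }
  refine ⟨γ, μ, a₀, hγ3, fun x => ?_⟩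
  have ha₀ : a₀ x = c x 0 1 + γ * (x : k) ^ 3 / 3 + μ * (x : k) ^ 2 := rfl
  rw [Matrix.eta_fin_two (c x), nf, entry11_eq htr x, hγ x, hμ x, ha₀]
  congr 1
  ext i j
  fin_cases i <;> fin_cases j <;> simp
  ring

end Cocycle

/-! ### Coboundaries -/

/-- the coboundary of `m`, entrywise -/
theorem coboundary_eq (m : Matrix (Fin 2) (Fin 2) k) (hm : m.trace = 0) (x : k) :
    upperU x * m * upperU (-x) - m =
      !![x * m 1 0, -(2 * m 0 0 * x) - m 1 0 * x ^ 2; 0, -(x * m 1 0)] := by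
  have h11 : m 1 1 = -m 0 0 := by
    rw [Matrix.trace_fin_two] at hm
    linear_combination hm
  rw [conj_u]
  ext i j
  fin_cases i <;> fin_cases j <;> simp [h11] <;> ring

/-- **(U6)** a normal form with `γ = 0` and `a₀ = ν • id` is the coboundary of
`m = -(ν/2) h + μ f`. -/
theorem nf_eq_coboundary (h2 : (2 : k) ≠ 0) (μ ν x : k) :
    nf 0 μ (ν * x) x = upperU x * !![-(ν / 2), 0; μ, ν / 2] * upperU (-x) - !![-(ν / 2), 0; μ, ν / 2] := by
  rw [coboundary_eq _ (by rw [Matrix.trace_fin_two]; simp)]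
  have e10 : (!![-(ν / 2), 0; μ, ν / 2] : Matrix (Fin 2) (Fin 2) k) 1 0 = μ := rfl
  have e00 : (!![-(ν / 2), 0; μ, ν / 2] : Matrix (Fin 2) (Fin 2) k) 0 0 = -(ν / 2) := rfl
  rw [e10, e00, nf]
  have a1 : (0 : k) * x ^ 2 / 2 + μ * x = x * μ := by ring
  have a2 : ν * x - 0 * x ^ 3 / 3 - μ * x ^ 2 = -(2 * -(ν / 2) * x) - μ * x ^ 2 := by
    field_simp
    ring
  have a3 : (0 : k) * x = 0 := zero_mul x
  rw [a1, a2, a3]

/-- **(U6)**, cocycle form. -/
theorem isCoboundary_of_nf (h2 : (2 : k) ≠ 0) {A : AddSubgroup k}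
    {c : A → Matrix (Fin 2) (Fin 2) k} {μ ν : k} {a₀ : A → k}
    (hnf : ∀ x : A, c x = nf 0 μ (a₀ x) x) (ha₀ : ∀ x : A, a₀ x = ν * (x : k)) :
    ∃ m : Matrix (Fin 2) (Fin 2) k, m.trace = 0 ∧
      ∀ x : A, c x = upperU (x : k) * m * upperU (-(x : k)) - m := by
  refine ⟨!![-(ν / 2), 0; μ, ν / 2], by rw [Matrix.trace_fin_two]; simp, fun x => ?_⟩
  rw [hnf x, ha₀ x, nf_eq_coboundary h2]

/-! ### The relations imposed by an element of the normaliser -/

/-- conjugation by an upper triangular matrix, entrywise -/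
theorem conj_upper {a b d : k} (ha : a ≠ 0) (hd : d ≠ 0) (X : Matrix (Fin 2) (Fin 2) k) :
    !![a, b; 0, d] * X * !![a⁻¹, -(b * a⁻¹ * d⁻¹); 0, d⁻¹] =
      !![X 0 0 + b / a * X 1 0,
         a / d * X 0 1 + b / d * (X 1 1 - X 0 0) - b ^ 2 / (a * d) * X 1 0;
         d / a * X 1 0, X 1 1 - b / a * X 1 0] := by
  rw [Matrix.eta_fin_two X]
  simp only [Matrix.mul_fin_two, Matrix.of_apply, Matrix.cons_val', Matrix.cons_val_zero,
    Matrix.cons_val_one, Matrix.empty_val', Matrix.cons_val_fin_one]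
  ext i j
  fin_cases i <;> fin_cases j <;> simp <;> field_simp <;> ring

/-- an upper triangular matrix with a right inverse: shape of the matrix and of the inverse -/
theorem upper_inv_eq {N Ninv : Matrix (Fin 2) (Fin 2) k} (h10 : N 1 0 = 0) (h : N * Ninv = 1) :
    N 0 0 ≠ 0 ∧ N 1 1 ≠ 0 ∧ N = !![N 0 0, N 0 1; 0, N 1 1] ∧
      Ninv = !![(N 0 0)⁻¹, -(N 0 1 * (N 0 0)⁻¹ * (N 1 1)⁻¹); 0, (N 1 1)⁻¹] := by
  have e00 := congrFun (congrFun h 0) 0
  have e01 := congrFun (congrFun h 0) 1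
  have e10 := congrFun (congrFun h 1) 0
  have e11 := congrFun (congrFun h 1) 1
  simp only [Matrix.mul_apply, Fin.sum_univ_two, h10, zero_mul, zero_add, Matrix.one_apply_eq,
    ne_eq, Fin.isValue, zero_ne_one, one_ne_zero, not_false_eq_true, Matrix.one_apply_ne]
    at e00 e01 e10 e11
  have hN11 : N 1 1 ≠ 0 := by
    intro hz
    rw [hz, zero_mul] at e11
    exact zero_ne_one e11
  have hr : Ninv 1 0 = 0 := (mul_eq_zero.mp e10).resolve_left hN11
  rw [hr, mul_zero, add_zero] at e00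
  have hN00 : N 0 0 ≠ 0 := by
    intro hz
    rw [hz, zero_mul] at e00
    exact zero_ne_one e00
  refine ⟨hN00, hN11, ?_, ?_⟩
  · conv_lhs => rw [Matrix.eta_fin_two N, h10]
  · rw [Matrix.eta_fin_two Ninv, hr]
    have hp : Ninv 0 0 = (N 0 0)⁻¹ := eq_inv_of_mul_eq_one_right e00
    have hs : Ninv 1 1 = (N 1 1)⁻¹ := eq_inv_of_mul_eq_one_right e11
    have hq : Ninv 0 1 = -(N 0 1 * (N 0 0)⁻¹ * (N 1 1)⁻¹) := by
      rw [hs] at e01
      field_simp
      field_simp at e01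
      linear_combination e01
    rw [hp, hs, hq]

/-- **(U7)**, algebraic form: the relation between two normal forms imposed by an upper triangular
`n = !![a, b; 0, d]` (with `λ = a/d`), a twist `δ` and `m = ψ(n)`:
(1) `γ (λ² - δ) x = 0`; (2) if `γ = 0` then `α' = δ λ α + (2 m₀₀ - 2 δ (b/a) μ) λ x`. -/
theorem nf_relation {a b d δ γ μ : k} (ha : a ≠ 0) (hd : d ≠ 0)
    (m : Matrix (Fin 2) (Fin 2) k) (hm : m.trace = 0) (x α α' : k)
    (hrel : nf γ μ α' (a / d * x) =
      δ • (!![a, b; 0, d] * nf γ μ α x * !![a⁻¹, -(b * a⁻¹ * d⁻¹); 0, d⁻¹])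
        + m - upperU (a / d * x) * m * upperU (-(a / d * x))) :
    γ * ((a / d) ^ 2 - δ) * x = 0 ∧
      (γ = 0 → α' = δ * (a / d) * α + (2 * m 0 0 - 2 * δ * (b / a) * μ) * (a / d) * x) := by
  have hcob : ∀ Y U : Matrix (Fin 2) (Fin 2) k, Y + m - U = Y + -(U - m) := by
    intro Y U
    abel
  rw [hcob, coboundary_eq m hm, conj_upper ha hd] at hrel
  have e10 := congrFun (congrFun hrel 1) 0
  have e00 := congrFun (congrFun hrel 0) 0
  have e01 := congrFun (congrFun hrel 0) 1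
  simp only [nf, Matrix.add_apply, Matrix.smul_apply, Matrix.neg_apply, Matrix.of_apply,
    Matrix.cons_val', Matrix.cons_val_zero, Matrix.cons_val_one, Matrix.empty_val',
    Matrix.cons_val_fin_one, smul_eq_mul] at e10 e00 e01
  have hl0 : a / d ≠ 0 := div_ne_zero ha hd
  have h1 : d / a = (a / d)⁻¹ := (inv_div a d).symm
  have h3 : b / d = b / a * (a / d) := by
    field_simp
  have h4 : b ^ 2 / (a * d) = (b / a) ^ 2 * (a / d) := by
    field_simp
  rw [h1] at e10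
  rw [h3, h4] at e01
  clear hrel hcob h1 h3 h4
  generalize a / d = l at *
  generalize b / a = s at *
  have hl : l * l⁻¹ = 1 := mul_inv_cancel₀ hl0
  constructor
  · linear_combination l * e10 + (δ * γ * x) * hl
  · intro hγ
    subst hγ
    linear_combination e01 + (l * x) * e00

/-- **(U7)**, cocycle form: `N` upper triangular with right inverse `Ninv`, `y = λ x` with
`λ = N₀₀/N₁₁`, and the relation `c y = δ • (N c(x) N⁻¹) + m - u(y) m u(-y)`. -/
theorem normaliser_relation {A : AddSubgroup k} {c : A → Matrix (Fin 2) (Fin 2) k} {γ μ : k}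
    {a₀ : A → k} (hnf : ∀ x : A, c x = nf γ μ (a₀ x) x)
    {N Ninv : Matrix (Fin 2) (Fin 2) k} (h10 : N 1 0 = 0) (hN : N * Ninv = 1) (δ : k)
    (m : Matrix (Fin 2) (Fin 2) k) (hm : m.trace = 0)
    (x y : A) (hy : (y : k) = N 0 0 / N 1 1 * (x : k))
    (hrel : c y = δ • (N * c x * Ninv) + m - upperU (y : k) * m * upperU (-(y : k))) :
    γ * ((N 0 0 / N 1 1) ^ 2 - δ) * (x : k) = 0 ∧
      (γ = 0 → a₀ y = δ * (N 0 0 / N 1 1) * a₀ x
        + (2 * m 0 0 - 2 * δ * (N 0 1 / N 0 0) * μ) * (N 0 0 / N 1 1) * (x : k)) := by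
  obtain ⟨h00, h11, hNeq, hNinv⟩ := upper_inv_eq h10 hN
  refine nf_relation h00 h11 m hm (x : k) (a₀ x) (a₀ y) ?_
  rw [← hNeq, ← hNinv, ← hy, ← hnf, ← hnf]
  exact hrel

/-! ### Additive functions which are homogeneous for many scalars -/

section Homogeneous

variable {A : AddSubgroup k} (a₀ : A →+ k)

/-- the scalars `e` with `e A ⊆ A` and `a₀ (e x) = e a₀ x` -/
def homSet : Set k :=
  {e | ∃ hA : ∀ x : A, e * (x : k) ∈ A, ∀ x : A, a₀ ⟨e * (x : k), hA x⟩ = e * a₀ x}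

theorem zero_mem_homSet : (0 : k) ∈ homSet a₀ := by
  refine ⟨fun x => by rw [zero_mul]; exact A.zero_mem, fun x => ?_⟩
  have : (⟨0 * (x : k), by rw [zero_mul]; exact A.zero_mem⟩ : A) = 0 := Subtype.ext (zero_mul _)
  rw [this, map_zero, zero_mul]

theorem sub_mem_homSet {e e' : k} (he : e ∈ homSet a₀) (he' : e' ∈ homSet a₀) :
    e - e' ∈ homSet a₀ := by
  obtain ⟨hA, h⟩ := he
  obtain ⟨hA', h'⟩ := he'
  have hsub : ∀ x : A, (e - e') * (x : k) ∈ A := fun x => by
    rw [sub_mul]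
    exact A.sub_mem (hA x) (hA' x)
  refine ⟨hsub, fun x => ?_⟩
  have : (⟨(e - e') * (x : k), hsub x⟩ : A) = ⟨e * (x : k), hA x⟩ - ⟨e' * (x : k), hA' x⟩ :=
    Subtype.ext (sub_mul _ _ _)
  rw [this, map_sub, h, h', sub_mul]

theorem mul_mem_homSet {e e' : k} (he : e ∈ homSet a₀) (he' : e' ∈ homSet a₀) :
    e * e' ∈ homSet a₀ := by
  obtain ⟨hA, h⟩ := he
  obtain ⟨hA', h'⟩ := he'
  have hmul : ∀ x : A, e * e' * (x : k) ∈ A := fun x => by
    rw [mul_assoc]
    exact hA ⟨e' * (x : k), hA' x⟩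
  refine ⟨hmul, fun x => ?_⟩
  have : (⟨e * e' * (x : k), hmul x⟩ : A)
      = ⟨e * ((⟨e' * (x : k), hA' x⟩ : A) : k), hA ⟨e' * (x : k), hA' x⟩⟩ :=
    Subtype.ext (mul_assoc _ _ _)
  rw [this, h, h', mul_assoc]

theorem inv_mem_homSet [Finite A] {e : k} (he : e ∈ homSet a₀) (he0 : e ≠ 0) :
    e⁻¹ ∈ homSet a₀ := by
  obtain ⟨hA, h⟩ := he
  have hinj : Function.Injective (fun x : A => (⟨e * (x : k), hA x⟩ : A)) := by
    intro x y hxy
    have := congrArg Subtype.val hxy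
    exact Subtype.ext (mul_left_cancel₀ he0 this)
  have hsurj := Finite.injective_iff_surjective.mp hinj
  have hinv : ∀ x : A, e⁻¹ * (x : k) ∈ A := fun x => by
    obtain ⟨y, hy⟩ := hsurj x
    have : (x : k) = e * (y : k) := (congrArg Subtype.val hy).symm
    rw [this, inv_mul_cancel_left₀ he0]
    exact y.2
  refine ⟨hinv, fun x => ?_⟩
  obtain ⟨y, hy⟩ := hsurj x
  have hxy : (x : k) = e * (y : k) := (congrArg Subtype.val hy).symm
  have : (⟨e⁻¹ * (x : k), hinv x⟩ : A) = y :=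
    Subtype.ext (by
      show e⁻¹ * (x : k) = (y : k)
      rw [hxy, inv_mul_cancel_left₀ he0])
  rw [this, ← hy, h, inv_mul_cancel_left₀ he0]

/-- **(U8)** an additive function on a finite additive subgroup `A` of `k` which is homogeneous
for a set `K` of nonzero scalars with `|A| < (|K| + 1)²` is a multiple of the identity. -/
theorem exists_eq_mul_of_homogeneous [Finite A] (K : Set k) (hK0 : (0 : k) ∉ K)
    (hhom : ∀ l ∈ K, ∀ x : A, ∃ h : l * (x : k) ∈ A, a₀ ⟨l * (x : k), h⟩ = l * a₀ x)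
    (hcard : Nat.card A < (Nat.card K + 1) ^ 2) :
    ∃ ν : k, ∀ x : A, a₀ x = ν * (x : k) := by
  classical
  by_cases hA : ∃ x₀ : A, (x₀ : k) ≠ 0
  swap
  · push Not at hA
    refine ⟨0, fun x => ?_⟩
    have hx : x = 0 := Subtype.ext (hA x)
    rw [hx, map_zero, zero_mul]
  obtain ⟨x₀, hx₀⟩ := hA
  have hKE : K ⊆ homSet a₀ := fun l hl =>
    ⟨fun x => (hhom l hl x).1, fun x => (hhom l hl x).2⟩
  -- `E` embeds into `A`
  let ι : homSet a₀ → A := fun e => ⟨(e : k) * (x₀ : k), e.2.1 x₀⟩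
  have hι : Function.Injective ι := by
    intro e e' hee
    have := congrArg Subtype.val hee
    exact Subtype.ext (mul_right_cancel₀ hx₀ this)
  have : Finite (homSet a₀) := Finite.of_injective ι hι
  -- the size of `E`
  have hKE' : insert (0 : k) K ⊆ homSet a₀ := Set.insert_subset (zero_mem_homSet a₀) hKE
  have hEfin : (homSet a₀).Finite := Set.toFinite _
  have hcardE : Nat.card K + 1 ≤ Nat.card (homSet a₀) := by
    rw [Nat.card_coe_set_eq, Nat.card_coe_set_eq]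
    have hKfin : K.Finite := hEfin.subset hKE
    rw [← Set.ncard_insert_of_notMem hK0 hKfin]
    exact Set.ncard_le_ncard hKE' hEfin
  -- every element of `A` is an `E`-multiple of `x₀`
  have hspan : ∀ x : A, ∃ e ∈ homSet a₀, (x : k) = e * (x₀ : k) := by
    by_contra hne
    push Not at hne
    obtain ⟨x₁, hx₁⟩ := hne
    let φ : homSet a₀ × homSet a₀ → A := fun ee =>
      ⟨(ee.1 : k) * (x₀ : k), ee.1.2.1 x₀⟩ + ⟨(ee.2 : k) * (x₁ : k), ee.2.2.1 x₁⟩
    have hφ : Function.Injective φ := by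
      rintro ⟨e₁, e₂⟩ ⟨e₁', e₂'⟩ hee
      have h := congrArg Subtype.val hee
      have h' : (e₁ : k) * (x₀ : k) + (e₂ : k) * (x₁ : k)
          = (e₁' : k) * (x₀ : k) + (e₂' : k) * (x₁ : k) := h
      by_cases h22 : (e₂ : k) = (e₂' : k)
      · have h11 : (e₁ : k) = (e₁' : k) := by
          rw [h22] at h'
          exact mul_right_cancel₀ hx₀ (add_right_cancel h')
        exact Prod.ext (Subtype.ext h11) (Subtype.ext h22)
      · exfalso
        have hd : (e₂' : k) - (e₂ : k) ≠ 0 := sub_ne_zero.mpr (Ne.symm h22)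
        refine hx₁ (((e₁ : k) - (e₁' : k)) * ((e₂' : k) - (e₂ : k))⁻¹) ?_ ?_
        · exact mul_mem_homSet a₀ (sub_mem_homSet a₀ e₁.2 e₁'.2)
            (inv_mem_homSet a₀ (sub_mem_homSet a₀ e₂'.2 e₂.2) hd)
        · have hx : (x₁ : k) * ((e₂' : k) - (e₂ : k)) = ((e₁ : k) - (e₁' : k)) * (x₀ : k) := by
            linear_combination -h'
          calc (x₁ : k) = (x₁ : k) * ((e₂' : k) - (e₂ : k)) * ((e₂' : k) - (e₂ : k))⁻¹ := by
                rw [mul_inv_cancel_right₀ hd]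
            _ = ((e₁ : k) - (e₁' : k)) * ((e₂' : k) - (e₂ : k))⁻¹ * (x₀ : k) := by
                rw [hx]
                ring
    have hle := Nat.card_le_card_of_injective φ hφ
    rw [Nat.card_prod] at hle
    have : (Nat.card K + 1) ^ 2 ≤ Nat.card (homSet a₀) * Nat.card (homSet a₀) := by
      rw [sq]
      exact Nat.mul_le_mul hcardE hcardE
    omega
  refine ⟨a₀ x₀ / (x₀ : k), fun x => ?_⟩
  obtain ⟨e, he, hxe⟩ := hspan x
  obtain ⟨hA, h⟩ := he
  have : x = ⟨e * (x₀ : k), hA x₀⟩ := Subtype.ext hxe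
  rw [this, h]
  field_simp

/-- **(U8)**, twisted form: the relations `a₀ (l x) = l a₀ x + ν_l l x` (`l ∈ K`, each `l` of
finite order prime to the characteristic) force `a₀ = ν • id` as soon as `|A| < (|K| + 1)²`. -/
theorem exists_eq_mul_of_twisted_homogeneous [Finite A] (K : Set k) (hK0 : (0 : k) ∉ K)
    (hfin : ∀ l ∈ K, ∃ n : ℕ, (n : k) ≠ 0 ∧ l ^ n = 1)
    (hrel : ∀ l ∈ K, ∃ ν : k, ∀ x : A, ∃ h : l * (x : k) ∈ A,
      a₀ ⟨l * (x : k), h⟩ = l * a₀ x + ν * (l * (x : k)))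
    (hcard : Nat.card A < (Nat.card K + 1) ^ 2) :
    ∃ ν : k, ∀ x : A, a₀ x = ν * (x : k) := by
  refine exists_eq_mul_of_homogeneous a₀ K hK0 (fun l hl x => ?_) hcard
  obtain ⟨ν, hν⟩ := hrel l hl
  obtain ⟨n, hn0, hn⟩ := hfin l hl
  obtain ⟨h, hx⟩ := hν x
  refine ⟨h, ?_⟩
  by_cases hx0 : (x : k) = 0
  · rw [hx, hx0, mul_zero, mul_zero, add_zero]
  -- iterate the relation
  have hiter : ∀ j : ℕ, ∃ hj : l ^ j * (x : k) ∈ A,
      a₀ ⟨l ^ j * (x : k), hj⟩ = l ^ j * a₀ x + (j : k) * ν * (l ^ j * (x : k)) := by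
    intro j
    induction j with
    | zero =>
      have h0 : l ^ 0 * (x : k) ∈ A := by
        rw [pow_zero, one_mul]
        exact x.2
      refine ⟨h0, ?_⟩
      have : (⟨l ^ 0 * (x : k), h0⟩ : A) = x := Subtype.ext (by
        show l ^ 0 * (x : k) = (x : k)
        rw [pow_zero, one_mul])
      rw [this]
      simp
    | succ j ih =>
      obtain ⟨hj, ihj⟩ := ih
      obtain ⟨h', hx'⟩ := hν ⟨l ^ j * (x : k), hj⟩
      have hmem : l ^ (j + 1) * (x : k) ∈ A := by
        rw [pow_succ', mul_assoc]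
        exact h'
      refine ⟨hmem, ?_⟩
      have : (⟨l ^ (j + 1) * (x : k), hmem⟩ : A)
          = ⟨l * ((⟨l ^ j * (x : k), hj⟩ : A) : k), h'⟩ := Subtype.ext (by
        show l ^ (j + 1) * (x : k) = l * (l ^ j * (x : k))
        rw [pow_succ', mul_assoc])
      rw [this, hx', ihj]
      push_cast
      ring
  obtain ⟨hn', hxn⟩ := hiter n
  have : (⟨l ^ n * (x : k), hn'⟩ : A) = x := Subtype.ext (by
    show l ^ n * (x : k) = (x : k)
    rw [hn, one_mul])
  rw [this, hn, one_mul, one_mul] at hxn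
  have hz : (n : k) * ν * (x : k) = 0 := by linear_combination -hxn
  have hν0 : ν = 0 := by
    rcases mul_eq_zero.mp hz with h1 | h1
    · rcases mul_eq_zero.mp h1 with h2 | h2
      · exact absurd h2 hn0
      · exact h2
    · exact absurd h1 hx0
  rw [hx, hν0, zero_mul, add_zero]

/-- in a finite field every nonzero element has order prime to the characteristic -/
theorem exists_pow_eq_one_of_finite [Finite k] {l : k} (hl : l ≠ 0) :
    ∃ n : ℕ, (n : k) ≠ 0 ∧ l ^ n = 1 := by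
  classical
  have : Fintype k := Fintype.ofFinite k
  refine ⟨Fintype.card k - 1, ?_, FiniteField.pow_card_sub_one_eq_one l hl⟩
  have h1 : 1 ≤ Fintype.card k := Fintype.card_pos
  rw [Nat.cast_sub h1, FiniteField.cast_card_eq_zero, Nat.cast_one, zero_sub]
  exact neg_ne_zero.mpr one_ne_zero

/-- an additive function on an additive subgroup of prime order is a multiple of the identity -/
theorem exists_eq_mul_of_card_prime {p : ℕ} (hp : p.Prime) (hA : Nat.card A = p) :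
    ∃ ν : k, ∀ x : A, a₀ x = ν * (x : k) := by
  have : Fact p.Prime := ⟨hp⟩
  have hfin : Finite A := Nat.finite_of_card_ne_zero (hA ▸ hp.ne_zero)
  obtain ⟨x₀, hx₀⟩ : ∃ x₀ : A, x₀ ≠ 0 := by
    by_contra hne
    push Not at hne
    have : Subsingleton A := ⟨fun x y => by rw [hne x, hne y]⟩
    have h1 : Nat.card A = 1 := Nat.card_unique
    rw [hA] at h1
    exact hp.ne_one h1
  have hx₀' : (x₀ : k) ≠ 0 := fun h => hx₀ (Subtype.ext h)
  refine ⟨a₀ x₀ / (x₀ : k), fun x => ?_⟩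
  obtain ⟨j, hj⟩ := AddSubgroup.mem_zmultiples_iff.mp (mem_zmultiples_of_prime_card hA hx₀ (g' := x))
  rw [← hj, map_zsmul, AddSubgroup.coe_zsmul, zsmul_eq_mul, zsmul_eq_mul]
  field_simp

end Homogeneous

/-! ### Summary: cocycles of the unipotent group which extend to the normaliser -/

/-- **Summary.** Let `c` be a trace zero cocycle of the unipotent group `upperU(A)`, and suppose
given a family of upper triangular matrices `N i` (with right inverses `Ninv i`, twists `δ i` and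
matrices `m i = ψ(N i)`) such that for `λ i = (N i)₀₀/(N i)₁₁` and all `x ∈ A`: `λ i x ∈ A` and
`c (λ i x) = δ i • (N i * c x * Ninv i) + m i - u(λ i x) * m i * u(-λ i x)` (the shape of
`cocParam_normalizer`). If (a) `3 = 0` or `(λ i) ^ 2 ≠ δ i` for some `i`, and (b) `|A|` is prime,
or `k` is finite and `|A| < (|K| + 1) ^ 2` for `K = {λ i | δ i = 1}`, then `c` is a coboundary. -/
theorem IsUCocycle.isCoboundary_of_relations {A : AddSubgroup k}
    {c : A → Matrix (Fin 2) (Fin 2) k} (hc : IsUCocycle A c) (htr : ∀ x : A, (c x).trace = 0)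
    (h2 : (2 : k) ≠ 0) {ι : Type*} (N Ninv m : ι → Matrix (Fin 2) (Fin 2) k) (δ : ι → k)
    (h10 : ∀ i, N i 1 0 = 0) (hN : ∀ i, N i * Ninv i = 1) (hm : ∀ i, (m i).trace = 0)
    (hrel : ∀ i (x : A), ∃ hx : N i 0 0 / N i 1 1 * (x : k) ∈ A,
      c ⟨N i 0 0 / N i 1 1 * (x : k), hx⟩ = δ i • (N i * c x * Ninv i) + m i
        - upperU (N i 0 0 / N i 1 1 * (x : k)) * m i * upperU (-(N i 0 0 / N i 1 1 * (x : k))))
    (hγ : (3 : k) = 0 ∨ ∃ i, (N i 0 0 / N i 1 1) ^ 2 ≠ δ i)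
    (ha : (∃ p : ℕ, p.Prime ∧ Nat.card A = p) ∨
      (Finite k ∧
        Nat.card A < (Nat.card {l : k | ∃ i, δ i = 1 ∧ l = N i 0 0 / N i 1 1} + 1) ^ 2)) :
    ∃ m₀ : Matrix (Fin 2) (Fin 2) k, m₀.trace = 0 ∧
      ∀ x : A, c x = upperU (x : k) * m₀ * upperU (-(x : k)) - m₀ := by
  obtain ⟨γ, μ, a₀, hγ3, hnf⟩ := hc.exists_normalForm htr h2
  by_cases hA : ∃ x₀ : A, (x₀ : k) ≠ 0
  swap
  · push Not at hA
    refine ⟨0, by simp, fun x => ?_⟩
    have hx : x = 0 := Subtype.ext (hA x)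
    rw [hx, hc.map_zero]
    simp
  obtain ⟨x₀, hx₀⟩ := hA
  -- the relations in terms of the normal form
  have hrel' : ∀ i (x : A), ∃ hx : N i 0 0 / N i 1 1 * (x : k) ∈ A,
      γ * ((N i 0 0 / N i 1 1) ^ 2 - δ i) * (x : k) = 0 ∧
      (γ = 0 → a₀ ⟨N i 0 0 / N i 1 1 * (x : k), hx⟩ = δ i * (N i 0 0 / N i 1 1) * a₀ x
        + (2 * m i 0 0 - 2 * δ i * (N i 0 1 / N i 0 0) * μ) * (N i 0 0 / N i 1 1) * (x : k)) := by
    intro i x
    obtain ⟨hx, h⟩ := hrel i x
    exact ⟨hx, normaliser_relation (a₀ := fun x => a₀ x) hnf (h10 i) (hN i) (δ i) (m i) (hm i)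
      x ⟨_, hx⟩ rfl h⟩
  -- `γ = 0`
  have hγ0 : γ = 0 := by
    rcases hγ with h3 | ⟨i, hi⟩
    · exact hγ3 h3
    · obtain ⟨-, this, -⟩ := hrel' i x₀
      rcases mul_eq_zero.mp this with h | h
      · rcases mul_eq_zero.mp h with h' | h'
        · exact h'
        · exact absurd (sub_eq_zero.mp h') hi
      · exact absurd h hx₀
  subst hγ0
  -- `a₀ = ν • id`
  obtain ⟨ν, hν⟩ : ∃ ν : k, ∀ x : A, a₀ x = ν * (x : k) := by
    rcases ha with ⟨p, hp, hpA⟩ | ⟨hk, hcard⟩
    · exact exists_eq_mul_of_card_prime a₀ hp hpA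
    · have : Finite A := Finite.of_injective (fun x : A => (x : k)) Subtype.val_injective
      refine exists_eq_mul_of_twisted_homogeneous a₀ _ ?_ ?_ ?_ hcard
      · rintro ⟨i, -, hi⟩
        obtain ⟨h00, h11, -, -⟩ := upper_inv_eq (h10 i) (hN i)
        exact div_ne_zero h00 h11 hi.symm
      · rintro l ⟨i, -, rfl⟩
        obtain ⟨h00, h11, -, -⟩ := upper_inv_eq (h10 i) (hN i)
        exact exists_pow_eq_one_of_finite (div_ne_zero h00 h11)
      · rintro l ⟨i, hδ, rfl⟩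
        refine ⟨2 * m i 0 0 - 2 * δ i * (N i 0 1 / N i 0 0) * μ, fun x => ?_⟩
        obtain ⟨hx, -, h⟩ := hrel' i x
        refine ⟨hx, ?_⟩
        rw [h rfl, hδ]
        ring
  exact isCoboundary_of_nf h2 (a₀ := fun x => a₀ x) hnf hν

end Fermat.Agent.S56x.Group.UnipotentH1
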