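/-
P-S56 (Taylor–Wiles primes), block (D) GROUP THEORY (helper7): bridge between the parameter group
of an upper unitriangular subgroup `P` (`SylowParam.lean`) and the explicit description of the
cocycles of the unipotent group (`UnipotentH1.lean`).

* `isCoboundary_restrict_of_normalizer`: for `r` injective, `ψ` a trace zero cocycle of `G`,
  `P ≤ G` with `r(P)` upper unitriangular, `S` a set of elements of the normaliser of `P` with
  `r n` upper triangular: if (a) `3 = 0` in `k` or `λ(n)² ≠ det (r n)` for some `n ∈ S`, and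
  (b) the parameter group `A` of `P` has prime order, or `k` is finite and
  `|A| < (|{λ(n) | n ∈ S, det (r n) = 1}| + 1)²`, then `ψ|_P` is a coboundary;
* `isCoboundary_of_normalizer`: if moreover the index of `P` is invertible in `k`, then `ψ` is a
  coboundary.
-/
import Mathlib
import Fermat.Agent.S56x.Group.SylowParam
import Fermat.Agent.S56x.Group.UnipotentH1

set_option autoImplicit false

open Matrix

namespace Fermat.Agent.S56x.Group

open UnipotentH1

variable {k : Type*} [Field k] {G : Type*} [Group G]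

/-- the ratio `λ(n) = (r n)₀₀ / (r n)₁₁` of the diagonal entries. -/
def diagRatio (r : G →* GL (Fin 2) k) (n : G) : k :=
  ((r n : GL (Fin 2) k) : Matrix (Fin 2) (Fin 2) k) 0 0 /
    ((r n : GL (Fin 2) k) : Matrix (Fin 2) (Fin 2) k) 1 1

/-- the determinant of `r n` as an element of `k`. -/
def detVal (r : G →* GL (Fin 2) k) (n : G) : k :=
  ((Matrix.GeneralLinearGroup.det (r n) : kˣ) : k)

variable {r : G →* GL (Fin 2) k} {ψ : G → Matrix (Fin 2) (Fin 2) k}

/-- the restriction of a cocycle to an upper unitriangular subgroup `P` is a coboundary as soon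
as enough elements of the normaliser of `P` are available. -/
theorem isCoboundary_restrict_of_normalizer (hr : Function.Injective r) (h : IsCocycle r ψ)
    (htr : ∀ g, (ψ g).trace = 0) (h2 : (2 : k) ≠ 0) (P : Subgroup G)
    (hPu : ∀ x ∈ P, ∃ a : k, ((r x : GL (Fin 2) k) : Matrix (Fin 2) (Fin 2) k) = upperU a)
    (S : Set G)
    (hS : ∀ n ∈ S, n ∈ Subgroup.normalizer (P : Set G) ∧
      ((r n : GL (Fin 2) k) : Matrix (Fin 2) (Fin 2) k) 1 0 = 0)
    (hγ : (3 : k) = 0 ∨ ∃ n ∈ S, diagRatio r n ^ 2 ≠ detVal r n)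
    (ha : (∃ p : ℕ, p.Prime ∧ Nat.card (paramSubgroup r P) = p) ∨
      (Finite k ∧ Nat.card (paramSubgroup r P) <
        (Nat.card {l : k | ∃ n ∈ S, detVal r n = 1 ∧ l = diagRatio r n} + 1) ^ 2)) :
    IsCoboundary (r.comp P.subtype) (fun x : P => ψ x) := by
  have hc : IsUCocycle (paramSubgroup r P) (cocParam r P ψ) := cocParam_add P hr h
  have hset : {l : k | ∃ i : S, detVal r (i : G) = 1 ∧
        l = ((r (i : G) : GL (Fin 2) k) : Matrix (Fin 2) (Fin 2) k) 0 0 /
          ((r (i : G) : GL (Fin 2) k) : Matrix (Fin 2) (Fin 2) k) 1 1}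
      = {l : k | ∃ n ∈ S, detVal r n = 1 ∧ l = diagRatio r n} := by
    ext l
    constructor
    · rintro ⟨i, hi⟩
      exact ⟨i, i.2, hi⟩
    · rintro ⟨n, hn, hl⟩
      exact ⟨⟨n, hn⟩, hl⟩
  obtain ⟨m₀, hm₀, hcob⟩ := hc.isCoboundary_of_relations (trace_cocParam r P htr) h2
    (ι := S)
    (fun i => ((r (i : G) : GL (Fin 2) k) : Matrix (Fin 2) (Fin 2) k))
    (fun i => (((r (i : G))⁻¹ : GL (Fin 2) k) : Matrix (Fin 2) (Fin 2) k))
    (fun i => ψ (i : G)) (fun i => detVal r (i : G))
    (fun i => (hS i i.2).2)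
    (fun i => by rw [← Units.val_mul, mul_inv_cancel, Units.val_one])
    (fun i => htr _)
    (fun i x => cocParam_normalizer P hr h (hS i i.2).1 (hS i i.2).2 x)
    (by
      rcases hγ with h3 | ⟨n, hn, hne⟩
      · exact Or.inl h3
      · exact Or.inr ⟨⟨n, hn⟩, hne⟩)
    (by
      rcases ha with hp | ⟨hk, hcard⟩
      · exact Or.inl hp
      · refine Or.inr ⟨hk, ?_⟩
        rw [hset]
        exact hcard)
  exact isCoboundary_restrict_of_cocParam P hr hPu hm₀ hcob

/-- a trace zero cocycle of `G` is a coboundary as soon as its restriction to an upper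
unitriangular subgroup `P` of index invertible in `k` is controlled by the normaliser. -/
theorem isCoboundary_of_normalizer (hr : Function.Injective r) (h : IsCocycle r ψ)
    (htr : ∀ g, (ψ g).trace = 0) (h2 : (2 : k) ≠ 0) (P : Subgroup G) [P.FiniteIndex]
    (hidx : ((P.index : ℕ) : k) ≠ 0)
    (hPu : ∀ x ∈ P, ∃ a : k, ((r x : GL (Fin 2) k) : Matrix (Fin 2) (Fin 2) k) = upperU a)
    (S : Set G)
    (hS : ∀ n ∈ S, n ∈ Subgroup.normalizer (P : Set G) ∧
      ((r n : GL (Fin 2) k) : Matrix (Fin 2) (Fin 2) k) 1 0 = 0)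
    (hγ : (3 : k) = 0 ∨ ∃ n ∈ S, diagRatio r n ^ 2 ≠ detVal r n)
    (ha : (∃ p : ℕ, p.Prime ∧ Nat.card (paramSubgroup r P) = p) ∨
      (Finite k ∧ Nat.card (paramSubgroup r P) <
        (Nat.card {l : k | ∃ n ∈ S, detVal r n = 1 ∧ l = diagRatio r n} + 1) ^ 2)) :
    IsCoboundary r ψ :=
  isCoboundary_of_restrict h htr P hidx
    (isCoboundary_restrict_of_normalizer hr h htr h2 P hPu S hS hγ ha)

end Fermat.Agent.S56x.Group
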