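/-
P-S56 (Taylor–Wiles primes), block (D) GROUP THEORY (helper7): the bridge theorem of
`SylowH1.lean` in the exact shape consumed by `Group/DMain.lean` (determinant and diagonal ratio
written out on the matrix `(r n).val`).
-/
import Mathlib
import Fermat.Agent.S56x.Group.SylowH1

set_option autoImplicit false

open Matrix

namespace Fermat.Agent.S56x.Group

theorem detVal_eq_det {k : Type*} [Field k] {G : Type*} [Group G] (r : G →* GL (Fin 2) k)
    (n : G) : detVal r n = (r n).val.det :=
  Matrix.GeneralLinearGroup.val_det_apply (r n)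

theorem diagRatio_eq {k : Type*} [Field k] {G : Type*} [Group G] (r : G →* GL (Fin 2) k)
    (n : G) : diagRatio r n = (r n).val 0 0 / (r n).val 1 1 := rfl

/-- a trace zero cocycle of `G` is a coboundary as soon as its restriction to an upper
unitriangular subgroup `P` of index invertible in `k` is controlled by a set `S` of elements of
the normaliser of `P` with upper triangular matrices. -/
theorem isCoboundary_of_sylow_relations {k : Type*} [Field k] (h2 : (2 : k) ≠ 0) {G : Type*}
    [Group G] {r : G →* GL (Fin 2) k} (hr : Function.Injective r)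
    {ψ : G → Matrix (Fin 2) (Fin 2) k} (hψ : IsCocycle r ψ) (htr : ∀ g, (ψ g).trace = 0)
    (P : Subgroup G) [P.FiniteIndex] (hidx : ((P.index : ℕ) : k) ≠ 0)
    (hPu : ∀ x ∈ P, ∃ a : k, ((r x : GL (Fin 2) k) : Matrix (Fin 2) (Fin 2) k) = upperU a)
    (S : Set G) (hSn : ∀ n ∈ S, n ∈ Subgroup.normalizer (P : Set G))
    (hS10 : ∀ n ∈ S, ((r n : GL (Fin 2) k) : Matrix (Fin 2) (Fin 2) k) 1 0 = 0)
    (hγ : (3 : k) = 0 ∨ ∃ n ∈ S, ((r n).val 0 0 / (r n).val 1 1) ^ 2 ≠ (r n).val.det)
    (ha : (∃ p : ℕ, p.Prime ∧ Nat.card (paramSubgroup r P) = p) ∨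
      (Finite k ∧ Nat.card (paramSubgroup r P) <
        (Nat.card {l : k | ∃ n ∈ S, (r n).val.det = 1 ∧ l = (r n).val 0 0 / (r n).val 1 1} + 1)
          ^ 2)) :
    IsCoboundary r ψ := by
  refine isCoboundary_of_normalizer hr hψ htr h2 P hidx hPu S
    (fun n hn => ⟨hSn n hn, hS10 n hn⟩) ?_ ?_
  · rcases hγ with h3 | ⟨n, hn, hne⟩
    · exact Or.inl h3
    · refine Or.inr ⟨n, hn, ?_⟩
      rw [detVal_eq_det, diagRatio_eq]
      exact hne
  · rcases ha with hp | ⟨hk, hcard⟩
    · exact Or.inl hp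
    · refine Or.inr ⟨hk, ?_⟩
      have hset : {l : k | ∃ n ∈ S, detVal r n = 1 ∧ l = diagRatio r n}
          = {l : k | ∃ n ∈ S, (r n).val.det = 1 ∧ l = (r n).val 0 0 / (r n).val 1 1} := by
        ext l
        simp only [Set.mem_ofPred_eq, detVal_eq_det, diagRatio_eq]
      rw [hset]
      exact hcard

end Fermat.Agent.S56x.Group
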