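/-
P-S56 (Taylor–Wiles primes), block (D) GROUP THEORY, file D4 (helper19): the vanishing theorem
`H¹(G, ad⁰ ⊗ det) = 0` for a finite group `G` with an injective `r : G → GL₂(k)`, `k` a finite
field of odd characteristic `p`, such that `G₁ = ker (det ∘ r)` has no stable line in `k²` and
`det ∘ r` takes a value which is not a square of the prime field.

* `exists_mem_normalizer_det_eq`: the Frattini argument (every value of `det` is taken on the
  normaliser of a Sylow `p`-subgroup contained in `ker det`);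
* `ratio_eq_natCast`: if `|A| = p` the ratio `λ(n) = n₀₀/n₁₁` of a normalising upper triangular
  element lies in the prime field;
* `ratioSet r` = `K¹`, `TStatement p r` = the numerical estimate `(T)` (class equation, D3);
* `isCoboundary_of_sylow_upper`: the theorem when the Sylow subgroup is upper unitriangular;
* `isCoboundary_of_irreducible_of_T`: the conjugation invariant form, with `(T)` as a hypothesis.
-/
import Mathlib
import Fermat.Agent.S56x.Group.SylowH1b
import Fermat.Agent.S56x.Group.SylowUnip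

set_option autoImplicit false

namespace Fermat.Agent.S56x.Group

open Matrix

variable {k : Type*} [Field k] {G : Type*} [Group G] (r : G →* GL (Fin 2) k)

/-- the determinant character of `r`. -/
def detHom : G →* kˣ := Matrix.GeneralLinearGroup.det.comp r

theorem detHom_apply (g : G) :
    ((detHom r g : kˣ) : k) = ((r g : GL (Fin 2) k) : Matrix (Fin 2) (Fin 2) k).det := by
  rw [detHom, MonoidHom.comp_apply, Matrix.GeneralLinearGroup.val_det_apply]

theorem mem_ker_detHom {g : G} :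
    g ∈ (detHom r).ker ↔ ((r g : GL (Fin 2) k) : Matrix (Fin 2) (Fin 2) k).det = 1 := by
  rw [MonoidHom.mem_ker, ← detHom_apply, Units.ext_iff, Units.val_one]

/-- **Frattini argument**: if the Sylow `p`-subgroup `P` lies in the kernel of `det ∘ r`, every
value of the determinant is taken on the normaliser of `P`. -/
theorem exists_mem_normalizer_det_eq {p : ℕ} [Fact p.Prime] [Finite G] (P : Sylow p G)
    (hPdet : ∀ x ∈ P, ((r x : GL (Fin 2) k) : Matrix (Fin 2) (Fin 2) k).det = 1) (g : G) :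
    ∃ n ∈ Subgroup.normalizer ((P : Subgroup G) : Set G),
      ((r n : GL (Fin 2) k) : Matrix (Fin 2) (Fin 2) k).det =
        ((r g : GL (Fin 2) k) : Matrix (Fin 2) (Fin 2) k).det := by
  have hPN : (P : Subgroup G) ≤ (detHom r).ker := fun x hx => (mem_ker_detHom r).mpr (hPdet x hx)
  have htop : Subgroup.normalizer ((P : Subgroup G) : Set G) ⊔ (detHom r).ker = ⊤ :=
    Sylow.normalizer_sup_eq_top' P hPN
  have hg : g ∈ Subgroup.normalizer ((P : Subgroup G) : Set G) ⊔ (detHom r).ker := by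
    rw [htop]; exact Subgroup.mem_top g
  rw [← SetLike.mem_coe, Subgroup.mul_normal] at hg
  obtain ⟨n, hn, h, hh, rfl⟩ := hg
  refine ⟨n, hn, ?_⟩
  rw [map_mul, Units.val_mul, Matrix.det_mul, (mem_ker_detHom r).mp hh, mul_one]

variable {r} in
/-- if `|A| = p`, the ratio `λ(n)` of an upper triangular normalising element lies in the prime
field. -/
theorem ratio_eq_natCast {p : ℕ} [Fact p.Prime] [CharP k p] (hr : Function.Injective r)
    (P : Subgroup G) (hcard : Nat.card (paramSubgroup r P) = p) {n : G}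
    (hn : n ∈ Subgroup.normalizer (P : Set G))
    (h10 : ((r n : GL (Fin 2) k) : Matrix (Fin 2) (Fin 2) k) 1 0 = 0) :
    ∃ j : ℕ, ((r n : GL (Fin 2) k) : Matrix (Fin 2) (Fin 2) k) 0 0 /
      ((r n : GL (Fin 2) k) : Matrix (Fin 2) (Fin 2) k) 1 1 = (j : k) := by
  have hp : p.Prime := Fact.out
  set l := ((r n : GL (Fin 2) k) : Matrix (Fin 2) (Fin 2) k) 0 0 /
      ((r n : GL (Fin 2) k) : Matrix (Fin 2) (Fin 2) k) 1 1 with hl
  have h0 : IsCocycle r (fun _ => (0 : Matrix (Fin 2) (Fin 2) k)) := by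
    intro g h
    rw [adTwMat_zero, add_zero]
  have hmem : ∀ t : paramSubgroup r P, l * (t : k) ∈ paramSubgroup r P := fun t =>
    (cocParam_normalizer P hr h0 hn h10 t).1
  -- a nonzero element of `A`
  obtain ⟨x₀, hx₀⟩ : ∃ x₀ : paramSubgroup r P, x₀ ≠ 0 := by
    by_contra hne
    push Not at hne
    have : Subsingleton (paramSubgroup r P) := ⟨fun x y => by rw [hne x, hne y]⟩
    have h1 : Nat.card (paramSubgroup r P) = 1 := Nat.card_unique
    rw [hcard] at h1
    exact hp.ne_one h1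
  have hx₀' : (x₀ : k) ≠ 0 := fun h => hx₀ (Subtype.ext h)
  obtain ⟨j, hj⟩ := AddSubgroup.mem_zmultiples_iff.mp
    (mem_zmultiples_of_prime_card hcard hx₀ (g' := ⟨l * (x₀ : k), hmem x₀⟩))
  have hj' : (j : k) * (x₀ : k) = l * (x₀ : k) := by
    have := congrArg (fun t : paramSubgroup r P => (t : k)) hj
    simpa [AddSubgroup.coe_zsmul, zsmul_eq_mul] using this
  have hlj : l = (j : k) := (mul_right_cancel₀ hx₀' hj').symm
  refine ⟨(j % (p : ℤ)).toNat, ?_⟩
  rw [hlj]
  have h1 : ((j % (p : ℤ)).toNat : ℤ) = j % (p : ℤ) :=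
    Int.toNat_of_nonneg (Int.emod_nonneg j (by exact_mod_cast hp.ne_zero))
  have h2 : (((j % (p : ℤ)).toNat : ℕ) : k) = (((j % (p : ℤ)).toNat : ℤ) : k) := by
    rw [Int.cast_natCast]
  rw [h2, h1]
  exact (CharP.intCast_eq_intCast k p).mpr (Int.mod_modEq j p).symm

/-- the ratios `n₀₀/n₁₁` of the upper triangular elements of determinant `1`. -/
def ratioSet : Set k :=
  {l : k | ∃ n : G, ((r n : GL (Fin 2) k) : Matrix (Fin 2) (Fin 2) k) 1 0 = 0 ∧
    ((r n : GL (Fin 2) k) : Matrix (Fin 2) (Fin 2) k).det = 1 ∧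
    l = ((r n : GL (Fin 2) k) : Matrix (Fin 2) (Fin 2) k) 0 0 /
      ((r n : GL (Fin 2) k) : Matrix (Fin 2) (Fin 2) k) 1 1}

/-- **(D-main), upper form.** `G` finite, `r : G → GL₂(k)` injective, `k` finite of odd
characteristic `p`, a Sylow `p`-subgroup `P` in upper unitriangular form, a value of `det ∘ r`
which is not a square in the prime field, and the numerical estimate `(T)` if `|P| ≥ p²`. Then
every trace zero cocycle for the twisted adjoint action is a coboundary. -/
theorem isCoboundary_of_sylow_upper {p : ℕ} [Fact p.Prime] [CharP k p] [Finite k] (hp2 : p ≠ 2)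
    [Finite G] {r : G →* GL (Fin 2) k} (hr : Function.Injective r) (P : Sylow p G)
    (hPu : ∀ x ∈ P, ∃ a : k, ((r x : GL (Fin 2) k) : Matrix (Fin 2) (Fin 2) k) = upperU a)
    (hdet : ∃ g : G, ∀ j : ℕ,
      (j : k) ^ 2 ≠ ((r g : GL (Fin 2) k) : Matrix (Fin 2) (Fin 2) k).det)
    (hT : p ^ 2 ≤ Nat.card (P : Subgroup G) →
      Nat.card (P : Subgroup G) - 1 ≤ 2 * Nat.card (ratioSet r))
    {ψ : G → Matrix (Fin 2) (Fin 2) k} (hψ : IsCocycle r ψ) (htr : ∀ g, (ψ g).trace = 0) :
    IsCoboundary r ψ := by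
  have hp : p.Prime := Fact.out
  have h2 : (2 : k) ≠ 0 := by
    intro h
    have h' : ((2 : ℕ) : k) = 0 := by exact_mod_cast h
    rw [CharP.cast_eq_zero_iff k p] at h'
    exact hp2 ((Nat.prime_dvd_prime_iff_eq hp Nat.prime_two).mp h')
  have hP := sylow_mem_iff_upperUnip hr P hPu
  have hidx : (((P : Subgroup G).index : ℕ) : k) ≠ 0 := by
    rw [Ne, CharP.cast_eq_zero_iff k p]
    exact P.not_dvd_index
  have hcardA := card_paramSubgroup hr (P : Subgroup G) hPu
  obtain ⟨m, hm⟩ := IsPGroup.exists_card_eq P.2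
  set S : Set G := {n | ((r n : GL (Fin 2) k) : Matrix (Fin 2) (Fin 2) k) 1 0 = 0} with hS
  have hSn : ∀ n ∈ S, n ∈ Subgroup.normalizer ((P : Subgroup G) : Set G) := fun n hn =>
    mem_normalizer_of_lower_left_eq_zero r (P : Subgroup G) hP hn
  have hPdet : ∀ x ∈ P, ((r x : GL (Fin 2) k) : Matrix (Fin 2) (Fin 2) k).det = 1 := by
    intro x hx
    obtain ⟨a, ha⟩ := hPu x hx
    rw [ha, det_upperU]
  rcases m with _ | _ | m
  · -- `P` trivial
    rw [pow_zero] at hm
    have hsub : Subsingleton (P : Subgroup G) := (Nat.card_eq_one_iff_unique.mp hm).1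
    refine isCoboundary_of_restrict hψ htr (P : Subgroup G) hidx ⟨0, Matrix.trace_zero _ _, ?_⟩
    intro x
    have hx : x = 1 := Subsingleton.elim x 1
    show ψ (x : G) = adTwMat ((r.comp (P : Subgroup G).subtype) x) 0 - 0
    rw [hx, adTwMat_zero, sub_zero, Subgroup.coe_one, hψ.map_one]
  · -- `|P| = p`: Frattini
    rw [zero_add, pow_one] at hm
    have hne : (P : Subgroup G) ≠ ⊥ := by
      intro hbot
      rw [hbot, Subgroup.card_bot] at hm
      exact hp.ne_one hm.symm
    obtain ⟨g, hg⟩ := hdet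
    obtain ⟨n, hn, hdetn⟩ := exists_mem_normalizer_det_eq r P hPdet g
    have h10 := lower_left_eq_zero_of_mem_normalizer hr (P : Subgroup G) hPu hne hn
    obtain ⟨j, hj⟩ := ratio_eq_natCast hr (P : Subgroup G) (hcardA.trans hm) hn h10
    exact isCoboundary_of_sylow_relations h2 hr hψ htr (P : Subgroup G) hidx hPu S hSn
      (fun n hn => hn) (Or.inr ⟨n, h10, by rw [hj, hdetn]; exact hg j⟩)
      (Or.inl ⟨p, hp, hcardA.trans hm⟩)
  · -- `|P| ≥ p²`: the estimate `(T)`
    have hp3 : 3 ≤ p := by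
      have := hp.two_le
      omega
    have hq : p ^ 2 ≤ Nat.card (P : Subgroup G) := by
      rw [hm]
      exact Nat.pow_le_pow_right hp.pos (by omega)
    have hT' := hT hq
    have hq9 : 9 ≤ Nat.card (P : Subgroup G) := by
      have : 3 ^ 2 ≤ p ^ 2 := Nat.pow_le_pow_left hp3 2
      omega
    have hc4 : 4 ≤ Nat.card (ratioSet r) := by omega
    have hKeq : {l : k | ∃ n ∈ S, ((r n : GL (Fin 2) k) : Matrix (Fin 2) (Fin 2) k).det = 1 ∧
        l = ((r n : GL (Fin 2) k) : Matrix (Fin 2) (Fin 2) k) 0 0 /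
          ((r n : GL (Fin 2) k) : Matrix (Fin 2) (Fin 2) k) 1 1} = ratioSet r := rfl
    refine isCoboundary_of_sylow_relations h2 hr hψ htr (P : Subgroup G) hidx hPu S hSn
      (fun n hn => hn) (Or.inr ?_) (Or.inr ⟨inferInstance, ?_⟩)
    · by_contra hall
      push Not at hall
      have hsub : ratioSet r ⊆ {1, -1} := by
        rintro l ⟨n, h10, hd, rfl⟩
        have := hall n h10
        rw [hd] at this
        have this' := (sq_eq_sq_iff_eq_or_eq_neg (b := (1 : k))).mp (this.trans (one_pow 2).symm)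
        rcases this' with h | h
        · exact Or.inl h
        · exact Or.inr h
      have hle : Nat.card (ratioSet r) ≤ 2 := by
        rw [Nat.card_coe_set_eq]
        refine (Set.ncard_le_ncard hsub (Set.toFinite _)).trans ?_
        refine (Set.ncard_insert_le _ _).trans ?_
        rw [Set.ncard_singleton]
      omega
    · rw [hKeq, hcardA]
      have e1 : (Nat.card (ratioSet r) + 1) ^ 2
          = Nat.card (ratioSet r) * Nat.card (ratioSet r) + 2 * Nat.card (ratioSet r) + 1 := by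
        ring
      have e2 : 16 ≤ Nat.card (ratioSet r) * Nat.card (ratioSet r) := Nat.mul_le_mul hc4 hc4
      omega

/-- the numerical estimate **(T)** for `r` (to be proved in `Group/SylowTorus.lean` by the class
equation): if the Sylow `p`-subgroup `P` is upper unitriangular of order `≥ p²` and `G₁ = ker det`
does not fix the line `k e₀`, then `|P| - 1 ≤ 2 |K¹|`. -/
def TStatement (p : ℕ) [Fact p.Prime] (r : G →* GL (Fin 2) k) : Prop :=
  ∀ P : Sylow p G,
    (∀ x ∈ P, ∃ a : k, ((r x : GL (Fin 2) k) : Matrix (Fin 2) (Fin 2) k) = upperU a) →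
    (∃ g : G, ((r g : GL (Fin 2) k) : Matrix (Fin 2) (Fin 2) k).det = 1 ∧
      ((r g : GL (Fin 2) k) : Matrix (Fin 2) (Fin 2) k) 1 0 ≠ 0) →
    p ^ 2 ≤ Nat.card (P : Subgroup G) →
    Nat.card (P : Subgroup G) - 1 ≤ 2 * Nat.card (ratioSet r)

section conj

theorem conjRep_injective (g₀ : GL (Fin 2) k) {r : G →* GL (Fin 2) k}
    (hr : Function.Injective r) : Function.Injective (conjRep g₀ r) := by
  intro x y hxy
  apply hr
  simp only [conjRep_apply] at hxy
  exact mul_left_cancel (mul_right_cancel hxy)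

theorem val_conjRep (g₀ : GL (Fin 2) k) (r : G →* GL (Fin 2) k) (g : G) :
    ((conjRep g₀ r g : GL (Fin 2) k) : Matrix (Fin 2) (Fin 2) k) =
      ((g₀⁻¹ : GL (Fin 2) k) : Matrix (Fin 2) (Fin 2) k) *
        ((r g : GL (Fin 2) k) : Matrix (Fin 2) (Fin 2) k) * (g₀ : Matrix (Fin 2) (Fin 2) k) := by
  rw [conjRep_apply, Units.val_mul, Units.val_mul]

theorem det_conjRep (g₀ : GL (Fin 2) k) (r : G →* GL (Fin 2) k) (g : G) :
    ((conjRep g₀ r g : GL (Fin 2) k) : Matrix (Fin 2) (Fin 2) k).det =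
      ((r g : GL (Fin 2) k) : Matrix (Fin 2) (Fin 2) k).det := by
  rw [val_conjRep, Matrix.det_mul, Matrix.det_mul, mul_right_comm, ← Matrix.det_mul,
    ← Units.val_mul, inv_mul_cancel, Units.val_one, Matrix.det_one, one_mul]

/-- if the first basis vector is an eigenvector of `g₀⁻¹ a g₀` then the first column of `g₀` is
an eigenvector of `a`. -/
theorem mulVec_col_of_conj_lower_left_eq_zero (g₀ : GL (Fin 2) k)
    (a : Matrix (Fin 2) (Fin 2) k)
    (h : (((g₀⁻¹ : GL (Fin 2) k) : Matrix (Fin 2) (Fin 2) k) * a *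
      (g₀ : Matrix (Fin 2) (Fin 2) k)) 1 0 = 0) :
    ∃ c : k, a *ᵥ ((g₀ : Matrix (Fin 2) (Fin 2) k) *ᵥ Pi.single 0 1) =
      c • ((g₀ : Matrix (Fin 2) (Fin 2) k) *ᵥ Pi.single 0 1) := by
  set B := ((g₀⁻¹ : GL (Fin 2) k) : Matrix (Fin 2) (Fin 2) k) * a *
      (g₀ : Matrix (Fin 2) (Fin 2) k) with hB
  have h1 : (g₀ : Matrix (Fin 2) (Fin 2) k) *
      ((g₀⁻¹ : GL (Fin 2) k) : Matrix (Fin 2) (Fin 2) k) = 1 := by
    rw [← Units.val_mul, mul_inv_cancel, Units.val_one]
  have ha : a * (g₀ : Matrix (Fin 2) (Fin 2) k) = (g₀ : Matrix (Fin 2) (Fin 2) k) * B := by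
    rw [hB, ← Matrix.mul_assoc, ← Matrix.mul_assoc, h1, Matrix.one_mul]
  have hBe : B *ᵥ Pi.single 0 1 = B 0 0 • Pi.single 0 1 := by
    rw [Matrix.mulVec_single_one]
    ext i
    fin_cases i
    · simp
    · simpa using h
  refine ⟨B 0 0, ?_⟩
  rw [Matrix.mulVec_mulVec, ha, ← Matrix.mulVec_mulVec, hBe, Matrix.mulVec_smul]

theorem mulVec_single_ne_zero (g₀ : GL (Fin 2) k) :
    (g₀ : Matrix (Fin 2) (Fin 2) k) *ᵥ (Pi.single 0 1 : Fin 2 → k) ≠ 0 := by
  intro h
  have h1 : ((g₀⁻¹ : GL (Fin 2) k) : Matrix (Fin 2) (Fin 2) k) *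
      (g₀ : Matrix (Fin 2) (Fin 2) k) = 1 := by
    rw [← Units.val_mul, inv_mul_cancel, Units.val_one]
  have := congrArg (fun w => ((g₀⁻¹ : GL (Fin 2) k) : Matrix (Fin 2) (Fin 2) k) *ᵥ w) h
  simp only [Matrix.mulVec_mulVec, h1, Matrix.one_mulVec, Matrix.mulVec_zero] at this
  have h0 := congrFun this 0
  simp at h0

end conj

/-- **(D-main), modulo (T).** Let `k` be a finite field of odd characteristic `p`, `G` a finite
group and `r : G → GL₂(k)` an injective homomorphism such that (i) the subgroup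
`G₁ = ker (det ∘ r)` has no stable line in `k²`, and (ii) some value of `det ∘ r` is not the
square of an element of the prime field. Then `H¹(G, ad⁰ ⊗ det) = 0`: every trace zero cocycle for
the twisted adjoint action `g • X = det (r g) • (r g) X (r g)⁻¹` is a coboundary. The estimate
`(T)` for the conjugates of `r` is a hypothesis here; it is discharged in `Group/DMainFinal.lean`. -/
theorem isCoboundary_of_irreducible_of_T {p : ℕ} [Fact p.Prime] [CharP k p] [Finite k]
    (hp2 : p ≠ 2) [Finite G] {r : G →* GL (Fin 2) k} (hr : Function.Injective r)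
    (hT : ∀ g₀ : GL (Fin 2) k, TStatement p (conjRep g₀ r))
    (hirr : ∀ v : Fin 2 → k, v ≠ 0 → ∃ g : G,
      ((r g : GL (Fin 2) k) : Matrix (Fin 2) (Fin 2) k).det = 1 ∧
      ∀ c : k, ((r g : GL (Fin 2) k) : Matrix (Fin 2) (Fin 2) k) *ᵥ v ≠ c • v)
    (hdet : ∃ g : G, ∀ j : ℕ,
      (j : k) ^ 2 ≠ ((r g : GL (Fin 2) k) : Matrix (Fin 2) (Fin 2) k).det)
    {ψ : G → Matrix (Fin 2) (Fin 2) k} (hψ : IsCocycle r ψ) (htr : ∀ g, (ψ g).trace = 0) :
    IsCoboundary r ψ := by
  obtain ⟨P⟩ : Nonempty (Sylow p G) := inferInstance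
  obtain ⟨g₀, hg₀⟩ := exists_conj_upper (p := p) r P.2
  apply IsCoboundary.of_conj g₀
  have hr' := conjRep_injective g₀ hr
  have hdet' : ∃ g : G, ∀ j : ℕ,
      (j : k) ^ 2 ≠ ((conjRep g₀ r g : GL (Fin 2) k) : Matrix (Fin 2) (Fin 2) k).det := by
    obtain ⟨g, hg⟩ := hdet
    exact ⟨g, fun j => by rw [det_conjRep]; exact hg j⟩
  have hirr' : ∃ g : G,
      ((conjRep g₀ r g : GL (Fin 2) k) : Matrix (Fin 2) (Fin 2) k).det = 1 ∧
      ((conjRep g₀ r g : GL (Fin 2) k) : Matrix (Fin 2) (Fin 2) k) 1 0 ≠ 0 := by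
    obtain ⟨g, hg1, hg⟩ := hirr _ (mulVec_single_ne_zero g₀)
    refine ⟨g, by rw [det_conjRep, hg1], fun h10 => ?_⟩
    rw [val_conjRep] at h10
    obtain ⟨c, hc⟩ := mulVec_col_of_conj_lower_left_eq_zero g₀ _ h10
    exact hg c hc
  exact isCoboundary_of_sylow_upper hp2 hr' P hg₀ hdet'
    (hT g₀ P hg₀ hirr') (hψ.conj g₀) (trace_conjFun g₀ htr)

end Fermat.Agent.S56x.Group
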