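/-
P-S56 (Taylor–Wiles primes), block (D) GROUP THEORY, Prelude side: the determinant of `ρbar` under
the frozen hypothesis `hdet` (`DetIsCyclotomic p`).  (helper95)

* `exists_apply_eq_pow` : the cyclotomic character of `ℚ` is onto: for a primitive `N`-th root of
  unity `ζ ∈ Qbar` and `a` prime to `N` some `σ ∈ Γℚ` has `σ ζ = ζ ^ a`;
* `det_eq_natCast_of_apply_eq_pow` : `σ ζ_p = ζ_p ^ a ⟹ det (ρbar σ) = a`;
* `exists_det_eq_natCast` : every `a` prime to `p` is a determinant `det (ρbar σ)`;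
* `exists_natCast_eq_det` : every determinant is of this form;
* `exists_det_eq_nonsquare` : (`p ≠ 2`) some `det (ρbar σ)` is the image of a non-square of
  `ZMod p`.
-/
import Mathlib
import Fermat.Prelude.Def_GaloisRep_LocalConditions
import Fermat.Agent.S56x.Group.EndGoodSigma

set_option autoImplicit false
set_option linter.style.haveILetI false
set_option linter.unusedSectionVars false

open Polynomial

noncomputable section

namespace Fermat.Agent.S56x.Group.EndDet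

open Fermat.Agent.S56x.Group.EndGoodSigma

local notation "Qb" => AlgebraicClosure ℚ
local notation "Γℚ" => (AlgebraicClosure ℚ ≃ₐ[ℚ] AlgebraicClosure ℚ)

theorem normal_algebraicClosure_rat :
    @Normal ℚ (AlgebraicClosure ℚ) _ _ DivisionRing.toRatAlgebra := by
  have h : (DivisionRing.toRatAlgebra : Algebra ℚ (AlgebraicClosure ℚ)) =
      AlgebraicClosure.instAlgebra ℚ := Subsingleton.elim _ _
  rw [h]
  infer_instance

/-- The cyclotomic character of `ℚ` is onto. -/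
theorem exists_apply_eq_pow {N : ℕ} (hN : 0 < N) {ζ : Qb} (hζ : IsPrimitiveRoot ζ N) {a : ℕ}
    (ha : a.Coprime N) : ∃ σ : Γℚ, σ ζ = ζ ^ a := by
  have hζa : IsPrimitiveRoot (ζ ^ a) N := hζ.pow_of_coprime a ha
  have h1 : minpoly ℚ ζ = minpoly ℚ (ζ ^ a) := by
    rw [← cyclotomic_eq_minpoly_rat hζ hN, ← cyclotomic_eq_minpoly_rat hζa hN]
  have hint : IsIntegral ℚ ζ := (hζ.isIntegral hN).tower_top
  haveI : Normal ℚ Qb := normal_algebraicClosure_rat
  exact minpoly.exists_algEquiv_of_root' hint.isAlgebraic (by rw [h1]; exact minpoly.aeval ℚ _)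

section field

variable {k : Type} [Field k]

/-- `σ ζ_p = ζ_p ^ a ⟹ det (ρbar σ) = a`. -/
theorem det_eq_natCast_of_apply_eq_pow (p : ℕ) [Fact p.Prime] (ρbar : ResidualGaloisRep k)
    (hdet : (GaloisRepAdic.ofResidualGaloisRep ρbar).DetIsCyclotomic p)
    {ζ : Qb} (hζ : IsPrimitiveRoot ζ p) {σ : Γℚ} {a : ℕ} (hσ : σ ζ = ζ ^ a) :
    LinearMap.det (ρbar.ρ σ) = (a : k) := by
  have hp0 := cast_prime_eq_zero_of_detIsCyclotomic p ρbar hdet
  have hfix : ∀ μ : Qb, μ ^ p ^ 1 = 1 → σ μ = μ ^ a := by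
    intro μ hμ
    rw [pow_one] at hμ
    obtain ⟨i, -, rfl⟩ := hζ.eq_pow_of_pow_eq_one hμ
    rw [map_pow, hσ, ← pow_mul, ← pow_mul, mul_comm]
  have h := hdet.2 1 σ a hfix
  have h0 : ((p ^ 1 : ℕ) : k) = 0 := by rw [pow_one]; exact hp0
  rw [h0, Ideal.span_singleton_eq_bot.mpr rfl, Ideal.mem_bot, sub_eq_zero] at h
  exact h

/-- A primitive `p`-th root of unity in `Qbar`. -/
theorem exists_primitiveRoot (p : ℕ) [Fact p.Prime] : ∃ ζ : Qb, IsPrimitiveRoot ζ p := by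
  haveI : NeZero p := ⟨(Fact.out : p.Prime).ne_zero⟩
  haveI : NeZero (p : Qb) := ⟨by exact_mod_cast (Fact.out : p.Prime).ne_zero⟩
  exact HasEnoughRootsOfUnity.exists_primitiveRoot Qb p

/-- Every integer prime to `p` is a determinant of `ρbar`. -/
theorem exists_det_eq_natCast (p : ℕ) [Fact p.Prime] (ρbar : ResidualGaloisRep k)
    (hdet : (GaloisRepAdic.ofResidualGaloisRep ρbar).DetIsCyclotomic p) {a : ℕ} (ha : ¬ p ∣ a) :
    ∃ σ : Γℚ, LinearMap.det (ρbar.ρ σ) = (a : k) := by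
  have hp : p.Prime := Fact.out
  obtain ⟨ζ, hζ⟩ := exists_primitiveRoot p
  have hcop : a.Coprime p := ((Nat.Prime.coprime_iff_not_dvd hp).mpr ha).symm
  obtain ⟨σ, hσ⟩ := exists_apply_eq_pow hp.pos hζ hcop
  exact ⟨σ, det_eq_natCast_of_apply_eq_pow p ρbar hdet hζ hσ⟩

/-- Every determinant of `ρbar` is the image of an integer prime to `p`. -/
theorem exists_natCast_eq_det (p : ℕ) [Fact p.Prime] (ρbar : ResidualGaloisRep k)
    (hdet : (GaloisRepAdic.ofResidualGaloisRep ρbar).DetIsCyclotomic p) (σ : Γℚ) :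
    ∃ a : ℕ, ¬ p ∣ a ∧ LinearMap.det (ρbar.ρ σ) = (a : k) := by
  have hp : p.Prime := Fact.out
  haveI : NeZero p := ⟨hp.ne_zero⟩
  obtain ⟨ζ, hζ⟩ := exists_primitiveRoot p
  have hspec := hζ.autToPow_spec ℚ σ
  set a : ℕ := ((hζ.autToPow ℚ σ : (ZMod p)ˣ) : ZMod p).val with ha
  refine ⟨a, ?_, det_eq_natCast_of_apply_eq_pow p ρbar hdet hζ hspec.symm⟩
  intro hdvd
  have h0 : ((a : ℕ) : ZMod p) = 0 := (ZMod.natCast_eq_zero_iff a p).mpr hdvd
  rw [ha, ZMod.natCast_val, ZMod.cast_id] at h0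
  exact (hζ.autToPow ℚ σ).ne_zero h0

/-- (`p ≠ 2`) some determinant of `ρbar` is the image of a non-square of `ZMod p`. -/
theorem exists_det_eq_nonsquare (p : ℕ) [Fact p.Prime] (hp2 : p ≠ 2) (ρbar : ResidualGaloisRep k)
    (hdet : (GaloisRepAdic.ofResidualGaloisRep ρbar).DetIsCyclotomic p) :
    ∃ (σ : Γℚ) (a : ℕ), ¬ p ∣ a ∧ ¬ IsSquare (a : ZMod p) ∧
      LinearMap.det (ρbar.ρ σ) = (a : k) := by
  have hp : p.Prime := Fact.out
  haveI : NeZero p := ⟨hp.ne_zero⟩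
  obtain ⟨x, hx⟩ := FiniteField.exists_nonsquare (F := ZMod p) (by rwa [ZMod.ringChar_zmod_n])
  have hxa : ((x.val : ℕ) : ZMod p) = x := by rw [ZMod.natCast_val, ZMod.cast_id]
  have hnd : ¬ p ∣ x.val := by
    intro hdvd
    have h0 : ((x.val : ℕ) : ZMod p) = 0 := (ZMod.natCast_eq_zero_iff _ p).mpr hdvd
    rw [hxa] at h0
    exact hx (h0 ▸ IsSquare.zero)
  obtain ⟨σ, hσ⟩ := exists_det_eq_natCast p ρbar hdet hnd
  exact ⟨σ, x.val, hnd, by rwa [hxa], hσ⟩

end field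

end Fermat.Agent.S56x.Group.EndDet

end
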