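/-
P-S56 (Taylor–Wiles primes), block (D) GROUP THEORY: the plug-in of the vanishing theorem (GT)
`H¹(Gbar, ad⁰ ⊗ det) = 0` of `Group/DMain.lean` into the Prelude-language choice of `σ`.  (helper95)

For `ρbar : ResidualGaloisRep k` (`k` finite of odd characteristic `p`) satisfying the frozen
hypotheses `habs`, `hdet`, `hTW` of S56 and `r := matRep b ρbar.ρ : Γℚ →* GL₂(k)`:

* `exists_det_ne_natCast_sq` : hypothesis (ii) of DMain: `∃ σ, ∀ j : ℕ, (j : k)² ≠ det (r σ)`;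
* `exists_det_one_not_eigen` : hypothesis (i) of DMain: every nonzero `v ∈ k²` is moved off its
  line by some `r σ` of determinant one;
* `gtStatement_of_T` : `EndKill.GTStatement r` from the numerical statement `(T)`
  (`TStatement`) for the conjugates of `QuotientGroup.kerLift r`;
* `exists_good_sigma_of_not_coboundary_of_T` : the final Prelude-language (GOODSIGMA), with `(T)`
  as the only hypothesis beyond the frozen ones.
-/
import Mathlib
import Fermat.Agent.S56x.Group.EndKill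
import Fermat.Agent.S56x.Group.EndDet
import Fermat.Agent.S56x.Group.DMain
import Fermat.Agent.S56x.Kill.QuotTransfer

set_option autoImplicit false
set_option linter.style.haveILetI false
set_option linter.unusedSectionVars false

open Matrix Polynomial

noncomputable section

namespace Fermat.Agent.S56x.Group.EndGT

open Fermat.Agent.S56x.Group Fermat.Agent.S56x.Group.EndAdapter
  Fermat.Agent.S56x.Group.SigmaChoice Fermat.Agent.S56x.Group.EndGoodSigma
  Fermat.Agent.S56x.Group.EndKill Fermat.Agent.S56x.Group.EndDet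

local notation "Qb" => AlgebraicClosure ℚ
local notation "Γℚ" => (AlgebraicClosure ℚ ≃ₐ[ℚ] AlgebraicClosure ℚ)

variable {k : Type} [Field k]

theorem charP_of_detIsCyclotomic (p : ℕ) [Fact p.Prime] (ρbar : ResidualGaloisRep k)
    (hdet : (GaloisRepAdic.ofResidualGaloisRep ρbar).DetIsCyclotomic p) : CharP k p :=
  (CharP.charP_iff_prime_eq_zero Fact.out).mpr (cast_prime_eq_zero_of_detIsCyclotomic p ρbar hdet)

/-- Hypothesis (ii) of `Group/DMain.lean`: some determinant of `ρbar` is not the square of an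
element of the prime field. -/
theorem exists_det_ne_natCast_sq (p : ℕ) [Fact p.Prime] (hp2 : p ≠ 2) (ρbar : ResidualGaloisRep k)
    (hdet : (GaloisRepAdic.ofResidualGaloisRep ρbar).DetIsCyclotomic p)
    (b : Module.Basis (Fin 2) k ρbar.V) :
    ∃ σ : Γℚ, ∀ j : ℕ,
      (j : k) ^ 2 ≠ ((matRep b ρbar.ρ σ : GL (Fin 2) k) : Matrix (Fin 2) (Fin 2) k).det := by
  haveI := charP_of_detIsCyclotomic p ρbar hdet
  obtain ⟨σ, a, -, hsq, hσ⟩ := exists_det_eq_nonsquare p hp2 ρbar hdet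
  refine ⟨σ, fun j hj => hsq ?_⟩
  rw [matRep_val, det_toMatrix_eq, hσ] at hj
  have h1 : ((j ^ 2 : ℕ) : k) = ((a : ℕ) : k) := by rw [Nat.cast_pow]; exact hj
  rw [CharP.natCast_eq_natCast k p] at h1
  have h2 : ((j ^ 2 : ℕ) : ZMod p) = ((a : ℕ) : ZMod p) :=
    (ZMod.natCast_eq_natCast_iff _ _ _).mpr h1
  refine ⟨(j : ZMod p), ?_⟩
  rw [← h2, Nat.cast_pow, sq]

/-- Hypothesis (i) of `Group/DMain.lean`: the elements of determinant one have no common
eigenvector in `k²`. -/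
theorem exists_det_one_not_eigen (p : ℕ) [Fact p.Prime] (hp2 : p ≠ 2)
    (ρbar : ResidualGaloisRep k) (habs : ρbar.IsAbsolutelyIrreducible)
    (hdet : (GaloisRepAdic.ofResidualGaloisRep ρbar).DetIsCyclotomic p)
    (hTW : ∀ (K : Type) [Field K] [Algebra k K] (G : Subgroup Γℚ), G.index = 2 →
      ∀ V : Submodule K (ρbar.baseChange K).V,
        (∀ σ ∈ G, ∀ x ∈ V, (ρbar.baseChange K).ρ σ x ∈ V) → V = ⊥ ∨ V = ⊤)
    (b : Module.Basis (Fin 2) k ρbar.V) (v : Fin 2 → k) (hv : v ≠ 0) :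
    ∃ σ : Γℚ, ((matRep b ρbar.ρ σ : GL (Fin 2) k) : Matrix (Fin 2) (Fin 2) k).det = 1 ∧
      ∀ c : k, ((matRep b ρbar.ρ σ : GL (Fin 2) k) : Matrix (Fin 2) (Fin 2) k) *ᵥ v ≠ c • v := by
  have hp : p.Prime := Fact.out
  obtain ⟨ζ, hζ⟩ := exists_primitiveRoot p
  have hζ' : IsPrimitiveRoot ζ (p ^ (0 + 1)) := by simpa using hζ
  have hN : 1 < p ^ (0 + 1) := by simpa using hp.one_lt
  haveI : NeZero (p ^ (0 + 1)) := ⟨(Nat.zero_lt_of_lt hN).ne'⟩
  haveI : IsCyclic (ZMod (p ^ (0 + 1)))ˣ := ZMod.isCyclic_units_of_prime_pow p hp hp2 (0 + 1)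
  have hirr := not_stableLineOver_ker ρbar habs hTW b (hζ'.autToPow ℚ)
  by_contra hcon
  push Not at hcon
  apply hirr
  set K := AlgebraicClosure k
  refine ⟨fun i => algebraMap k K (v i), ?_, fun g hg => ?_⟩
  · intro h0
    apply hv
    funext i
    have := congrFun h0 i
    simp only [Pi.zero_apply] at this ⊢
    exact (map_eq_zero (algebraMap k K)).mp this
  · have hgζ : g ζ = ζ := (mem_ker_autToPow_iff hN hζ' g).mp hg
    have hd : ((matRep b ρbar.ρ g : GL (Fin 2) k) : Matrix (Fin 2) (Fin 2) k).det = 1 := by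
      rw [matRep_val, det_toMatrix_eq]
      exact det_eq_one_of_fixes p ρbar hdet 0 hζ' hgζ
    obtain ⟨c, hc⟩ := hcon g hd
    refine ⟨algebraMap k K c, ?_⟩
    funext i
    have h1 := RingHom.map_mulVec (algebraMap k K)
      ((matRep b ρbar.ρ g : GL (Fin 2) k) : Matrix (Fin 2) (Fin 2) k) v i
    rw [hc] at h1
    simp only [Pi.smul_apply, smul_eq_mul, map_mul] at h1
    rw [Pi.smul_apply, smul_eq_mul, h1]
    rfl

/-- **(GT) for `ρbar` from the numerical statement `(T)`.** -/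
theorem gtStatement_of_T (p : ℕ) [Fact p.Prime] (hp2 : p ≠ 2) [Finite k]
    (ρbar : ResidualGaloisRep k) (habs : ρbar.IsAbsolutelyIrreducible)
    (hdet : (GaloisRepAdic.ofResidualGaloisRep ρbar).DetIsCyclotomic p)
    (hTW : ∀ (K : Type) [Field K] [Algebra k K] (G : Subgroup Γℚ), G.index = 2 →
      ∀ V : Submodule K (ρbar.baseChange K).V,
        (∀ σ ∈ G, ∀ x ∈ V, (ρbar.baseChange K).ρ σ x ∈ V) → V = ⊥ ∨ V = ⊤)
    (b : Module.Basis (Fin 2) k ρbar.V)
    (hT : ∀ g₀ : GL (Fin 2) k,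
      TStatement p (conjRep g₀ (QuotientGroup.kerLift (matRep b ρbar.ρ)))) :
    GTStatement (matRep b ρbar.ρ) := by
  intro ψ hψ htr hker
  haveI := charP_of_detIsCyclotomic p ρbar hdet
  haveI : Finite (Γℚ ⧸ (matRep b ρbar.ρ).ker) :=
    Kill.QuotTransfer.finite_quotient_ker (matRep b ρbar.ρ)
  refine Kill.GoodSigma.isCoboundary_of_kerLift (matRep b ρbar.ρ) (fun ψ' hψ' htr' => ?_)
    hψ htr hker
  refine isCoboundary_of_irreducible_of_T hp2 (QuotientGroup.kerLift_injective _) hT ?_ ?_ hψ' htr'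
  · intro v hv
    obtain ⟨σ, h1, h2⟩ := exists_det_one_not_eigen p hp2 ρbar habs hdet hTW b v hv
    refine ⟨QuotientGroup.mk σ, ?_, ?_⟩
    · rw [QuotientGroup.kerLift_mk]; exact h1
    · rw [QuotientGroup.kerLift_mk]; exact h2
  · obtain ⟨σ, h⟩ := exists_det_ne_natCast_sq p hp2 ρbar hdet b
    refine ⟨QuotientGroup.mk σ, ?_⟩
    rw [QuotientGroup.kerLift_mk]
    exact h

/-- **(GOODSIGMA), Prelude form, modulo `(T)`.**  Under the frozen hypotheses of S56 (with `k`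
finite) and the numerical statement `(T)` for the conjugates of the image of `ρbar`, a twisted
`End`-cocycle `Ψ` (traces `0`) which is not a coboundary admits `σ` fixing `ζ_{p^(n+1)}` with two
distinct eigenvalues in `k` and `Ψ σ ∉ (σ - 1) End(V)`. -/
theorem exists_good_sigma_of_not_coboundary_of_T (p : ℕ) [Fact p.Prime] (hp2 : p ≠ 2) [Finite k]
    (ρbar : ResidualGaloisRep k) (habs : ρbar.IsAbsolutelyIrreducible)
    (hdet : (GaloisRepAdic.ofResidualGaloisRep ρbar).DetIsCyclotomic p)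
    (hsplit : ∀ σ : Γℚ, ∃ α β : k, LinearMap.charpoly (ρbar.ρ σ) = (X - C α) * (X - C β))
    (hTW : ∀ (K : Type) [Field K] [Algebra k K] (G : Subgroup Γℚ), G.index = 2 →
      ∀ V : Submodule K (ρbar.baseChange K).V,
        (∀ σ ∈ G, ∀ x ∈ V, (ρbar.baseChange K).ρ σ x ∈ V) → V = ⊥ ∨ V = ⊤)
    (hT : ∀ g₀ : GL (Fin 2) k,
      TStatement p (conjRep g₀ (QuotientGroup.kerLift (matRep (resBasis ρbar) ρbar.ρ))))
    (n : ℕ) {ζ : Qb} (hζ : IsPrimitiveRoot ζ (p ^ (n + 1)))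
    (Ψ : Γℚ → Module.End k ρbar.V) (hΨ : IsEndCocycle ρbar.ρ Ψ)
    (htr : ∀ g, LinearMap.trace k ρbar.V (Ψ g) = 0)
    (hcob : ¬ IsEndCoboundary ρbar.ρ Ψ) :
    ∃ σ : Γℚ, σ ζ = ζ ∧ LinearMap.det (ρbar.ρ σ) = 1 ∧
      (∃ α β : k, α ≠ β ∧ LinearMap.charpoly (ρbar.ρ σ) = (X - C α) * (X - C β)) ∧
      ∀ X : Module.End k ρbar.V, endTw ρbar.ρ σ X - X ≠ Ψ σ :=
  exists_good_sigma_of_not_coboundary p hp2 ρbar habs hdet hsplit hTW
    (gtStatement_of_T p hp2 ρbar habs hdet hTW (resBasis ρbar) hT) n hζ Ψ hΨ htr hcob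

end Fermat.Agent.S56x.Group.EndGT

end
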