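/-
P-S56 (Taylor–Wiles primes), block (D) GROUP THEORY, file D3a (helper68).

The class equation of a finite "CA-group with centre `Z`" in explicit form: if the centraliser of
every element outside the central subgroup `Z` is commutative, then `G ∖ Z` is partitioned by the
sets `C(g) ∖ Z`, and grouping the "tori" `C(g)` by conjugacy gives the class equation
`∑ᵢ mᵢ (eᵢ - 1) + 1 = |G| / |Z|`, where `|Tᵢ| = eᵢ |Z|`, `|N(Tᵢ)| = νᵢ eᵢ |Z|` and `mᵢ` is the
number of conjugates of `Tᵢ`.

(This is the part of `Fermat.Agent.S48x.Group.exists_large_centralizer` that does not use a bound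
on `|N(T)/T|`; the proof is adapted from there.)
-/
import Mathlib
import Fermat.Agent.S48x.Group.ClassEq

set_option autoImplicit false

open scoped Pointwise
open MulAction

namespace Fermat.Agent.S56x.Group

open Fermat.Agent.S48x.Group

universe u

variable {G : Type u} [Group G] [Fintype G]

omit [Fintype G] in
theorem card_stabilizer_eq_card_normalizer (T : Subgroup G) :
    Nat.card (stabilizer (ConjAct G) T) = Nat.card (Subgroup.normalizer (T : Set G)) := by
  apply Nat.card_congr
  refine Equiv.subtypeEquiv ConjAct.ofConjAct.toEquiv (fun a => ?_)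
  rw [mem_stabilizer_iff]
  have := Subgroup.conjAct_pointwise_smul_iff (H := T) (g := ConjAct.ofConjAct a)
  rw [ConjAct.toConjAct_ofConjAct] at this
  exact this

omit [Fintype G] in
/-- conjugate subgroups have normalisers of the same order. -/
theorem card_normalizer_smul (a : ConjAct G) (T : Subgroup G) :
    Nat.card (Subgroup.normalizer ((a • T : Subgroup G) : Set G))
      = Nat.card (Subgroup.normalizer (T : Set G)) := by
  rw [← card_stabilizer_eq_card_normalizer, ← card_stabilizer_eq_card_normalizer,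
    MulAction.stabilizer_smul_eq_stabilizer_map_conj]
  exact Nat.card_congr
    ((stabilizer (ConjAct G) T).equivMapOfInjective _ (MulAut.conj a).injective).toEquiv.symm

/-- **Class equation data.** -/
theorem classEq_data (Z : Subgroup G) (hZ : ∀ z ∈ Z, ∀ g : G, z * g = g * z)
    (hab : ∀ g : G, g ∉ Z → ∀ x y : G, g * x = x * g → g * y = y * g → x * y = y * x) :
    ∃ (ι : Type u) (_ : Fintype ι) (T : ι → Subgroup G) (e ν m : ι → ℕ),
      (∀ i, ∃ g, g ∉ Z ∧ T i = Subgroup.centralizer ({g} : Set G)) ∧
      (∀ g, g ∉ Z → ∃ i, ∃ a : ConjAct G, a • Subgroup.centralizer ({g} : Set G) = T i) ∧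
      (∀ i j, (∃ a : ConjAct G, a • T i = T j) → i = j) ∧
      (∀ i, 2 ≤ e i ∧ Nat.card (T i) = e i * Nat.card Z ∧
            Nat.card (Subgroup.normalizer ((T i : Subgroup G) : Set G))
              = ν i * (e i * Nat.card Z) ∧
            ν i * (e i * m i) * Nat.card Z = Nat.card G) ∧
      (∑ i, m i * (e i - 1) + 1) * Nat.card Z = Nat.card G := by
  classical
  have : Fintype (Subgroup G) := Fintype.ofFinite _
  have : Fintype (orbitRel.Quotient (ConjAct G) (Subgroup G)) := Fintype.ofFinite _
  set C : G → Subgroup G := fun g => Subgroup.centralizer ({g} : Set G) with hCdef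
  have hZC : ∀ g, Z ≤ C g := fun g z hz => mem_centralizer_singleton.mpr (hZ z hz g).symm
  have hself : ∀ g, g ∈ C g := fun g => mem_centralizer_singleton.mpr rfl
  set z : ℕ := Nat.card Z with hz
  have hzpos : 0 < z := Nat.card_pos
  -- the set of tori
  set 𝒯 : Set (Subgroup G) := {T | ∃ g, g ∉ Z ∧ T = C g} with h𝒯
  have h𝒯inv : ∀ (a : ConjAct G) (T : Subgroup G), a • T ∈ 𝒯 ↔ T ∈ 𝒯 := by
    have one : ∀ (a : ConjAct G) (T : Subgroup G), T ∈ 𝒯 → a • T ∈ 𝒯 := by
      rintro a T ⟨g, hg, rfl⟩
      exact ⟨a • g, fun h => hg ((conj_mem_central_iff hZ a g).mp h), conj_smul_centralizer a g⟩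
    intro a T
    refine ⟨fun h => ?_, one a T⟩
    have := one a⁻¹ _ h
    rwa [inv_smul_smul] at this
  -- the counting function
  set f : Subgroup G → ℕ := fun T => if T ∈ 𝒯 then Nat.card T - z else 0 with hf
  have hfinv : ∀ (a : ConjAct G) (T : Subgroup G), f (a • T) = f T := by
    intro a T
    simp only [hf]
    by_cases hT : T ∈ 𝒯
    · rw [if_pos hT, if_pos ((h𝒯inv a T).mpr hT), card_smul_subgroup]
    · rw [if_neg hT, if_neg (fun h => hT ((h𝒯inv a T).mp h))]
  -- total count
  have hcount : ∀ T : Subgroup G,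
      (Finset.univ.filter (fun g : G => g ∉ Z ∧ C g = T)).card = f T := by
    intro T
    simp only [hf]
    by_cases hT : T ∈ 𝒯
    · rw [if_pos hT]
      obtain ⟨g₀, hg₀, rfl⟩ := hT
      have hset : Finset.univ.filter (fun g : G => g ∉ Z ∧ C g = C g₀)
          = Finset.univ.filter (· ∈ C g₀) \ Finset.univ.filter (· ∈ Z) := by
        ext g
        simp only [Finset.mem_filter, Finset.mem_univ, true_and, Finset.mem_sdiff]
        constructor
        · rintro ⟨hgZ, hgC⟩
          exact ⟨hgC ▸ hself g, hgZ⟩
        · rintro ⟨hgC, hgZ⟩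
          exact ⟨hgZ, centralizer_eq_of_mem hab hg₀ hgC hgZ⟩
      rw [hset, Finset.card_sdiff_of_subset, ← card_subgroup_eq_card_filter,
        ← card_subgroup_eq_card_filter]
      intro g hg
      rw [Finset.mem_filter] at hg ⊢
      exact ⟨Finset.mem_univ _, hZC g₀ hg.2⟩
    · rw [if_neg hT, Finset.card_eq_zero, Finset.filter_eq_empty_iff]
      rintro g - ⟨hgZ, hgT⟩
      exact hT ⟨g, hgZ, hgT.symm⟩
  have htotal : ∑ T : Subgroup G, f T + z = Nat.card G := by
    have h1 : (Finset.univ.filter (fun g : G => g ∉ Z)).card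
        = ∑ T : Subgroup G, (Finset.univ.filter (fun g : G => g ∉ Z ∧ C g = T)).card := by
      rw [Finset.card_eq_sum_card_fiberwise (f := C) (t := Finset.univ)
        (fun g _ => Finset.mem_univ _)]
      apply Finset.sum_congr rfl
      intro T _
      rw [Finset.filter_filter]
    have h2 : (Finset.univ.filter (fun g : G => g ∉ Z)).card + z = Nat.card G := by
      rw [hz, card_subgroup_eq_card_filter Z, Nat.card_eq_fintype_card, ← Finset.card_univ,
        add_comm]
      exact Finset.card_filter_add_card_filter_not (· ∈ Z)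
    rw [← h2, h1]
    congr 1
    exact Finset.sum_congr rfl (fun T _ => (hcount T).symm)
  -- orbit decomposition
  have horb := sum_eq_sum_orbits (M := ConjAct G) f hfinv
  -- the index type of orbits of tori
  set ι := {ω : orbitRel.Quotient (ConjAct G) (Subgroup G) // ω.out ∈ 𝒯} with hι
  have : Fintype ι := Fintype.ofFinite _
  -- `ω.out` is conjugate to any representative
  have hout : ∀ T : Subgroup G, ∃ a : ConjAct G,
      a • T = (Quotient.mk'' T : orbitRel.Quotient (ConjAct G) (Subgroup G)).out := by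
    intro T
    have hrel : (orbitRel (ConjAct G) (Subgroup G)).r
        (Quotient.mk'' T : orbitRel.Quotient (ConjAct G) (Subgroup G)).out T :=
      Quotient.exact' (Quotient.out_eq' _)
    have : (Quotient.mk'' T : orbitRel.Quotient (ConjAct G) (Subgroup G)).out
        ∈ orbit (ConjAct G) T := hrel
    obtain ⟨a, ha⟩ := this
    exact ⟨a, ha⟩
  -- per-orbit data
  have hdata : ∀ i : ι, ∃ ν e : ℕ, 2 ≤ e ∧
      Nat.card (i.1.out : Subgroup G) = e * z ∧
      Nat.card (Subgroup.normalizer ((i.1.out : Subgroup G) : Set G)) = ν * (e * z) ∧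
      ν * (e * Nat.card (orbit (ConjAct G) i.1.out)) * z = Nat.card G := by
    rintro ⟨ω, hω⟩
    obtain ⟨g, hg, hT⟩ := hω
    set T : Subgroup G := ω.out with hTdef
    -- z ∣ |T|
    have hZT : Z ≤ T := hT ▸ hZC g
    have hdvd : z ∣ Nat.card T := Subgroup.card_dvd_of_le hZT
    obtain ⟨e, he⟩ := hdvd
    have hlt : z < Nat.card T := by
      have hgT : g ∈ T := hT ▸ hself g
      have hsub : Finset.univ.filter (· ∈ Z) ⊂ Finset.univ.filter (· ∈ T) := by
        rw [Finset.ssubset_iff_of_subset]
        · exact ⟨g, by simp [hgT], by simp [hg]⟩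
        · intro x hx
          rw [Finset.mem_filter] at hx ⊢
          exact ⟨hx.1, hZT hx.2⟩
      have := Finset.card_lt_card hsub
      rwa [← card_subgroup_eq_card_filter, ← card_subgroup_eq_card_filter] at this
    have he2 : 2 ≤ e := by
      by_contra hcon
      have : e ≤ 1 := by omega
      have : z * e ≤ z * 1 := Nat.mul_le_mul_left z this
      omega
    -- normaliser
    have hTN : T ≤ Subgroup.normalizer (T : Set G) := Subgroup.le_normalizer
    have hdvdN : Nat.card T ∣ Nat.card (Subgroup.normalizer (T : Set G)) :=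
      Subgroup.card_dvd_of_le hTN
    obtain ⟨ν, hν⟩ := hdvdN
    -- orbit-stabiliser
    have hstab : Nat.card (stabilizer (ConjAct G) T)
        = Nat.card (Subgroup.normalizer (T : Set G)) := by
      apply Nat.card_congr
      refine Equiv.subtypeEquiv ConjAct.ofConjAct.toEquiv (fun a => ?_)
      rw [mem_stabilizer_iff]
      have := Subgroup.conjAct_pointwise_smul_iff (H := T) (g := ConjAct.ofConjAct a)
      rw [ConjAct.toConjAct_ofConjAct] at this
      exact this
    have horbstab : Nat.card (orbit (ConjAct G) T) * Nat.card (stabilizer (ConjAct G) T)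
        = Nat.card G := by
      have h1 := Subgroup.card_mul_index (stabilizer (ConjAct G) T)
      rw [index_stabilizer, ← Nat.card_coe_set_eq] at h1
      rw [mul_comm, h1]
      exact Nat.card_congr ConjAct.ofConjAct.toEquiv
    refine ⟨ν, e, he2, by rw [he, mul_comm], ?_, ?_⟩
    · rw [hν, he]; ring
    · rw [← horbstab, hstab, hν, he]
      ring
  choose ν e he hcardT hcardN hprod using hdata
  -- the sum identity
  have hsum : (∑ i : ι, Nat.card (orbit (ConjAct G) i.1.out) * (e i - 1) + 1) * z
      = Nat.card G := by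
    have hA : ∑ ω : orbitRel.Quotient (ConjAct G) (Subgroup G),
          Nat.card (orbit (ConjAct G) ω.out) * f ω.out
        = ∑ ω ∈ Finset.univ.filter
            (fun ω : orbitRel.Quotient (ConjAct G) (Subgroup G) => ω.out ∈ 𝒯),
            Nat.card (orbit (ConjAct G) ω.out) * f ω.out := by
      rw [Finset.sum_filter]
      apply Finset.sum_congr rfl
      intro ω _
      by_cases hω : ω.out ∈ 𝒯
      · rw [if_pos hω]
      · rw [if_neg hω]
        simp only [hf, if_neg hω, mul_zero]
    have hB : ∑ ω ∈ Finset.univ.filter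
            (fun ω : orbitRel.Quotient (ConjAct G) (Subgroup G) => ω.out ∈ 𝒯),
            Nat.card (orbit (ConjAct G) ω.out) * f ω.out
        = ∑ i : ι, Nat.card (orbit (ConjAct G) i.1.out) * f i.1.out :=
      Finset.sum_subtype _ (fun ω => by simp) _
    have hC : ∑ i : ι, Nat.card (orbit (ConjAct G) i.1.out) * f i.1.out
        = (∑ i : ι, Nat.card (orbit (ConjAct G) i.1.out) * (e i - 1)) * z := by
      rw [Finset.sum_mul]
      apply Finset.sum_congr rfl
      intro i _
      simp only [hf, if_pos i.2, hcardT i]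
      rw [mul_assoc]
      congr 1
      rw [Nat.sub_mul, one_mul]
    rw [add_mul, one_mul, ← hC, ← hB, ← hA, ← horb]
    exact htotal
  refine ⟨ι, inferInstance, fun i => i.1.out, e, ν,
    fun i => Nat.card (orbit (ConjAct G) i.1.out), ?_, ?_, ?_, ?_, hsum⟩
  · intro i
    exact i.2
  · intro g hg
    obtain ⟨a, ha⟩ := hout (C g)
    refine ⟨⟨Quotient.mk'' (C g), ?_⟩, a, ha⟩
    rw [← ha]
    exact (h𝒯inv a _).mpr ⟨g, hg, rfl⟩
  · rintro ⟨ω, hω⟩ ⟨ω', hω'⟩ ⟨a, ha⟩
    apply Subtype.ext
    show ω = ω'
    have h1 : (Quotient.mk'' ω.out : orbitRel.Quotient (ConjAct G) (Subgroup G))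
        = Quotient.mk'' ω'.out := by
      apply Quotient.sound'
      show ω.out ∈ orbit (ConjAct G) ω'.out
      refine ⟨a⁻¹, ?_⟩
      show a⁻¹ • ω'.out = ω.out
      have ha' : a • ω.out = ω'.out := ha
      rw [← ha', inv_smul_smul]
    rwa [Quotient.out_eq', Quotient.out_eq'] at h1
  · intro i
    exact ⟨he i, hcardT i, hcardN i, hprod i⟩

end Fermat.Agent.S56x.Group
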