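/-
P-S56 (Taylor–Wiles primes), block (D) GROUP THEORY, file D3b (helper68).

The Diophantine analysis of Dickson's class equation with exactly one unipotent class.
-/
import Mathlib

set_option autoImplicit false

namespace Fermat.Agent.S56x.Group

/-- a term of the class equation with `ν ≤ 2` is at least `n / 4`. -/
theorem four_mul_term_ge {n ν e m : ℕ} (hprod : ν * (e * m) = n) (he : 2 ≤ e)
    (hν : ν = 1 ∨ ν = 2) : n ≤ 4 * (m * (e - 1)) := by
  obtain ⟨e', rfl⟩ : ∃ e', e = e' + 2 := ⟨e - 2, by omega⟩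
  have h1 : e' + 2 - 1 = e' + 1 := by omega
  rw [h1]
  rcases hν with rfl | rfl <;> nlinarith

/-- a term of the class equation with `ν = 1` is at least `n / 2`. -/
theorem two_mul_term_ge {n e m : ℕ} (hprod : 1 * (e * m) = n) (he : 2 ≤ e) :
    n ≤ 2 * (m * (e - 1)) := by
  obtain ⟨e', rfl⟩ : ∃ e', e = e' + 2 := ⟨e - 2, by omega⟩
  have h1 : e' + 2 - 1 = e' + 1 := by omega
  rw [h1]
  nlinarith

/-- the final divisibility argument. -/
theorem arith_final {q k' s c : ℕ} (hq4 : 4 ≤ q) (hqodd : Nat.Coprime q 2) (hs : 2 ≤ s)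
    (hk' : 0 < k') (hcop : Nat.Coprime c q)
    (h : c * (q * s + 2) = k' * (q * s) + c * (2 * s)) : q - 1 ≤ 2 * k' := by
  -- `q ∣ s - 1`
  have hdvd : q ∣ 2 * (c * (s - 1)) := by
    have h' : c * (q * s + 2) = k' * (q * s) + c * (2 * (s - 1) + 2) := by
      rw [h]
      congr 2
      omega
    have h2 : q * (c * s) = q * (k' * s) + 2 * (c * (s - 1)) := by
      have : c * (q * s + 2) = q * (c * s) + 2 * c := by ring
      rw [this] at h'
      have : k' * (q * s) + c * (2 * (s - 1) + 2) = q * (k' * s) + 2 * (c * (s - 1)) + 2 * c := by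
        ring
      rw [this] at h'
      omega
    have : q ∣ q * (c * s) := Dvd.intro _ rfl
    rw [h2] at this
    exact (Nat.dvd_add_right (Dvd.intro _ rfl)).mp this
  have hdvd2 : q ∣ s - 1 := by
    have h1 : q ∣ c * (s - 1) := (Nat.Coprime.dvd_mul_left hqodd).mp hdvd
    exact (Nat.Coprime.dvd_mul_left hcop.symm).mp h1
  obtain ⟨r, hr⟩ := hdvd2
  have hr1 : 1 ≤ r := by
    rcases Nat.eq_zero_or_pos r with h0 | h0
    · rw [h0, mul_zero] at hr
      omega
    · exact h0
  have hs' : s = 1 + q * r := by omega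
  subst hs'
  -- `c * D = k' * (D + 2 r)` with `D = 1 + r (q - 2)`
  obtain ⟨q', rfl⟩ : ∃ q', q = q' + 2 := ⟨q - 2, by omega⟩
  set D : ℕ := 1 + r * q' with hD
  have hcD : c * D = k' * (D + 2 * r) := by
    have hq0 : 0 < q' + 2 := by omega
    apply Nat.eq_of_mul_eq_mul_left hq0
    have e1 : (q' + 2) * (c * D) + c * (2 * (1 + (q' + 2) * r))
        = c * ((q' + 2) * (1 + (q' + 2) * r) + 2) := by
      rw [hD]; ring
    have e2 : (q' + 2) * (k' * (D + 2 * r)) = k' * ((q' + 2) * (1 + (q' + 2) * r)) := by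
      rw [hD]; ring
    rw [e2]
    rw [h] at e1
    omega
  have hDdvd : D ∣ k' * (2 * r) := by
    have h1 : D ∣ k' * (D + 2 * r) := Dvd.intro_left _ hcD
    rw [mul_add] at h1
    exact (Nat.dvd_add_right (Dvd.intro_left _ rfl)).mp h1
  have hcopD : Nat.Coprime D r := by
    rw [hD]
    have : Nat.Coprime (1 + r * q') r := by
      rw [Nat.coprime_add_mul_left_left]
      exact Nat.coprime_one_left r
    exact this
  have hDdvd2 : D ∣ 2 * k' := by
    have h1 : D ∣ (2 * k') * r := by
      have : k' * (2 * r) = (2 * k') * r := by ring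
      rwa [this] at hDdvd
    exact (Nat.Coprime.dvd_mul_right hcopD).mp h1
  have hle : D ≤ 2 * k' := Nat.le_of_dvd (by omega) hDdvd2
  have hDge : q' + 1 ≤ D := by
    rw [hD]
    nlinarith
  omega

end Fermat.Agent.S56x.Group

namespace Fermat.Agent.S56x.Group

/-- **Dickson's class equation, arithmetic part.**  One unipotent class `iu` (`e = q`, `ν = k'`,
`m = s ≥ 2`), all other classes with `ν ≤ 2` and `e` prime to `q`, and, if `k' ≥ 2`, a class with
`e = k'`.  Then `q - 1 ≤ 2 k'`. -/
theorem arith_T {ι : Type*} [Fintype ι] [DecidableEq ι] (e ν m : ι → ℕ) (n q k' : ℕ) (iu : ι)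
    (hn : ∑ i, m i * (e i - 1) + 1 = n)
    (hprod : ∀ i, ν i * (e i * m i) = n)
    (he : ∀ i, 2 ≤ e i)
    (hν : ∀ i, i ≠ iu → ν i = 1 ∨ ν i = 2)
    (hcop : ∀ i, i ≠ iu → Nat.Coprime (e i) q)
    (heu : e iu = q) (hνu : ν iu = k')
    (hq4 : 4 ≤ q) (hqodd : Nat.Coprime q 2)
    (hs : 2 ≤ m iu)
    (hK : 2 ≤ k' → ∃ iK, iK ≠ iu ∧ e iK = k') :
    q - 1 ≤ 2 * k' := by
  classical
  set s := m iu with hsdef
  set X : ι → ℕ := fun i => m i * (e i - 1) with hXdef
  have hX : ∀ i, X i + m i = e i * m i := by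
    intro i
    have := he i
    obtain ⟨e', he'⟩ : ∃ e', e i = e' + 1 := ⟨e i - 1, by omega⟩
    simp only [hXdef]
    rw [he']
    simp only [Nat.add_sub_cancel]
    ring
  have hnP : n = k' * (q * s) := by
    rw [← hprod iu, heu, hνu]
  have hk'pos : 0 < k' := by
    rcases Nat.eq_zero_or_pos k' with h | h
    · rw [h, zero_mul] at hnP
      omega
    · exact h
  set P := q * s with hP
  have hP4 : 4 * s ≤ P := Nat.mul_le_mul_right s hq4
  have hXu : X iu + s = P := by
    rw [hX iu, heu]
  have hsplit1 : X iu + ∑ i ∈ Finset.univ.erase iu, X i = ∑ i, X i :=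
    Finset.add_sum_erase _ _ (Finset.mem_univ iu)
  have hn' : ∑ i, X i + 1 = n := hn
  have hterm4 : ∀ i, i ≠ iu → n ≤ 4 * X i := fun i hi =>
    four_mul_term_ge (hprod i) (he i) (hν i hi)
  by_cases hk : 2 ≤ k'
  · obtain ⟨iK, hiKu, heK⟩ := hK hk
    have hiK : iK ∈ Finset.univ.erase iu := Finset.mem_erase.mpr ⟨hiKu, Finset.mem_univ _⟩
    have hsplit2 : X iK + ∑ i ∈ (Finset.univ.erase iu).erase iK, X i
        = ∑ i ∈ Finset.univ.erase iu, X i := Finset.add_sum_erase _ _ hiK
    set S'' := (Finset.univ.erase iu).erase iK with hS''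
    have hmemS'' : ∀ j ∈ S'', j ≠ iu ∧ j ≠ iK := by
      intro j hj
      rw [hS'', Finset.mem_erase, Finset.mem_erase] at hj
      exact ⟨hj.2.1, hj.1⟩
    have hPn : 2 * P ≤ n := by
      rw [hnP]
      exact Nat.mul_le_mul_right P hk
    rcases hν iK hiKu with hν1 | hν2
    · -- `ν_K = 1`
      have hmK : m iK = P := by
        have h1 := hprod iK
        rw [hν1, heK, one_mul, hnP] at h1
        exact Nat.eq_of_mul_eq_mul_left hk'pos h1
      have hXK : X iK + P = n := by
        have h1 := hX iK
        rw [heK, hmK] at h1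
        rw [h1, hnP]
      have hsum : ∑ i ∈ S'', X i + 1 = s := by omega
      by_cases hne : S''.Nonempty
      · obtain ⟨j, hj⟩ := hne
        have h1 : X j ≤ ∑ i ∈ S'', X i := Finset.single_le_sum (fun i _ => Nat.zero_le _) hj
        have h2 := hterm4 j (hmemS'' j hj).1
        omega
      · rw [Finset.not_nonempty_iff_eq_empty] at hne
        rw [hne, Finset.sum_empty] at hsum
        omega
    · -- `ν_K = 2`
      have hmK : 2 * m iK = P := by
        have h1 := hprod iK
        rw [hν2, heK, hnP] at h1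
        have h2 : k' * (2 * m iK) = k' * P := by
          rw [← h1]; ring
        exact Nat.eq_of_mul_eq_mul_left hk'pos h2
      have hXK : 2 * X iK + P = n := by
        have h1 := hX iK
        rw [heK] at h1
        have h2 : 2 * X iK + 2 * m iK = k' * (2 * m iK) := by
          rw [← mul_add, h1]; ring
        rw [hmK] at h2
        rw [hnP]
        exact h2
      have hsum : 2 * ∑ i ∈ S'', X i + P + 2 = n + 2 * s := by omega
      -- all `ν = 2` on `S''`
      have hν2' : ∀ j ∈ S'', ν j = 2 := by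
        intro j hj
        rcases hν j (hmemS'' j hj).1 with h1 | h2
        · exfalso
          have h3 : n ≤ 2 * X j := by
            have := hprod j
            rw [h1] at this
            exact two_mul_term_ge this (he j)
          have h4 : X j ≤ ∑ i ∈ S'', X i := Finset.single_le_sum (fun i _ => Nat.zero_le _) hj
          omega
        · exact h2
      -- `S''` has at most one element
      have hcard : S''.card ≤ 1 := by
        by_contra hcon
        have : 1 < S''.card := by omega
        obtain ⟨j, hj, j', hj', hjj'⟩ := Finset.one_lt_card.mp this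
        have hj'e : j' ∈ S''.erase j := Finset.mem_erase.mpr ⟨hjj'.symm, hj'⟩
        have h1 : X j + ∑ i ∈ S''.erase j, X i = ∑ i ∈ S'', X i := Finset.add_sum_erase _ _ hj
        have h2 : X j' ≤ ∑ i ∈ S''.erase j, X i :=
          Finset.single_le_sum (fun i _ => Nat.zero_le _) hj'e
        have h3 := hterm4 j (hmemS'' j hj).1
        have h4 := hterm4 j' (hmemS'' j' hj').1
        omega
      have hne : S''.Nonempty := by
        by_contra hne
        rw [Finset.not_nonempty_iff_eq_empty] at hne
        rw [hne, Finset.sum_empty] at hsum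
        omega
      have hcard1 : S''.card = 1 := by
        have := Finset.card_pos.mpr hne
        omega
      obtain ⟨j₀, hj₀⟩ := Finset.card_eq_one.mp hcard1
      have hj₀mem : j₀ ∈ S'' := by rw [hj₀]; exact Finset.mem_singleton_self _
      rw [hj₀, Finset.sum_singleton] at hsum
      have hνj := hν2' j₀ hj₀mem
      have hprodj := hprod j₀
      rw [hνj] at hprodj
      have hXj := hX j₀
      -- `2 m + 2 s = P + 2`
      have hm2 : 2 * m j₀ + 2 * s = P + 2 := by
        have : 2 * X j₀ + 2 * m j₀ = n := by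
          rw [← hprodj, ← hXj]; ring
        omega
      have hfin : e j₀ * (q * s + 2) = k' * (q * s) + e j₀ * (2 * s) := by
        have h1 : e j₀ * (P + 2) = e j₀ * (2 * m j₀ + 2 * s) := by rw [hm2]
        rw [← hP, ← hnP, ← hprodj, h1]
        ring
      exact arith_final hq4 hqodd hs hk'pos (hcop j₀ (hmemS'' j₀ hj₀mem).1) hfin
  · -- `k' = 1`
    have hk1 : k' = 1 := by omega
    rw [hk1, one_mul] at hnP
    have hsum : ∑ i ∈ Finset.univ.erase iu, X i + 1 = s := by omega
    exfalso
    by_cases hne : (Finset.univ.erase iu).Nonempty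
    · obtain ⟨j, hj⟩ := hne
      have h1 : X j ≤ ∑ i ∈ Finset.univ.erase iu, X i :=
        Finset.single_le_sum (fun i _ => Nat.zero_le _) hj
      have h2 := hterm4 j (Finset.mem_erase.mp hj).1
      omega
    · rw [Finset.not_nonempty_iff_eq_empty] at hne
      rw [hne, Finset.sum_empty] at hsum
      omega

end Fermat.Agent.S56x.Group
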