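/-
P-S56 (Taylor–Wiles primes), block (D) GROUP THEORY, file D3e (helper68).

**(T), core**: `k` a finite field of odd characteristic `p`, `G ≤ GL₂(k)` of determinant one, not
fixing the line `k e₀`, `q = |G ∩ U| ≥ 4`.  Then `q - 1 ≤ 2 |K¹|`, where
`K¹ = {n₀₀ / n₁₁ : n ∈ G upper triangular}`.  Here the three "Sylow leaves" (conjugacy of the
unipotent tori, `q` a power of `p`, semisimple tori of order prime to `p`) are hypotheses; they
are discharged in `Group/SylowTorus.lean`.
-/
import Mathlib
import Fermat.Agent.S56x.Group.TorusClasses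
import Fermat.Agent.S56x.Group.ClassEqU
import Fermat.Agent.S56x.Group.SylowTorusArith

set_option autoImplicit false

open Matrix
open scoped Pointwise

namespace Fermat.Agent.S56x.Group

open Fermat.Agent.S48x.Group

variable {k : Type*} [Field k] {p : ℕ} [Fact p.Prime] [CharP k p]

theorem card_unip_sub_one_le_of_leaves [Finite k] (hp2 : p ≠ 2) (G : Subgroup (GL (Fin 2) k))
    (hdet : ∀ g : G, (matOf g).det = 1)
    (hirr : ∃ g : G, matOf g 1 0 ≠ 0)
    (hq : 4 ≤ Nat.card (unip G))
    (hS1 : ∀ g : G, g ∉ scalarSubgroup G → disc2 (matOf g) = 0 →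
      ∃ a : ConjAct G, a • Subgroup.centralizer ({g} : Set G) = zunip G)
    (hS2 : ∃ a : ℕ, Nat.card (unip G) = p ^ a)
    (hS3 : ∀ g : G, g ∉ scalarSubgroup G → disc2 (matOf g) ≠ 0 →
      ¬ p ∣ Nat.card (Subgroup.centralizer ({g} : Set G))) :
    Nat.card (unip G) - 1 ≤ 2 * Nat.card (ratios G) := by
  classical
  haveI : Fintype G := Fintype.ofFinite _
  have hpp : p.Prime := Fact.out
  set Z := scalarSubgroup G with hZdef
  set z := Nat.card Z with hzdef
  have hzpos : 0 < z := Nat.card_pos
  set q := Nat.card (unip G) with hqdef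
  set K := Nat.card (ratios G) with hKdef
  have hZ : ∀ c ∈ Z, ∀ g : G, c * g = g * c := fun c hc g => central_of_mem_scalarSubgroup hc g
  have hab : ∀ g : G, g ∉ Z → ∀ x y : G, g * x = x * g → g * y = y * g → x * y = y * x :=
    fun g hg x y hx hy => comm_of_commute_nonscalar hg hx hy
  obtain ⟨ι, hι, T, e, ν, m, h1, h2, h3, h4', h5'⟩ := classEq_data Z hZ hab
  have h4 : ∀ i, 2 ≤ e i ∧ Nat.card (T i) = e i * z ∧
      Nat.card (Subgroup.normalizer ((T i : Subgroup G) : Set G)) = ν i * (e i * z) ∧
      ν i * (e i * m i) * z = Nat.card G := h4'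
  have h5 : (∑ i, m i * (e i - 1) + 1) * z = Nat.card G := h5'
  clear h4' h5'
  -- a non-trivial unipotent element
  have hne : unip G ≠ ⊥ := by
    rw [← Subgroup.one_lt_card_iff_ne_bot]
    omega
  obtain ⟨⟨u, hu⟩, hu1'⟩ := Subgroup.ne_bot_iff_exists_ne_one.mp hne
  have hu1 : u ≠ 1 := fun h => hu1' (Subtype.ext h)
  have huZ : u ∉ Z := not_scalar_of_mem_unip hu hu1
  have hCu : Subgroup.centralizer ({u} : Set G) = zunip G := centralizer_of_mem_unip hu hu1
  obtain ⟨iu, a, ha⟩ := h2 u huZ
  rw [hCu] at ha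
  -- data of the unipotent class
  have hcardZU : Nat.card (zunip G) = q * z := card_zunip hp2 hdet
  have hqpos : 0 < q := by omega
  have heu : e iu = q := by
    have h := (h4 iu).2.1
    rw [← ha, card_smul_subgroup, hcardZU] at h
    exact (Nat.eq_of_mul_eq_mul_right hzpos h).symm
  have hcardB : Nat.card (borel G) = q * z * K := by
    rw [card_borel, hcardZU]
  have hνu : ν iu = K := by
    have h := (h4 iu).2.2.1
    rw [← ha, card_normalizer_smul, normalizer_zunip hu hu1, hcardB, heu] at h
    have h' : (q * z) * K = (q * z) * ν iu := by rw [h]; ring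
    exact (Nat.eq_of_mul_eq_mul_left (Nat.mul_pos hqpos hzpos) h').symm
  have hNpos : 0 < Nat.card G := Nat.card_pos
  have hmu : 2 ≤ m iu := by
    have h := (h4 iu).2.2.2
    rw [heu, hνu] at h
    by_contra hcon
    have hm1 : m iu = 1 := by
      rcases Nat.lt_or_ge (m iu) 1 with h0 | h0
      · have : m iu = 0 := by omega
        rw [this, mul_zero, mul_zero, zero_mul] at h
        omega
      · omega
    rw [hm1, mul_one] at h
    have hB : Nat.card (borel G) = Nat.card G := by
      rw [hcardB, ← h]; ring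
    have htop : borel G = ⊤ := (Subgroup.card_eq_iff_eq_top _).mp hB
    obtain ⟨g, hg⟩ := hirr
    apply hg
    have : g ∈ borel G := by rw [htop]; exact Subgroup.mem_top g
    exact this
  -- the class equation without `z`
  set n := ∑ i, m i * (e i - 1) + 1 with hn
  have hprod : ∀ i, ν i * (e i * m i) = n := by
    intro i
    have h := (h4 i).2.2.2
    rw [← h5] at h
    exact Nat.eq_of_mul_eq_mul_right hzpos h
  obtain ⟨aq, haq⟩ := hS2
  have haq1 : 1 ≤ aq := by
    rcases Nat.eq_zero_or_pos aq with h | h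
    · rw [h, pow_zero] at haq
      omega
    · exact h
  have hpq : p ∣ q := by
    rw [haq]
    exact dvd_pow_self p (by omega)
  -- the other classes are semisimple
  have hss : ∀ i, i ≠ iu → ∃ g : G, g ∉ Z ∧ T i = Subgroup.centralizer ({g} : Set G) ∧
      disc2 (matOf g) ≠ 0 := by
    intro i hi
    obtain ⟨g, hg, hT⟩ := h1 i
    refine ⟨g, hg, hT, ?_⟩
    intro hD
    obtain ⟨a', ha'⟩ := hS1 g hg hD
    apply hi
    apply h3
    refine ⟨a * a', ?_⟩
    rw [mul_smul, hT, ha', ha]
  have hνle : ∀ i, i ≠ iu → ν i = 1 ∨ ν i = 2 := by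
    intro i hi
    obtain ⟨g, hg, hT, hD⟩ := hss i hi
    have hle := card_normalizer_centralizer_le_two hD
    rw [← hT, (h4 i).2.2.1, (h4 i).2.1] at hle
    have hezpos : 0 < e i * z := Nat.mul_pos (by have := (h4 i).1; omega) hzpos
    have h2' : ν i ≤ 2 := by
      by_contra hcon
      have : 3 * (e i * z) ≤ ν i * (e i * z) := Nat.mul_le_mul_right _ (by omega)
      omega
    have h1' : 1 ≤ ν i := by
      by_contra hcon
      have h0 : ν i = 0 := by omega
      have := hprod i
      rw [h0, zero_mul] at this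
      omega
    omega
  have hcop : ∀ i, i ≠ iu → Nat.Coprime (e i) q := by
    intro i hi
    obtain ⟨g, hg, hT, hD⟩ := hss i hi
    have hnd := hS3 g hg hD
    rw [← hT, (h4 i).2.1] at hnd
    have hnd' : ¬ p ∣ e i := fun h => hnd (Dvd.dvd.mul_right h z)
    rw [haq]
    exact Nat.Coprime.pow_right _ ((Nat.Prime.coprime_iff_not_dvd hpp).mpr hnd').symm
  have hqodd : Nat.Coprime q 2 := by
    rw [haq]
    apply Nat.Coprime.pow_left
    rw [Nat.coprime_primes hpp Nat.prime_two]
    exact hp2
  have hK : 2 ≤ K → ∃ iK, iK ≠ iu ∧ e iK = K := by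
    intro hK2
    obtain ⟨t, ht, hne, hgen⟩ := exists_generator_of_two_le_card_ratios hK2
    have htZ : t ∉ Z := by
      intro h
      rw [hZdef, mem_scalarSubgroup, isScalarMat_iff] at h
      exact hne h.2.2
    have hcard : Nat.card (Subgroup.centralizer ({t} : Set G)) = z * K :=
      card_centralizer_of_generator ht hne hgen
    obtain ⟨iK, b, hb⟩ := h2 t htZ
    have heK : e iK = K := by
      have h := (h4 iK).2.1
      rw [← hb, card_smul_subgroup, hcard] at h
      have h' : z * K = z * e iK := by rw [h]; ring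
      exact (Nat.eq_of_mul_eq_mul_left hzpos h').symm
    refine ⟨iK, ?_, heK⟩
    intro hiK
    have hD : disc2 (matOf t) ≠ 0 := by
      rw [disc2_of_mem_borel ht]
      exact pow_ne_zero 2 (sub_ne_zero.mpr hne)
    have hnd := hS3 t htZ hD
    rw [hcard] at hnd
    apply hnd
    rw [← heK, hiK, heu]
    exact Dvd.dvd.mul_left hpq _
  exact arith_T e ν m n q K iu hn.symm hprod (fun i => (h4 i).1) hνle hcop heu hνu hq hqodd hmu hK

end Fermat.Agent.S56x.Group
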