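/-
P-S56 (Taylor–Wiles primes), block (D) GROUP THEORY, file D3f (helper68).

Bridge from the subgroup form of **(T)** (`SylowTorusCore`) to `TStatement p r` of
`Group/DMain.lean` (helper19): for an injective `r : G →* GL₂(k)` apply the subgroup form to
`G₁ = r(G) ∩ SL₂(k)`.
-/
import Mathlib
import Fermat.Agent.S56x.Group.SylowTorusCore
import Fermat.Agent.S56x.Group.DMain

set_option autoImplicit false

open Matrix
open scoped Pointwise

namespace Fermat.Agent.S56x.Group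

open Fermat.Agent.S48x.Group

variable {k : Type*} [Field k] {G : Type*} [Group G]

/-- the determinant one part of the image of `r`. -/
def imageSL (r : G →* GL (Fin 2) k) : Subgroup (GL (Fin 2) k) :=
  r.range ⊓ (Matrix.GeneralLinearGroup.det : GL (Fin 2) k →* kˣ).ker

theorem mem_imageSL {r : G →* GL (Fin 2) k} {x : GL (Fin 2) k} :
    x ∈ imageSL r ↔ (∃ g : G, r g = x) ∧ (x : Matrix (Fin 2) (Fin 2) k).det = 1 := by
  rw [imageSL, Subgroup.mem_inf, MonoidHom.mem_range, MonoidHom.mem_ker, Units.ext_iff,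
    Matrix.GeneralLinearGroup.val_det_apply, Units.val_one]

theorem det_imageSL (r : G →* GL (Fin 2) k) (g : imageSL r) : (matOf g).det = 1 :=
  (mem_imageSL.mp g.2).2

theorem eq_upperU_iff (M : Matrix (Fin 2) (Fin 2) k) :
    (∃ a : k, M = upperU a) ↔ M 1 0 = 0 ∧ M 0 0 = 1 ∧ M 1 1 = 1 := by
  constructor
  · rintro ⟨a, rfl⟩
    simp [upperU]
  · rintro ⟨h10, h00, h11⟩
    refine ⟨M 0 1, ?_⟩
    ext i j
    fin_cases i <;> fin_cases j <;> simp [upperU, h10, h00, h11]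

theorem det_upperU' (a : k) : (upperU a).det = 1 := by
  simp [upperU, Matrix.det_fin_two]

/-- **(T)** for `r`, from the subgroup form for `imageSL r`. -/
theorem tStatement_of_subgroup_form {p : ℕ} [Fact p.Prime] [CharP k p]
    {r : G →* GL (Fin 2) k} (hr : Function.Injective r)
    (hsub : (∃ g : imageSL r, matOf g 1 0 ≠ 0) → 4 ≤ Nat.card (unip (imageSL r)) →
      Nat.card (unip (imageSL r)) - 1 ≤ 2 * Nat.card (ratios (imageSL r))) :
    TStatement p r := by
  intro P hPu hirr hcard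
  have hP := sylow_mem_iff_upperUnip hr P hPu
  -- `|P| = |unip|`
  have hcardP : Nat.card (P : Subgroup G) = Nat.card (unip (imageSL r)) := by
    apply Nat.card_congr
    refine Equiv.ofBijective (fun x => ⟨⟨r x.1, ?_⟩, ?_⟩) ⟨?_, ?_⟩
    · obtain ⟨a, ha⟩ := (hP x.1).mp x.2
      exact mem_imageSL.mpr ⟨⟨x.1, rfl⟩, by rw [ha, det_upperU']⟩
    · exact (eq_upperU_iff _).mp ((hP x.1).mp x.2)
    · intro x y hxy
      have h1 : r x.1 = r y.1 := congrArg (fun w => (w.1 : GL (Fin 2) k)) hxy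
      exact Subtype.ext (hr h1)
    · rintro ⟨⟨y, hy⟩, hyu⟩
      obtain ⟨⟨g, rfl⟩, -⟩ := mem_imageSL.mp hy
      have hg : g ∈ P := (hP g).mpr ((eq_upperU_iff _).mpr hyu)
      exact ⟨⟨g, hg⟩, rfl⟩
  -- the ratio sets agree
  have hrat : ratios (imageSL r) = ratioSet r := by
    ext l
    constructor
    · rintro ⟨g, h10, rfl⟩
      obtain ⟨⟨n, hn⟩, hdet⟩ := mem_imageSL.mp g.2
      refine ⟨n, ?_, ?_, ?_⟩
      · rw [hn]; exact h10
      · rw [hn]; exact hdet
      · rw [hn]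
    · rintro ⟨n, h10, hdet, rfl⟩
      exact ⟨⟨r n, mem_imageSL.mpr ⟨⟨n, rfl⟩, hdet⟩⟩, h10, rfl⟩
  rw [hcardP, ← hrat]
  apply hsub
  · obtain ⟨g, hg1, hg10⟩ := hirr
    exact ⟨⟨r g, mem_imageSL.mpr ⟨⟨g, rfl⟩, hg1⟩⟩, hg10⟩
  · rw [← hcardP]
    have hp2 : 2 ≤ p := (Fact.out : p.Prime).two_le
    calc 4 = 2 ^ 2 := by norm_num
      _ ≤ p ^ 2 := Nat.pow_le_pow_left hp2 2
      _ ≤ _ := hcard

end Fermat.Agent.S56x.Group
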