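/-
P-S56 (Taylor–Wiles primes), block (D) GROUP THEORY, file D3c (helper68).

Definitions and basic facts for **(T)** (`SylowTorus.lean`): for `G ≤ GL₂(k)` the subgroups
`borel G` (upper triangular elements), `zunip G` (upper triangular with equal diagonal entries),
`unip G` (upper unipotent) of `G`, the characters `d00`, `d11`, `rat` of `borel G`, the set
`ratios G = K¹ = {n₀₀ / n₁₁ : n ∈ G upper triangular}`, and
* `card_borel : |G ∩ B| = |Z U| · |K¹|`, `card_zunip : |Z U| = |U| · |Z|` (det one, `p` odd);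
* `centralizer_of_mem_unip : C_G(u) = Z U`, `normalizer_zunip : N_G(Z U) = G ∩ B`.
-/
import Mathlib
import Fermat.Agent.S48x.Group.Tori

set_option autoImplicit false

open Matrix

namespace Fermat.Agent.S56x.Group

open Fermat.Agent.S48x.Group

variable {k : Type*} [Field k]

section mat

theorem mul_apply_two (a b : Matrix (Fin 2) (Fin 2) k) (i j : Fin 2) :
    (a * b) i j = a i 0 * b 0 j + a i 1 * b 1 j := by
  rw [Matrix.mul_apply, Fin.sum_univ_two]

/-- the centraliser of a non-trivial upper unipotent matrix. -/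
theorem commute_upper_unip_iff {x u : Matrix (Fin 2) (Fin 2) k} (hu10 : u 1 0 = 0)
    (hu00 : u 0 0 = 1) (hu11 : u 1 1 = 1) (hb : u 0 1 ≠ 0) :
    u * x = x * u ↔ x 1 0 = 0 ∧ x 0 0 = x 1 1 := by
  constructor
  · intro h
    have h00 := congrFun (congrFun h 0) 0
    have h01 := congrFun (congrFun h 0) 1
    simp only [mul_apply_two, hu10, hu00, hu11] at h00 h01
    have e1 : u 0 1 * x 1 0 = 0 := by linear_combination h00
    have e2 : u 0 1 * (x 1 1 - x 0 0) = 0 := by linear_combination h01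
    rcases mul_eq_zero.mp e1 with h | h
    · exact absurd h hb
    rcases mul_eq_zero.mp e2 with h' | h'
    · exact absurd h' hb
    exact ⟨h, (sub_eq_zero.mp h').symm⟩
  · rintro ⟨h10, h00⟩
    ext i j
    fin_cases i <;> fin_cases j <;> simp [mul_apply_two, hu10, hu00, hu11, h10, h00]; ring

/-- an element commuting with an upper triangular matrix with distinct diagonal entries is upper
triangular. -/
theorem lower_eq_zero_of_commute {x t : Matrix (Fin 2) (Fin 2) k} (ht10 : t 1 0 = 0)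
    (htne : t 0 0 ≠ t 1 1) (h : t * x = x * t) : x 1 0 = 0 := by
  have h10 := congrFun (congrFun h 1) 0
  simp only [mul_apply_two, ht10] at h10
  have e1 : (t 0 0 - t 1 1) * x 1 0 = 0 := by linear_combination -h10
  rcases mul_eq_zero.mp e1 with h | h
  · exact absurd (sub_eq_zero.mp h) htne
  · exact h

theorem disc2_add_smul (g : Matrix (Fin 2) (Fin 2) k) (a b : k) :
    disc2 (a • (1 : Matrix (Fin 2) (Fin 2) k) + b • g) = b ^ 2 * disc2 g := by
  simp only [disc2, trace_add_smul, det_add_smul]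
  ring

/-- the inverse of an invertible `2 × 2` matrix, entrywise. -/
theorem inv_apply_10 (g : GL (Fin 2) k) :
    ((g⁻¹ : GL (Fin 2) k) : Matrix (Fin 2) (Fin 2) k) 1 0
      = - (g : Matrix (Fin 2) (Fin 2) k) 1 0 / (g : Matrix (Fin 2) (Fin 2) k).det := by
  rw [Matrix.coe_units_inv, Matrix.inv_def, Matrix.adjugate_fin_two]
  simp [Ring.inverse_eq_inv', div_eq_inv_mul]

theorem inv_apply_00 (g : GL (Fin 2) k) :
    ((g⁻¹ : GL (Fin 2) k) : Matrix (Fin 2) (Fin 2) k) 0 0
      = (g : Matrix (Fin 2) (Fin 2) k) 1 1 / (g : Matrix (Fin 2) (Fin 2) k).det := by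
  rw [Matrix.coe_units_inv, Matrix.inv_def, Matrix.adjugate_fin_two]
  simp [Ring.inverse_eq_inv', div_eq_inv_mul]

theorem inv_apply_11 (g : GL (Fin 2) k) :
    ((g⁻¹ : GL (Fin 2) k) : Matrix (Fin 2) (Fin 2) k) 1 1
      = (g : Matrix (Fin 2) (Fin 2) k) 0 0 / (g : Matrix (Fin 2) (Fin 2) k).det := by
  rw [Matrix.coe_units_inv, Matrix.inv_def, Matrix.adjugate_fin_two]
  simp [Ring.inverse_eq_inv', div_eq_inv_mul]

end mat

section subgroups

variable (G : Subgroup (GL (Fin 2) k))

theorem matOf_inv_10 {G : Subgroup (GL (Fin 2) k)} (g : G) :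
    matOf g⁻¹ 1 0 = - matOf g 1 0 / (matOf g).det := by
  show ((((g : GL (Fin 2) k))⁻¹ : GL (Fin 2) k) : Matrix (Fin 2) (Fin 2) k) 1 0 = _
  exact inv_apply_10 _

theorem matOf_inv_00 {G : Subgroup (GL (Fin 2) k)} (g : G) :
    matOf g⁻¹ 0 0 = matOf g 1 1 / (matOf g).det := by
  show ((((g : GL (Fin 2) k))⁻¹ : GL (Fin 2) k) : Matrix (Fin 2) (Fin 2) k) 0 0 = _
  exact inv_apply_00 _

theorem matOf_inv_11 {G : Subgroup (GL (Fin 2) k)} (g : G) :
    matOf g⁻¹ 1 1 = matOf g 0 0 / (matOf g).det := by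
  show ((((g : GL (Fin 2) k))⁻¹ : GL (Fin 2) k) : Matrix (Fin 2) (Fin 2) k) 1 1 = _
  exact inv_apply_11 _

theorem det_matOf_ne_zero {G : Subgroup (GL (Fin 2) k)} (g : G) : (matOf g).det ≠ 0 := by
  have h := matOf_mul_inv g
  intro h0
  have : (matOf g * matOf g⁻¹).det = 1 := by rw [h, Matrix.det_one]
  rw [Matrix.det_mul, h0, zero_mul] at this
  exact zero_ne_one this

/-- the upper triangular elements of `G`. -/
def borel : Subgroup G where
  carrier := {g | matOf g 1 0 = 0}
  mul_mem' := by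
    intro a b ha hb
    show matOf (a * b) 1 0 = 0
    rw [matOf_mul, mul_apply_two]
    rw [show matOf a 1 0 = 0 from ha, show matOf b 1 0 = 0 from hb]
    ring
  one_mem' := by
    show matOf (1 : G) 1 0 = 0
    rw [matOf_one]; simp
  inv_mem' := by
    intro a ha
    show matOf a⁻¹ 1 0 = 0
    rw [matOf_inv_10, show matOf a 1 0 = 0 from ha]
    simp

theorem mem_borel {G : Subgroup (GL (Fin 2) k)} (g : G) : g ∈ borel G ↔ matOf g 1 0 = 0 := Iff.rfl

/-- the elements of `G` which are upper triangular with equal diagonal entries (`= Z × U`). -/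
def zunip : Subgroup G where
  carrier := {g | matOf g 1 0 = 0 ∧ matOf g 0 0 = matOf g 1 1}
  mul_mem' := by
    rintro a b ⟨ha, ha'⟩ ⟨hb, hb'⟩
    refine ⟨?_, ?_⟩
    · rw [matOf_mul, mul_apply_two, ha, hb]; ring
    · rw [matOf_mul, mul_apply_two, mul_apply_two, ha, hb, ha', hb']; ring
  one_mem' := by
    refine ⟨?_, ?_⟩
    · rw [matOf_one]; simp
    · rw [matOf_one]; simp
  inv_mem' := by
    rintro a ⟨ha, ha'⟩
    refine ⟨?_, ?_⟩
    · rw [matOf_inv_10, ha]; simp
    · rw [matOf_inv_00, matOf_inv_11, ha']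

theorem mem_zunip {G : Subgroup (GL (Fin 2) k)} (g : G) :
    g ∈ zunip G ↔ matOf g 1 0 = 0 ∧ matOf g 0 0 = matOf g 1 1 := Iff.rfl

/-- the upper unipotent elements of `G`. -/
def unip : Subgroup G where
  carrier := {g | matOf g 1 0 = 0 ∧ matOf g 0 0 = 1 ∧ matOf g 1 1 = 1}
  mul_mem' := by
    rintro a b ⟨ha, ha0, ha1⟩ ⟨hb, hb0, hb1⟩
    refine ⟨?_, ?_, ?_⟩
    · rw [matOf_mul, mul_apply_two, ha, hb]; ring
    · rw [matOf_mul, mul_apply_two, ha0, hb0, hb]; ring
    · rw [matOf_mul, mul_apply_two, ha1, hb1, ha]; ring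
  one_mem' := by
    refine ⟨?_, ?_, ?_⟩ <;> rw [matOf_one] <;> simp
  inv_mem' := by
    rintro a ⟨ha, ha0, ha1⟩
    have hd : (matOf a).det = 1 := by
      rw [Matrix.det_fin_two, ha, ha0, ha1]; ring
    refine ⟨?_, ?_, ?_⟩
    · rw [matOf_inv_10, ha]; simp
    · rw [matOf_inv_00, ha1, hd]; simp
    · rw [matOf_inv_11, ha0, hd]; simp

theorem mem_unip {G : Subgroup (GL (Fin 2) k)} (g : G) :
    g ∈ unip G ↔ matOf g 1 0 = 0 ∧ matOf g 0 0 = 1 ∧ matOf g 1 1 = 1 := Iff.rfl

theorem unip_le_zunip : unip G ≤ zunip G := by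
  rintro g ⟨h, h0, h1⟩
  exact ⟨h, h0.trans h1.symm⟩

theorem zunip_le_borel : zunip G ≤ borel G := fun _ h => h.1

end subgroups

section card

/-- counting a finite subgroup through a homomorphism to `kˣ`. -/
theorem card_eq_card_ker_mul_card_image {Γ : Type*} [Group Γ] (H K : Subgroup Γ) [Finite H]
    (f : H →* kˣ) (hK : ∀ g : Γ, g ∈ K ↔ ∃ h : g ∈ H, f ⟨g, h⟩ = 1)
    (S : Set k) (hS : ∀ x : k, x ∈ S ↔ ∃ h : H, ((f h : kˣ) : k) = x) :
    Nat.card H = Nat.card K * Nat.card S := by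
  have h1 : Nat.card f.ker * Nat.card f.range = Nat.card H := by
    rw [← Subgroup.index_ker]
    exact Subgroup.card_mul_index f.ker
  have h2 : Nat.card f.ker = Nat.card K := by
    apply Nat.card_congr
    refine ⟨fun x => ⟨x.1.1, (hK _).mpr ⟨x.1.2, x.2⟩⟩,
      fun y => ⟨⟨y.1, ((hK _).mp y.2).1⟩, ((hK _).mp y.2).2⟩, ?_, ?_⟩
    · intro x; rfl
    · intro y; rfl
  have h3 : Nat.card f.range = Nat.card S := by
    apply Nat.card_congr
    refine Equiv.ofBijective
      (fun y => ⟨((y.1 : kˣ) : k), by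
        obtain ⟨h, hh⟩ := y.2
        exact (hS _).mpr ⟨h, by rw [hh]⟩⟩) ⟨?_, ?_⟩
    · intro a b hab
      apply Subtype.ext
      apply Units.ext
      exact congrArg Subtype.val hab
    · rintro ⟨x, hx⟩
      obtain ⟨h, hh⟩ := (hS x).mp hx
      exact ⟨⟨f h, ⟨h, rfl⟩⟩, Subtype.ext hh⟩
  rw [← h1, h2, h3]

end card

section diag

variable {G : Subgroup (GL (Fin 2) k)}

theorem det_of_mem_borel {g : G} (hg : g ∈ borel G) :
    (matOf g).det = matOf g 0 0 * matOf g 1 1 := by
  rw [Matrix.det_fin_two, (mem_borel g).mp hg]; ring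

theorem diag00_ne_zero {g : G} (hg : g ∈ borel G) : matOf g 0 0 ≠ 0 := by
  intro h
  apply det_matOf_ne_zero g
  rw [det_of_mem_borel hg, h, zero_mul]

theorem diag11_ne_zero {g : G} (hg : g ∈ borel G) : matOf g 1 1 ≠ 0 := by
  intro h
  apply det_matOf_ne_zero g
  rw [det_of_mem_borel hg, h, mul_zero]

theorem mul_00_of_mem_borel (a : G) {b : G} (hb : b ∈ borel G) :
    matOf (a * b) 0 0 = matOf a 0 0 * matOf b 0 0 := by
  rw [matOf_mul, mul_apply_two, (mem_borel b).mp hb]; ring

theorem mul_11_of_mem_borel {a : G} (b : G) (ha : a ∈ borel G) :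
    matOf (a * b) 1 1 = matOf a 1 1 * matOf b 1 1 := by
  rw [matOf_mul, mul_apply_two, (mem_borel a).mp ha]; ring

/-- the upper left entry, as a character of the Borel subgroup. -/
noncomputable def d00 (G : Subgroup (GL (Fin 2) k)) : borel G →* kˣ where
  toFun g := Units.mk0 (matOf g.1 0 0) (diag00_ne_zero g.2)
  map_one' := by
    apply Units.ext
    show matOf (1 : G) 0 0 = 1
    rw [matOf_one]; simp
  map_mul' := by
    intro a b
    apply Units.ext
    show matOf (a.1 * b.1) 0 0 = matOf a.1 0 0 * matOf b.1 0 0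
    exact mul_00_of_mem_borel _ b.2

/-- the lower right entry, as a character of the Borel subgroup. -/
noncomputable def d11 (G : Subgroup (GL (Fin 2) k)) : borel G →* kˣ where
  toFun g := Units.mk0 (matOf g.1 1 1) (diag11_ne_zero g.2)
  map_one' := by
    apply Units.ext
    show matOf (1 : G) 1 1 = 1
    rw [matOf_one]; simp
  map_mul' := by
    intro a b
    apply Units.ext
    show matOf (a.1 * b.1) 1 1 = matOf a.1 1 1 * matOf b.1 1 1
    exact mul_11_of_mem_borel _ a.2

theorem d00_val (g : borel G) : ((d00 G g : kˣ) : k) = matOf g.1 0 0 := rfl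

theorem d11_val (g : borel G) : ((d11 G g : kˣ) : k) = matOf g.1 1 1 := rfl

/-- the ratio of the diagonal entries, as a character of the Borel subgroup. -/
noncomputable def rat (G : Subgroup (GL (Fin 2) k)) : borel G →* kˣ := d00 G / d11 G

theorem rat_val (g : borel G) : ((rat G g : kˣ) : k) = matOf g.1 0 0 / matOf g.1 1 1 := by
  show ((d00 G g / d11 G g : kˣ) : k) = _
  rw [Units.val_div_eq_div_val, d00_val, d11_val]

theorem rat_eq_one_iff (g : borel G) : rat G g = 1 ↔ matOf g.1 0 0 = matOf g.1 1 1 := by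
  rw [← Units.val_inj, rat_val, Units.val_one, div_eq_one_iff_eq (diag11_ne_zero g.2)]

/-- the set `K¹` of ratios of diagonal entries of upper triangular elements of `G`. -/
def ratios (G : Subgroup (GL (Fin 2) k)) : Set k :=
  {l | ∃ g : G, matOf g 1 0 = 0 ∧ l = matOf g 0 0 / matOf g 1 1}

/-- `|G ∩ B| = |Z U| · |K¹|`. -/
theorem card_borel [Finite k] (G : Subgroup (GL (Fin 2) k)) :
    Nat.card (borel G) = Nat.card (zunip G) * Nat.card (ratios G) := by
  apply card_eq_card_ker_mul_card_image (borel G) (zunip G) (rat G)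
  · intro g
    constructor
    · intro hg
      exact ⟨zunip_le_borel G hg, (rat_eq_one_iff _).mpr hg.2⟩
    · rintro ⟨h, h1⟩
      exact ⟨h, (rat_eq_one_iff _).mp h1⟩
  · intro x
    constructor
    · rintro ⟨g, hg, rfl⟩
      exact ⟨⟨g, hg⟩, rat_val _⟩
    · rintro ⟨g, rfl⟩
      exact ⟨g.1, g.2, rat_val _⟩

end diag

section detOne

variable {G : Subgroup (GL (Fin 2) k)} {p : ℕ} [Fact p.Prime] [CharP k p]

theorem scalar_le_zunip : scalarSubgroup G ≤ zunip G := by
  intro g hg
  obtain ⟨c, hc⟩ := (mem_scalarSubgroup g).mp hg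
  refine ⟨?_, ?_⟩ <;> rw [hc] <;> simp

theorem sq_eq_one_of_mem_zunip (hdet : ∀ g : G, (matOf g).det = 1) {g : G} (hg : g ∈ zunip G) :
    matOf g 0 0 ^ 2 = 1 := by
  have h := hdet g
  rw [det_of_mem_borel (zunip_le_borel G hg), ← hg.2] at h
  rw [pow_two]; exact h

omit [CharP k p] in
theorem pow_char_eq_self_of_sq_eq_one (hp2 : p ≠ 2) {ε : k} (hε : ε ^ 2 = 1) : ε ^ p = ε := by
  have hodd : Odd p := (Fact.out : p.Prime).odd_of_ne_two hp2
  obtain ⟨j, hj⟩ := hodd
  rw [hj, pow_succ, pow_mul, hε, one_pow, one_mul]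

/-- the `p`-th power of an element of `Z U` is scalar. -/
theorem matOf_pow_char_of_mem_zunip (hp2 : p ≠ 2) (hdet : ∀ g : G, (matOf g).det = 1) {g : G}
    (hg : g ∈ zunip G) :
    matOf (g ^ p) = matOf g 0 0 • (1 : Matrix (Fin 2) (Fin 2) k) := by
  set ε := matOf g 0 0 with hε
  set N : Matrix (Fin 2) (Fin 2) k := matOf g - ε • 1 with hN
  have hNN : N * N = 0 := by
    ext i j
    fin_cases i <;> fin_cases j <;>
      simp [hN, mul_apply_two, hg.1, ← hg.2, hε]
  have hdec : matOf g = ε • (1 : Matrix (Fin 2) (Fin 2) k) + N := by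
    rw [hN]; abel
  rw [matOf_pow, hdec, add_nilp_pow hNN, CharP.cast_eq_zero k p, zero_mul, zero_smul, add_zero,
    pow_char_eq_self_of_sq_eq_one hp2 (sq_eq_one_of_mem_zunip hdet hg)]

/-- `|Z U| = |U| · |Z|`. -/
theorem card_zunip [Finite k] (hp2 : p ≠ 2) (hdet : ∀ g : G, (matOf g).det = 1) :
    Nat.card (zunip G) = Nat.card (unip G) * Nat.card (scalarSubgroup G) := by
  have h1 := card_eq_card_ker_mul_card_image (zunip G) (unip G)
    ((d00 G).comp (Subgroup.inclusion (zunip_le_borel G)))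
    (by
      intro g
      constructor
      · intro hg
        refine ⟨unip_le_zunip G hg, ?_⟩
        apply Units.ext
        show matOf g 0 0 = 1
        exact hg.2.1
      · rintro ⟨h, h1⟩
        have h00 : matOf g 0 0 = 1 := congrArg Units.val h1
        exact ⟨h.1, h00, by rw [← h.2, h00]⟩)
    {x | ∃ h : zunip G, matOf h.1 0 0 = x}
    (by
      intro x
      constructor
      · rintro ⟨h, rfl⟩
        exact ⟨h, rfl⟩
      · rintro ⟨h, rfl⟩
        exact ⟨h, rfl⟩)
  rw [h1]
  congr 1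
  symm
  apply Nat.card_congr
  refine Equiv.ofBijective
    (fun c : scalarSubgroup G => (⟨matOf c.1 0 0, ⟨⟨c.1, scalar_le_zunip c.2⟩, rfl⟩⟩ :
      {x | ∃ h : zunip G, matOf h.1 0 0 = x})) ⟨?_, ?_⟩
  · intro a b hab
    have h00 : matOf a.1 0 0 = matOf b.1 0 0 := congrArg Subtype.val hab
    obtain ⟨ca, hca⟩ := (mem_scalarSubgroup a.1).mp a.2
    obtain ⟨cb, hcb⟩ := (mem_scalarSubgroup b.1).mp b.2
    apply Subtype.ext
    apply matOf_injective
    rw [hca, hcb] at h00 ⊢
    simp at h00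
    rw [h00]
  · rintro ⟨x, ⟨h, rfl⟩⟩
    refine ⟨⟨h.1 ^ p, ?_⟩, ?_⟩
    · rw [mem_scalarSubgroup, matOf_pow_char_of_mem_zunip hp2 hdet h.2]
      exact ⟨_, rfl⟩
    · apply Subtype.ext
      show matOf (h.1 ^ p) 0 0 = matOf h.1 0 0
      rw [matOf_pow_char_of_mem_zunip hp2 hdet h.2]
      simp

end detOne

section unipotentClass

variable {G : Subgroup (GL (Fin 2) k)}

theorem commute_iff_matOf {a b : G} : a * b = b * a ↔ matOf a * matOf b = matOf b * matOf a := by
  rw [← matOf_mul, ← matOf_mul]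
  exact ⟨fun h => by rw [h], fun h => matOf_injective G h⟩

theorem upper_ne_zero_of_mem_unip {u : G} (hu : u ∈ unip G) (hu1 : u ≠ 1) : matOf u 0 1 ≠ 0 := by
  intro h
  apply hu1
  apply matOf_injective
  rw [matOf_one]
  ext i j
  fin_cases i <;> fin_cases j <;> simp [hu.1, hu.2.1, hu.2.2, h]

theorem not_scalar_of_mem_unip {u : G} (hu : u ∈ unip G) (hu1 : u ≠ 1) :
    u ∉ scalarSubgroup G := by
  intro h
  rw [mem_scalarSubgroup, isScalarMat_iff] at h
  exact upper_ne_zero_of_mem_unip hu hu1 h.1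

/-- the centraliser of a non-trivial upper unipotent element is `Z U`. -/
theorem centralizer_of_mem_unip {u : G} (hu : u ∈ unip G) (hu1 : u ≠ 1) :
    Subgroup.centralizer ({u} : Set G) = zunip G := by
  ext x
  rw [mem_centralizer_singleton, commute_iff_matOf,
    commute_upper_unip_iff hu.1 hu.2.1 hu.2.2 (upper_ne_zero_of_mem_unip hu hu1), mem_zunip]

theorem inv_mul_00 (g : G) : matOf g⁻¹ 0 0 * matOf g 0 0 + matOf g⁻¹ 0 1 * matOf g 1 0 = 1 := by
  have h : matOf g⁻¹ * matOf g = 1 := by rw [← matOf_mul, inv_mul_cancel, matOf_one]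
  have := congrFun (congrFun h 0) 0
  rw [mul_apply_two] at this
  simpa using this

/-- conjugation by an upper triangular element preserves `Z U`. -/
theorem conj_mem_zunip {g h : G} (hg : g ∈ borel G) (hh : h ∈ zunip G) :
    g * h * g⁻¹ ∈ zunip G := by
  have hgi : g⁻¹ ∈ borel G := (borel G).inv_mem hg
  have hhb : h ∈ borel G := zunip_le_borel G hh
  have hghb : g * h ∈ borel G := (borel G).mul_mem hg hhb
  refine ⟨(borel G).mul_mem hghb hgi, ?_⟩
  rw [mul_00_of_mem_borel _ hgi, mul_00_of_mem_borel _ hhb, mul_11_of_mem_borel _ hghb,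
    mul_11_of_mem_borel _ hg, hh.2, matOf_inv_00, matOf_inv_11, det_of_mem_borel hg]
  have h0 := diag00_ne_zero hg
  have h1 := diag11_ne_zero hg
  field_simp

/-- the normaliser of `Z U` is the Borel subgroup (if `U ≠ 1`). -/
theorem normalizer_zunip [Finite k] {u : G} (hu : u ∈ unip G) (hu1 : u ≠ 1) :
    Subgroup.normalizer ((zunip G : Subgroup G) : Set G) = borel G := by
  apply le_antisymm
  · intro g hg
    rw [Subgroup.mem_normalizer_iff] at hg
    have hy := (hg u).mp (unip_le_zunip G hu)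
    set y := g * u * g⁻¹ with hydef
    have hyg : y * g = g * u := by rw [hydef]; group
    have hm : matOf y * matOf g = matOf g * matOf u := by
      rw [← matOf_mul, ← matOf_mul, hyg]
    have h10 := congrFun (congrFun hm 1) 0
    have h11 := congrFun (congrFun hm 1) 1
    simp only [mul_apply_two, hy.1, hu.1, hu.2.1, hu.2.2] at h10 h11
    rw [mem_borel]
    by_contra hne
    have hy11 : matOf y 1 1 = 1 := by
      have : (matOf y 1 1 - 1) * matOf g 1 0 = 0 := by linear_combination h10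
      rcases mul_eq_zero.mp this with h | h
      · exact sub_eq_zero.mp h
      · exact absurd h hne
    rw [hy11] at h11
    have : matOf g 1 0 * matOf u 0 1 = 0 := by linear_combination -h11
    rcases mul_eq_zero.mp this with h | h
    · exact hne h
    · exact upper_ne_zero_of_mem_unip hu hu1 h
  · intro g hg
    exact Subgroup.mem_normalizer_fintype (fun n hn => conj_mem_zunip hg hn)

end unipotentClass

end Fermat.Agent.S56x.Group
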