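/-
P-S56 (Taylor–Wiles primes), block (D) GROUP THEORY, leaves (S1)-(S3) of (T) (helper7, for
helper68's `SylowTorus.lean`).

For a finite `G ≤ GL₂(k)` with all determinants `1`, `k` a finite field of odd characteristic `p`:
* `pow_char_eq_one_of_mem_unip`, `isPGroup_unip`, `exists_card_unip_eq_pow` (S2): the upper
  unipotent part `unip G` is a `p`-group;
* `mem_unip_of_mem_sylow`: a Sylow `p`-subgroup containing `unip G ≠ 1` is equal to it;
* `exists_conj_centralizer_eq_zunip` (S1): the centraliser of a non-scalar element with vanishing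
  discriminant is conjugate to `zunip G` (if `unip G ≠ 1`);
* `not_dvd_card_centralizer` (S3): the centraliser of a non-scalar element with non-vanishing
  discriminant has order prime to `p`.
-/
import Mathlib
import Fermat.Agent.S56x.Group.TorusDefs
import Fermat.Agent.S48x.Group.Unipotent

set_option autoImplicit false

open Matrix

open scoped Pointwise

namespace Fermat.Agent.S56x.Group

open Fermat.Agent.S48x.Group

variable {k : Type*} [Field k]

section mat

/-- a matrix of determinant one with `(X - 1)² = 0` has trace `2`. -/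
theorem trace_eq_two_of_sub_one_sq {X : Matrix (Fin 2) (Fin 2) k} (hdet : X.det = 1)
    (hX : (X - 1) * (X - 1) = 0) : X.trace = 2 := by
  have e00 := congrFun (congrFun hX 0) 0
  have e10 := congrFun (congrFun hX 1) 0
  simp only [mul_apply_two, Matrix.sub_apply, Matrix.one_apply_eq, Matrix.zero_apply, ne_eq,
    one_ne_zero, zero_ne_one, not_false_eq_true, Matrix.one_apply_ne, sub_zero] at e00 e10
  rw [Matrix.det_fin_two] at hdet
  rw [trace_two]
  linear_combination (-(X 0 0 + X 1 1 - 2) + X 1 1) * hdet + X 1 1 * e00 - X 0 1 * e10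

/-- if the discriminant vanishes, `X - (tr X / 2)` squares to zero. -/
theorem sub_half_trace_mul_self (h2 : (2 : k) ≠ 0) {X : Matrix (Fin 2) (Fin 2) k}
    (hD : disc2 X = 0) :
    (X - (X.trace / 2) • (1 : Matrix (Fin 2) (Fin 2) k)) *
      (X - (X.trace / 2) • (1 : Matrix (Fin 2) (Fin 2) k)) = 0 := by
  rw [disc2, trace_two, Matrix.det_fin_two] at hD
  have h4 : (4 : k) ≠ 0 := by
    have : (4 : k) = 2 * 2 := by norm_num
    rw [this]
    exact mul_ne_zero h2 h2
  ext i j
  fin_cases i <;> fin_cases j <;>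
    simp [mul_apply_two, trace_two] <;> field_simp <;>
    first | linear_combination hD | linear_combination (-1 : k) * hD | ring1

end mat

section pgroup

variable {p : ℕ} [Fact p.Prime] [CharP k p] {G : Subgroup (GL (Fin 2) k)}

omit [Fact p.Prime] in
/-- a matrix `1 + N` with `N² = 0` has `p`-th power `1`. -/
theorem one_add_nilp_pow_char {N : Matrix (Fin 2) (Fin 2) k} (hN : N * N = 0) :
    ((1 : Matrix (Fin 2) (Fin 2) k) + N) ^ p = 1 := by
  have := add_nilp_pow hN (1 : k) p
  rw [one_smul] at this
  rw [this, one_pow, one_smul, CharP.cast_eq_zero k p, zero_mul, zero_smul, add_zero]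

omit [Fact p.Prime] in
/-- upper unipotent elements have order dividing `p`. -/
theorem pow_char_eq_one_of_mem_unip {u : G} (hu : u ∈ unip G) : u ^ p = 1 := by
  apply matOf_injective
  rw [matOf_pow, matOf_one]
  set N : Matrix (Fin 2) (Fin 2) k := matOf u - 1 with hN
  have hNN : N * N = 0 := by
    ext i j
    fin_cases i <;> fin_cases j <;> simp [hN, mul_apply_two, hu.1, hu.2.1, hu.2.2]
  have hdec : matOf u = 1 + N := by
    rw [hN]
    abel
  rw [hdec, one_add_nilp_pow_char hNN]

omit [Fact p.Prime] in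
theorem isPGroup_unip : IsPGroup p (unip G) := by
  intro u
  refine ⟨1, ?_⟩
  rw [pow_one]
  apply Subtype.ext
  rw [Subgroup.coe_pow, Subgroup.coe_one]
  exact pow_char_eq_one_of_mem_unip u.2

/-- **(S2)** the order of the unipotent part is a power of `p`. -/
theorem exists_card_unip_eq_pow [Finite k] : ∃ a : ℕ, Nat.card (unip G) = p ^ a :=
  (isPGroup_unip (p := p) (G := G)).exists_card_eq

/-- an element of `p`-power order of determinant one has trace `2`. -/
theorem trace_eq_two_of_pow_char_pow {X : Matrix (Fin 2) (Fin 2) k} (hdet : X.det = 1) {m : ℕ}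
    (hX : X ^ p ^ m = 1) : X.trace = 2 := by
  apply trace_eq_two_of_sub_one_sq hdet
  apply sq_eq_zero_of_pow_eq_zero (m := p ^ m)
  rw [sub_pow_char_pow_of_commute p m (Commute.one_right X), hX, one_pow, sub_self]

/-- a `p`-subgroup of `G` (all determinants one) containing a non-trivial upper unipotent element
consists of upper unipotent elements. -/
theorem mem_unip_of_mem_pgroup (hdet : ∀ g : G, (matOf g).det = 1) {Q : Subgroup G}
    (hQ : IsPGroup p Q) {u : G} (hu : u ∈ unip G) (hu1 : u ≠ 1) (huQ : u ∈ Q) {x : G}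
    (hx : x ∈ Q) : x ∈ unip G := by
  have htr : ∀ y : G, y ∈ Q → (matOf y).trace = 2 := by
    intro y hy
    obtain ⟨m, hm⟩ := hQ ⟨y, hy⟩
    have hm' : y ^ p ^ m = 1 := by
      have := congrArg Subtype.val hm
      rwa [Subgroup.coe_pow, Subgroup.coe_one] at this
    apply trace_eq_two_of_pow_char_pow (p := p) (hdet y) (m := m)
    rw [← matOf_pow, hm', matOf_one]
  have h1 := htr x hx
  have h2 := htr (x * u) (Q.mul_mem hx huQ)
  rw [matOf_mul, trace_two, mul_apply_two, mul_apply_two, hu.1, hu.2.1, hu.2.2] at h2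
  rw [trace_two] at h1
  have hb := upper_ne_zero_of_mem_unip hu hu1
  have h10 : matOf x 1 0 = 0 := by
    have : matOf x 1 0 * matOf u 0 1 = 0 := by linear_combination h2 - h1
    rcases mul_eq_zero.mp this with h | h
    · exact h
    · exact absurd h hb
  have hd := hdet x
  rw [Matrix.det_fin_two, h10] at hd
  have h00 : matOf x 0 0 = 1 := by
    have : (matOf x 0 0 - 1) * (matOf x 0 0 - 1) = 0 := by
      linear_combination matOf x 0 0 * h1 - hd
    rcases mul_eq_zero.mp this with h | h <;> exact sub_eq_zero.mp h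
  refine ⟨h10, h00, ?_⟩
  rw [h00] at h1
  linear_combination h1

end pgroup

section main

variable [Finite k] {p : ℕ} [Fact p.Prime] [CharP k p] {G : Subgroup (GL (Fin 2) k)}

omit [Finite k] in
theorem scalar_central (z : G) (hz : z ∈ scalarSubgroup G) (g : G) : z * g = g * z := by
  apply matOf_injective
  rw [matOf_mul, matOf_mul]
  obtain ⟨c, hc⟩ := (mem_scalarSubgroup z).mp hz
  rw [hc]
  simp

omit [Finite k] in
theorem centralizer_commutative (g : G) (hg : g ∉ scalarSubgroup G) (x y : G)
    (hx : g * x = x * g) (hy : g * y = y * g) : x * y = y * x := by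
  apply matOf_injective
  rw [matOf_mul, matOf_mul]
  have hx' : matOf x * matOf g = matOf g * matOf x := by
    rw [← matOf_mul, ← matOf_mul, hx]
  have hy' : matOf y * matOf g = matOf g * matOf y := by
    rw [← matOf_mul, ← matOf_mul, hy]
  exact mul_comm_of_commute_nonscalar hg hx' hy'

/-- **(S1)** the centraliser of a non-scalar element with vanishing discriminant is conjugate to
`zunip G`, if `unip G ≠ 1`. -/
theorem exists_conj_centralizer_eq_zunip (hp2 : p ≠ 2) (hdet : ∀ g : G, (matOf g).det = 1)
    {u : G} (hu : u ∈ unip G) (hu1 : u ≠ 1) {g : G} (hg : g ∉ scalarSubgroup G)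
    (hD : disc2 (matOf g) = 0) :
    ∃ a : ConjAct G, a • Subgroup.centralizer ({g} : Set G) = zunip G := by
  have hp : p.Prime := Fact.out
  have h2 : (2 : k) ≠ 0 := by
    intro h
    have h2' : ((2 : ℕ) : k) = 0 := by exact_mod_cast h
    have hdvd : p ∣ 2 := (CharP.cast_eq_zero_iff k p 2).mp h2'
    have := (Nat.prime_dvd_prime_iff_eq hp Nat.prime_two).mp hdvd
    exact hp2 this
  -- `g = ε + N` with `N² = 0`, `ε² = 1`
  set X := matOf g with hX
  set ε : k := X.trace / 2 with hε
  set N : Matrix (Fin 2) (Fin 2) k := X - ε • 1 with hN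
  have hNN : N * N = 0 := sub_half_trace_mul_self h2 hD
  have hε2 : ε ^ 2 = 1 := by
    have hD' := hD
    rw [disc2, hdet g] at hD'
    rw [hε]
    field_simp
    linear_combination hD'
  have hdec : X = ε • (1 : Matrix (Fin 2) (Fin 2) k) + N := by
    rw [hN]
    abel
  -- `h = g²` is unipotent and not scalar
  set h : G := g ^ 2 with hh
  have hmat : matOf h = 1 + (2 * ε) • N := by
    rw [hh, matOf_pow, ← hX, hdec, add_nilp_pow hNN, hε2, one_smul]
    congr 1
    rw [show ((2 : ℕ) : k) = 2 by norm_num]
    simp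
  have hN2 : ((2 * ε) • N) * ((2 * ε) • N) = 0 := by
    rw [Matrix.smul_mul, Matrix.mul_smul, hNN, smul_zero, smul_zero]
  have hε0 : ε ≠ 0 := by
    intro h0
    rw [h0] at hε2
    simp at hε2
  have hhns : h ∉ scalarSubgroup G := by
    intro hsc
    apply hg
    rw [mem_scalarSubgroup, isScalarMat_iff] at hsc ⊢
    rw [hmat] at hsc
    obtain ⟨h01, h10, h00⟩ := hsc
    have h2ε : 2 * ε ≠ 0 := mul_ne_zero h2 hε0
    simp only [Matrix.add_apply, Matrix.smul_apply, smul_eq_mul, ne_eq, zero_ne_one,
      not_false_eq_true, Matrix.one_apply_ne, one_ne_zero, zero_add, Matrix.one_apply_eq]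
      at h01 h10 h00
    have n01 : N 0 1 = 0 := (mul_eq_zero.mp h01).resolve_left h2ε
    have n10 : N 1 0 = 0 := (mul_eq_zero.mp h10).resolve_left h2ε
    have n00 : N 0 0 = N 1 1 := by
      have : 2 * ε * (N 0 0 - N 1 1) = 0 := by linear_combination h00
      exact sub_eq_zero.mp ((mul_eq_zero.mp this).resolve_left h2ε)
    have e01 : X 0 1 = N 0 1 := by
      rw [hdec]
      simp
    have e10 : X 1 0 = N 1 0 := by
      rw [hdec]
      simp
    have e00 : X 0 0 = ε + N 0 0 := by
      rw [hdec]
      simp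
    have e11 : X 1 1 = ε + N 1 1 := by
      rw [hdec]
      simp
    refine ⟨?_, ?_, ?_⟩
    · exact e01.trans n01
    · exact e10.trans n10
    · exact (e00.trans (by rw [n00])).trans e11.symm
  have hhp : h ^ p = 1 := by
    apply matOf_injective
    rw [matOf_pow, matOf_one, hmat, one_add_nilp_pow_char hN2]
  have hh1 : h ≠ 1 := by
    intro h1
    apply hhns
    rw [h1]
    exact (scalarSubgroup G).one_mem
  -- Sylow subgroups
  have hzp : IsPGroup p (Subgroup.zpowers h) := by
    rw [IsPGroup.iff_card]
    refine ⟨1, ?_⟩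
    rw [Nat.card_zpowers, pow_one]
    exact orderOf_eq_prime hhp hh1
  obtain ⟨Q1, hQ1⟩ := hzp.exists_le_sylow
  obtain ⟨Q0, hQ0⟩ := (isPGroup_unip (p := p) (G := G)).exists_le_sylow
  obtain ⟨c, hc⟩ := MulAction.exists_smul_eq G Q1 Q0
  -- the conjugate of `h` lies in `unip G`
  have hmem : c * h * c⁻¹ ∈ (Q0 : Subgroup G) := by
    rw [← hc, Sylow.coe_subgroup_smul]
    have : MulAut.conj c • h ∈ MulAut.conj c • (Q1 : Subgroup G) :=
      Subgroup.smul_mem_pointwise_smul _ _ _ (hQ1 (Subgroup.mem_zpowers h))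
    simpa [MulAut.smul_def] using this
  have hunip : c * h * c⁻¹ ∈ unip G :=
    mem_unip_of_mem_pgroup hdet Q0.2 hu hu1 (hQ0 hu) hmem
  have hne1 : c * h * c⁻¹ ≠ 1 := by
    intro h1
    apply hh1
    have : h = c⁻¹ * (c * h * c⁻¹) * c := by group
    rw [this, h1]
    group
  -- centralisers
  have hCgh : Subgroup.centralizer ({h} : Set G) = Subgroup.centralizer ({g} : Set G) := by
    apply centralizer_eq_of_mem (Z := scalarSubgroup G)
      (fun g hg x y hx hy => centralizer_commutative g hg x y hx hy) hg _ hhns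
    rw [mem_centralizer_singleton, hh]
    group
  refine ⟨ConjAct.toConjAct c, ?_⟩
  rw [← hCgh, conj_smul_centralizer, ConjAct.smul_def, ConjAct.ofConjAct_toConjAct]
  exact centralizer_of_mem_unip hunip hne1

/-- **(S3)** the centraliser of a non-scalar element with non-zero discriminant has order prime
to `p`. -/
theorem not_dvd_card_centralizer (hdet : ∀ g : G, (matOf g).det = 1) {g : G}
    (hg : g ∉ scalarSubgroup G) (hD : disc2 (matOf g) ≠ 0) :
    ¬ p ∣ Nat.card (Subgroup.centralizer ({g} : Set G)) := by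
  intro hdvd
  obtain ⟨x, hx⟩ := exists_prime_orderOf_dvd_card' p hdvd
  have hxp : (x : G) ^ p = 1 := by
    have := pow_orderOf_eq_one x
    rw [hx] at this
    have := congrArg Subtype.val this
    rwa [Subgroup.coe_pow, Subgroup.coe_one] at this
  have hx1 : (x : G) ≠ 1 := by
    intro h1
    have : x = 1 := Subtype.ext h1
    rw [this, orderOf_one] at hx
    exact (Fact.out : p.Prime).ne_one hx.symm
  have hcomm : g * (x : G) = (x : G) * g := mem_centralizer_singleton.mp x.2
  have hcomm' : matOf (x : G) * matOf g = matOf g * matOf (x : G) := by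
    rw [← matOf_mul, ← matOf_mul, hcomm]
  obtain ⟨a, b, hab⟩ := exists_eq_add_of_commute hg hcomm'
  have hXp : matOf (x : G) ^ p = 1 := by rw [← matOf_pow, hxp, matOf_one]
  have hsq := sub_one_sq_eq_zero_of_pow_char (ℓ := p) hXp
  have htr := trace_eq_two_of_sub_one_sq (hdet x) hsq
  have hdisc : disc2 (matOf (x : G)) = 0 := by
    rw [disc2, htr, hdet x]
    ring
  rw [hab, disc2_add_smul] at hdisc
  have hb : b = 0 := by
    rcases mul_eq_zero.mp hdisc with h | h
    · exact pow_eq_zero_iff (by norm_num) |>.mp h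
    · exact absurd h hD
  rw [hb, zero_smul, add_zero] at hab
  -- `x` is the scalar `a` with `(a - 1)² = 0`
  rw [hab] at hsq
  have hsm : a • (1 : Matrix (Fin 2) (Fin 2) k) - 1 = (a - 1) • (1 : Matrix (Fin 2) (Fin 2) k) := by
    rw [sub_smul, one_smul]
  rw [hsm, Matrix.smul_mul, Matrix.mul_smul, mul_one, smul_smul] at hsq
  have h00 : (a - 1) * (a - 1) = 0 := by
    have := congrFun (congrFun hsq 0) 0
    simpa using this
  have ha : a = 1 := by
    rcases mul_eq_zero.mp h00 with h | h <;> exact sub_eq_zero.mp h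
  apply hx1
  apply matOf_injective
  rw [hab, ha, one_smul, matOf_one]

end main

end Fermat.Agent.S56x.Group
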