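/-
P-S56 (Taylor–Wiles primes), block (D) GROUP THEORY, file D3 (helper68).

**(T)**: let `k` be a finite field of odd characteristic `p` and `G ≤ GL₂(k)` a subgroup of
determinant-one matrices which does not fix the line `k e₀`.  Let `q = |G ∩ U|` be the number of
upper unipotent elements of `G` and `K¹ = {n₀₀ / n₁₁ : n ∈ G upper triangular}`.  If `q ≥ 4` then
`q - 1 ≤ 2 |K¹|`.

Proof: Dickson's class equation with exactly one unipotent class (`ClassEqU`, `SylowTorusArith`,
`TorusDefs`, `TorusClasses`, `SylowTorusCore`) and the Sylow leaves of `TorusSylow` (helper7).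
The form `tStatement` is the one consumed by `Group/DMain.lean` (helper19).
-/
import Mathlib
import Fermat.Agent.S56x.Group.SylowTorusCore
import Fermat.Agent.S56x.Group.TorusSylow
import Fermat.Agent.S56x.Group.TStatementBridge

set_option autoImplicit false

open Matrix

namespace Fermat.Agent.S56x.Group

open Fermat.Agent.S48x.Group

variable {k : Type*} [Field k] {p : ℕ} [Fact p.Prime] [CharP k p]

/-- **(T)**, subgroup form. -/
theorem card_unip_sub_one_le [Finite k] (hp2 : p ≠ 2) (G : Subgroup (GL (Fin 2) k))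
    (hdet : ∀ g : G, (matOf g).det = 1) (hirr : ∃ g : G, matOf g 1 0 ≠ 0)
    (hq : 4 ≤ Nat.card (unip G)) :
    Nat.card (unip G) - 1 ≤ 2 * Nat.card (ratios G) := by
  have hne : unip G ≠ ⊥ := by
    rw [← Subgroup.one_lt_card_iff_ne_bot]
    omega
  obtain ⟨⟨u, hu⟩, hu1'⟩ := Subgroup.ne_bot_iff_exists_ne_one.mp hne
  have hu1 : u ≠ 1 := fun h => hu1' (Subtype.ext h)
  exact card_unip_sub_one_le_of_leaves hp2 G hdet hirr hq
    (fun _ hg hD => exists_conj_centralizer_eq_zunip hp2 hdet hu hu1 hg hD)
    exists_card_unip_eq_pow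
    (fun _ hg hD => not_dvd_card_centralizer hdet hg hD)

/-- **(T)** in the form of `Group/DMain.lean`. -/
theorem tStatement [Finite k] (hp2 : p ≠ 2) {G : Type*} [Group G] {r : G →* GL (Fin 2) k}
    (hr : Function.Injective r) : TStatement p r :=
  tStatement_of_subgroup_form hr
    (fun hirr hq => card_unip_sub_one_le hp2 (imageSL r) (det_imageSL r) hirr hq)

end Fermat.Agent.S56x.Group
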