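/-
P-S56 (Taylor–Wiles primes), block (D) GROUP THEORY, file D4-final (helper19): the vanishing theorem
`H¹(G, ad⁰ ⊗ det) = 0` (`Group/DMain.lean`) with the numerical estimate `(T)` discharged by the
class equation (`Group/SylowTorus.lean`, helper68).
-/
import Mathlib
import Fermat.Agent.S56x.Group.DMain
import Fermat.Agent.S56x.Group.SigmaChoice
import Fermat.Agent.S56x.Group.SylowTorus

set_option autoImplicit false

namespace Fermat.Agent.S56x.Group

open Matrix

variable {k : Type*} [Field k] {G : Type*} [Group G]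

/-- **(D-main) = (GT).** Let `k` be a finite field of odd characteristic `p`, `G` a finite group
and `r : G → GL₂(k)` an injective homomorphism such that (i) the subgroup `G₁ = ker (det ∘ r)` has
no stable line in `k²`, and (ii) some value of `det ∘ r` is not the square of an element of the
prime field. Then `H¹(G, ad⁰ ⊗ det) = 0`: every trace zero cocycle for the twisted adjoint action
`g • X = det (r g) • (r g) X (r g)⁻¹` is a coboundary. -/
theorem isCoboundary_of_irreducible {p : ℕ} [Fact p.Prime] [CharP k p] [Finite k] (hp2 : p ≠ 2)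
    [Finite G] {r : G →* GL (Fin 2) k} (hr : Function.Injective r)
    (hirr : ∀ v : Fin 2 → k, v ≠ 0 → ∃ g : G,
      ((r g : GL (Fin 2) k) : Matrix (Fin 2) (Fin 2) k).det = 1 ∧
      ∀ c : k, ((r g : GL (Fin 2) k) : Matrix (Fin 2) (Fin 2) k) *ᵥ v ≠ c • v)
    (hdet : ∃ g : G, ∀ j : ℕ,
      (j : k) ^ 2 ≠ ((r g : GL (Fin 2) k) : Matrix (Fin 2) (Fin 2) k).det)
    {ψ : G → Matrix (Fin 2) (Fin 2) k} (hψ : IsCocycle r ψ) (htr : ∀ g, (ψ g).trace = 0) :
    IsCoboundary r ψ :=
  isCoboundary_of_irreducible_of_T hp2 hr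
    (fun g₀ => tStatement hp2 (conjRep_injective g₀ hr)) hirr hdet hψ htr

/-- a `k`-rational stable line gives a stable line over any extension field. -/
theorem stableLineOver_of_rational (K : Type*) [Field K] [Algebra k K] (r : G →* GL (Fin 2) k)
    (H : Subgroup G) {v : Fin 2 → k} (hv : v ≠ 0)
    (hstab : ∀ g ∈ H, ∃ c : k, ((r g : GL (Fin 2) k) : Matrix (Fin 2) (Fin 2) k) *ᵥ v = c • v) :
    SigmaChoice.StableLineOver K r H := by
  refine ⟨fun i => algebraMap k K (v i), ?_, fun g hg => ?_⟩
  · intro h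
    apply hv
    funext i
    have := congrFun h i
    simpa using this
  · obtain ⟨c, hc⟩ := hstab g hg
    refine ⟨algebraMap k K c, ?_⟩
    have h1 := RingHom.map_mulVec (algebraMap k K)
      ((r g : GL (Fin 2) k) : Matrix (Fin 2) (Fin 2) k) v
    funext i
    have h2 := h1 i
    rw [hc] at h2
    simp only [Pi.smul_apply, smul_eq_mul, map_mul] at h2
    rw [Pi.smul_apply, smul_eq_mul, h2]
    rfl

/-- **(GT)**, with the irreducibility hypothesis in the `StableLineOver` form. -/
theorem isCoboundary_of_not_stableLineOver (K : Type*) [Field K] [Algebra k K] {p : ℕ}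
    [Fact p.Prime] [CharP k p] [Finite k] (hp2 : p ≠ 2)
    [Finite G] {r : G →* GL (Fin 2) k} (hr : Function.Injective r)
    (hirr : ¬ SigmaChoice.StableLineOver K r (detHom r).ker)
    (hdet : ∃ g : G, ∀ j : ℕ,
      (j : k) ^ 2 ≠ ((r g : GL (Fin 2) k) : Matrix (Fin 2) (Fin 2) k).det)
    {ψ : G → Matrix (Fin 2) (Fin 2) k} (hψ : IsCocycle r ψ) (htr : ∀ g, (ψ g).trace = 0) :
    IsCoboundary r ψ := by
  refine isCoboundary_of_irreducible hp2 hr (fun v hv => ?_) hdet hψ htr
  by_contra hcon
  push Not at hcon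
  apply hirr
  refine stableLineOver_of_rational K r _ hv (fun g hg => ?_)
  exact hcon g ((mem_ker_detHom r).mp hg)

end Fermat.Agent.S56x.Group
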