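/-
P-S56 (Taylor–Wiles primes), block (D) GROUP THEORY, helper68: the UNCONDITIONAL statement (GT)
for the residual representation.

`Kill/FinalPrelude.gtStatement_matRep` (helper64) gives `EndKill.GTStatement (matRep b ρbar.ρ)`
from the frozen hypotheses of S56 and the numerical estimate `(T)` (`TStatement`) for the
conjugates of `QuotientGroup.kerLift (matRep b ρbar.ρ)`; `Group/SylowTorus.tStatement` proves
`(T)` for every injective representation of a group in `GL₂(k)`, `k` finite of odd
characteristic.  Hence:

* `gtStatement` : `EndKill.GTStatement (matRep b ρbar.ρ)` from `habs`, `hdet`, `hTW` alone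
  (the exact hypothesis `hGT` of `Kill/Main`, `Kill/Family`, `Assembly/SelectTW`, taken at
  `b := resBasis ρbar`).
-/
import Fermat.Agent.S56x.Group.SylowTorus
import Fermat.Agent.S56x.Kill.FinalPrelude

set_option autoImplicit false

open Matrix

namespace Fermat.Agent.S56x.Group.GTFinal

open Fermat.Agent.S56x.Group Fermat.Agent.S56x.Group.SigmaChoice
  Fermat.Agent.S56x.Group.EndAdapter

local notation "Γℚ" => (AlgebraicClosure ℚ ≃ₐ[ℚ] AlgebraicClosure ℚ)

variable {k : Type} [Field k]

/-- **(GT), unconditional.**  Under the frozen hypotheses of S56 (`k` finite, `p` odd, `ρbar`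
absolutely irreducible with cyclotomic determinant and absolutely irreducible on every subgroup of
index two), every trace-zero `End`-cocycle of `Γℚ` vanishing on `ker ρbar` is a coboundary. -/
theorem gtStatement (p : ℕ) [Fact p.Prime] (hp2 : p ≠ 2) [Finite k]
    (ρbar : ResidualGaloisRep k) (habs : ρbar.IsAbsolutelyIrreducible)
    (hdet : (GaloisRepAdic.ofResidualGaloisRep ρbar).DetIsCyclotomic p)
    (hTW : ∀ (K : Type) [Field K] [Algebra k K] (G : Subgroup Γℚ), G.index = 2 →
      ∀ V : Submodule K (ρbar.baseChange K).V,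
        (∀ σ ∈ G, ∀ x ∈ V, (ρbar.baseChange K).ρ σ x ∈ V) → V = ⊥ ∨ V = ⊤)
    (b : Module.Basis (Fin 2) k ρbar.V) :
    EndKill.GTStatement (matRep b ρbar.ρ) := by
  have : CharP k p := Kill.FinalPrelude.charP_of_detIsCyclotomic p ρbar hdet
  exact Kill.FinalPrelude.gtStatement_matRep p hp2 ρbar habs hdet hTW b
    (fun g₀ => tStatement hp2
      (conjRep_injective g₀ (QuotientGroup.kerLift_injective (matRep b ρbar.ρ))))

end Fermat.Agent.S56x.Group.GTFinal
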