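/-
P-S56 (Taylor–Wiles primes), block (D) GROUP THEORY, file D5c (helper98).

Invariants of `ad⁰(1)` and existence of regular elements, in the matrix language of
`Group/Cocycle.lean` / `Group/SigmaChoice.lean`.

* `stableLineOver_of_rational`: a `k`-rational stable line gives a stable line over `K`;
* `stableLineOver_of_commute`: a subgroup all of whose elements commute with a non-scalar matrix has
  a stable line over an algebraically closed extension;
* `eq_zero_of_adTwMat_fixed`: if `r` has no stable line over `K` on `G` and on its subgroups of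
  index two, then `(ad⁰(1))^G = 0`: a traceless `A` with `adTwMat (r g) A = A` for all `g` is `0`.
  More generally (`eq_zero_of_conj_eq_smul`) for any "twist": `r g * A = c g • (A * r g)`;
* `exists_mem_regular`: a subgroup without stable line over `K` contains an element with distinct
  eigenvalues.
-/
import Fermat.Agent.S56x.Group.Cocycle
import Fermat.Agent.S56x.Group.SigmaChoice

set_option autoImplicit false

open Matrix

namespace Fermat.Agent.S56x.Group.SigmaChoice

variable {k : Type*} [Field k] {K : Type*} [Field K] [Algebra k K] {G : Type*} [Group G]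

lemma map_mulVec_comp (M : Matrix (Fin 2) (Fin 2) k) (u : Fin 2 → k) :
    (M.map (algebraMap k K)) *ᵥ (fun i => algebraMap k K (u i)) =
      fun i => algebraMap k K ((M *ᵥ u) i) := by
  funext i
  simp [mulVec_two]

/-- A `k`-rational stable line is a stable line over `K`. -/
theorem stableLineOver_of_rational (r : G →* GL (Fin 2) k) (H : Subgroup G) {u : Fin 2 → k}
    (hu : u ≠ 0) (h : ∀ g ∈ H, ∃ c : k, (r g : Matrix (Fin 2) (Fin 2) k) *ᵥ u = c • u) :
    StableLineOver K r H := by
  refine ⟨fun i => algebraMap k K (u i), ?_, fun g hg => ?_⟩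
  · intro h0
    apply hu
    funext i
    have := congrFun h0 i
    simp only [Pi.zero_apply] at this
    rw [Pi.zero_apply]
    exact (algebraMap k K).injective (by rw [this, map_zero])
  · obtain ⟨c, hc⟩ := h g hg
    refine ⟨algebraMap k K c, ?_⟩
    rw [map_mulVec_comp, hc]
    funext i
    simp

/-- If all elements of `H` commute with a non-scalar matrix `A` then `H` has a stable line over
every algebraically closed extension. -/
theorem stableLineOver_of_commute [IsAlgClosed K] (r : G →* GL (Fin 2) k) (H : Subgroup G)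
    {A : Matrix (Fin 2) (Fin 2) k} (hA : ∀ a : k, A ≠ a • (1 : Matrix (Fin 2) (Fin 2) k))
    (h : ∀ g ∈ H, (r g : Matrix (Fin 2) (Fin 2) k) * A = A * (r g : Matrix (Fin 2) (Fin 2) k)) :
    StableLineOver K r H := by
  have hinj : Function.Injective (algebraMap k K) := (algebraMap k K).injective
  have hA' : ∀ a : K, A.map (algebraMap k K) ≠ a • (1 : Matrix (Fin 2) (Fin 2) K) := by
    intro a ha
    apply hA (A 0 0)
    have e := fun i j => congrFun (congrFun ha i) j
    have e00 := e 0 0
    have e01 := e 0 1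
    have e10 := e 1 0
    have e11 := e 1 1
    simp only [Matrix.map_apply, Matrix.smul_apply, Matrix.one_apply_eq, smul_eq_mul, mul_one,
      Matrix.one_apply_ne (show (0 : Fin 2) ≠ 1 by decide),
      Matrix.one_apply_ne (show (1 : Fin 2) ≠ 0 by decide), mul_zero] at e00 e01 e10 e11
    ext i j
    fin_cases i <;> fin_cases j
    · simp
    · simp only [Fin.zero_eta, Fin.mk_one, Matrix.smul_apply, smul_eq_mul,
        Matrix.one_apply_ne (show (0 : Fin 2) ≠ 1 by decide), mul_zero]
      exact hinj (by rw [e01, map_zero])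
    · simp only [Fin.zero_eta, Fin.mk_one, Matrix.smul_apply, smul_eq_mul,
        Matrix.one_apply_ne (show (1 : Fin 2) ≠ 0 by decide), mul_zero]
      exact hinj (by rw [e10, map_zero])
    · simp only [Fin.mk_one, Matrix.smul_apply, Matrix.one_apply_eq, smul_eq_mul, mul_one]
      exact hinj (by rw [e11, e00])
  obtain ⟨v, hv0, hv⟩ := exists_common_eigenvector_of_commute hA'
    {M | ∃ g ∈ H, M = (r g : Matrix (Fin 2) (Fin 2) k).map (algebraMap k K)}
    (by
      rintro _ ⟨g, hg, rfl⟩
      rw [← Matrix.map_mul, ← Matrix.map_mul, h g hg])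
  exact ⟨v, hv0, fun g hg => hv _ ⟨g, hg, rfl⟩⟩

/-- The subgroup of elements whose image commutes with `A`. -/
def commSubgroup (r : G →* GL (Fin 2) k) (A : Matrix (Fin 2) (Fin 2) k) : Subgroup G where
  carrier := {g | (r g : Matrix (Fin 2) (Fin 2) k) * A = A * (r g : Matrix (Fin 2) (Fin 2) k)}
  one_mem' := by simp
  mul_mem' := by
    intro a b ha hb
    change (r a : Matrix (Fin 2) (Fin 2) k) * A = A * (r a : Matrix (Fin 2) (Fin 2) k) at ha
    change (r b : Matrix (Fin 2) (Fin 2) k) * A = A * (r b : Matrix (Fin 2) (Fin 2) k) at hb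
    change (r (a * b) : Matrix (Fin 2) (Fin 2) k) * A = A * (r (a * b) : Matrix (Fin 2) (Fin 2) k)
    rw [map_mul, Units.val_mul, Matrix.mul_assoc, hb, ← Matrix.mul_assoc, ha, Matrix.mul_assoc]
  inv_mem' := by
    intro a ha
    change (r a : Matrix (Fin 2) (Fin 2) k) * A = A * (r a : Matrix (Fin 2) (Fin 2) k) at ha
    change ((r a⁻¹ : GL (Fin 2) k) : Matrix (Fin 2) (Fin 2) k) * A =
      A * ((r a⁻¹ : GL (Fin 2) k) : Matrix (Fin 2) (Fin 2) k)
    have h1 : ((r a⁻¹ : GL (Fin 2) k) : Matrix (Fin 2) (Fin 2) k) *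
        (r a : Matrix (Fin 2) (Fin 2) k) = 1 := by
      rw [← Units.val_mul, ← map_mul, inv_mul_cancel, map_one, Units.val_one]
    have h2 : (r a : Matrix (Fin 2) (Fin 2) k) *
        ((r a⁻¹ : GL (Fin 2) k) : Matrix (Fin 2) (Fin 2) k) = 1 := by
      rw [← Units.val_mul, ← map_mul, mul_inv_cancel, map_one, Units.val_one]
    calc ((r a⁻¹ : GL (Fin 2) k) : Matrix (Fin 2) (Fin 2) k) * A
        = ((r a⁻¹ : GL (Fin 2) k) : Matrix (Fin 2) (Fin 2) k) * (A * (r a : Matrix (Fin 2) (Fin 2) k)) *
            ((r a⁻¹ : GL (Fin 2) k) : Matrix (Fin 2) (Fin 2) k) := by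
          rw [Matrix.mul_assoc, Matrix.mul_assoc, h2, Matrix.mul_one]
      _ = A * ((r a⁻¹ : GL (Fin 2) k) : Matrix (Fin 2) (Fin 2) k) := by
          rw [← ha, ← Matrix.mul_assoc, h1, Matrix.one_mul]

lemma mem_commSubgroup {r : G →* GL (Fin 2) k} {A : Matrix (Fin 2) (Fin 2) k} {g : G} :
    g ∈ commSubgroup r A ↔
      (r g : Matrix (Fin 2) (Fin 2) k) * A = A * (r g : Matrix (Fin 2) (Fin 2) k) := Iff.rfl

/-- **No twisted invariants.**  If `r` has no stable line over `K` on `G` and on its subgroups of
index two, then a traceless matrix `A` which is an eigenvector of every `Ad (r g)` vanishes. -/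
theorem eq_zero_of_conj_eq_smul [IsAlgClosed K] (h2 : (2 : k) ≠ 0) (r : G →* GL (Fin 2) k)
    (hG : ¬ StableLineOver K r ⊤)
    (hH : ∀ H : Subgroup G, H.index = 2 → ¬ StableLineOver K r H)
    {A : Matrix (Fin 2) (Fin 2) k} (hA : A.trace = 0)
    (hfix : ∀ g : G, ∃ c : k, (r g : Matrix (Fin 2) (Fin 2) k) * A =
      c • (A * (r g : Matrix (Fin 2) (Fin 2) k))) : A = 0 := by
  by_contra hA0
  by_cases hdet : A.det = 0
  · -- nilpotent: the kernel is a rational stable line
    have hAA : A * A = 0 := by rw [mul_self_of_trace_eq_zero hA, hdet]; simp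
    obtain ⟨u, hu0, hAu, hker, -⟩ := exists_ker_line hA0 hA hAA
    apply hG
    refine stableLineOver_of_rational r ⊤ hu0 (fun g _ => exists_smul_of_cr_eq_zero hu0 (hker _ ?_))
    obtain ⟨c, hc⟩ := hfix g
    have hc0 : c ≠ 0 := by
      rintro rfl
      rw [zero_smul] at hc
      have h' : (((r g)⁻¹ : GL (Fin 2) k) : Matrix (Fin 2) (Fin 2) k) *
          ((r g : Matrix (Fin 2) (Fin 2) k) * A) = 0 := by rw [hc, Matrix.mul_zero]
      rw [← Matrix.mul_assoc, Units.inv_mul, Matrix.one_mul] at h'
      exact hA0 h'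
    have hAg : A * (r g : Matrix (Fin 2) (Fin 2) k) =
        c⁻¹ • ((r g : Matrix (Fin 2) (Fin 2) k) * A) := by
      rw [hc, smul_smul, inv_mul_cancel₀ hc0, one_smul]
    rw [Matrix.mulVec_mulVec, hAg, Matrix.smul_mulVec, ← Matrix.mulVec_mulVec, hAu,
      Matrix.mulVec_zero, smul_zero]
  · -- invertible: sign character, its kernel commutes with `A`
    have hAns : ∀ a : k, A ≠ a • (1 : Matrix (Fin 2) (Fin 2) k) := by
      intro a ha
      have htr := hA
      rw [ha, Matrix.trace_smul, Matrix.trace_one, Fintype.card_fin, smul_eq_mul] at htr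
      have ha0 : a = 0 := by
        rcases mul_eq_zero.mp htr with h | h
        · exact h
        · exact absurd (by exact_mod_cast h) h2
      apply hA0; rw [ha, ha0, zero_smul]
    have hsign : ∀ g : G,
        (r g : Matrix (Fin 2) (Fin 2) k) * A = A * (r g : Matrix (Fin 2) (Fin 2) k) ∨
        (r g : Matrix (Fin 2) (Fin 2) k) * A = -(A * (r g : Matrix (Fin 2) (Fin 2) k)) := by
      intro g
      obtain ⟨c, hc⟩ := hfix g
      rcases eq_one_or_neg_one_of_mul_eq_smul (det_coe_ne_zero (r g)) hdet hc with rfl | rfl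
      · left; simpa using hc
      · right; simpa using hc
    have hstab : StableLineOver K r (commSubgroup r A) :=
      stableLineOver_of_commute r _ hAns (fun g hg => hg)
    by_cases htop : commSubgroup r A = ⊤
    · rw [htop] at hstab
      exact hG hstab
    · refine hH _ ?_ hstab
      obtain ⟨g₁, hg₁⟩ : ∃ g₁, g₁ ∉ commSubgroup r A := by
        by_contra h
        push Not at h
        exact htop (eq_top_iff.mpr (fun g _ => h g))
      rw [Subgroup.index_eq_two_iff_exists_notMem_and]
      refine ⟨g₁, hg₁, fun b => ?_⟩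
      by_cases hb : b ∈ commSubgroup r A
      · exact Or.inr hb
      · left
        have h1 := (hsign g₁).resolve_left hg₁
        have hb' := (hsign b).resolve_left hb
        rw [mem_commSubgroup, map_mul, Units.val_mul, Matrix.mul_assoc, h1, Matrix.mul_neg,
          ← Matrix.mul_assoc, hb', Matrix.neg_mul, neg_neg, Matrix.mul_assoc]

/-- **`(ad⁰(1))^G = 0`.**  If `r` has no stable line over `K` on `G` and on its subgroups of index
two then the only traceless matrix fixed by the twisted adjoint action is `0`. -/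
theorem eq_zero_of_adTwMat_fixed [IsAlgClosed K] (h2 : (2 : k) ≠ 0) (r : G →* GL (Fin 2) k)
    (hG : ¬ StableLineOver K r ⊤)
    (hH : ∀ H : Subgroup G, H.index = 2 → ¬ StableLineOver K r H)
    {A : Matrix (Fin 2) (Fin 2) k} (hA : A.trace = 0)
    (hfix : ∀ g : G, adTwMat (r g) A = A) : A = 0 := by
  refine eq_zero_of_conj_eq_smul (K := K) h2 r hG hH hA (fun g => ?_)
  have hd : ((Matrix.GeneralLinearGroup.det (r g) : kˣ) : k) ≠ 0 := Units.ne_zero _
  refine ⟨((Matrix.GeneralLinearGroup.det (r g) : kˣ) : k)⁻¹, ?_⟩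
  have h := hfix g
  rw [adTwMat] at h
  have h' := congrArg (· * (r g : Matrix (Fin 2) (Fin 2) k)) h
  simp only [Matrix.smul_mul, Matrix.mul_assoc, Units.inv_mul, Matrix.mul_one] at h'
  rw [← h', smul_smul, inv_mul_cancel₀ hd, one_smul]

/-- A subgroup without stable line over `K` contains an element with distinct eigenvalues. -/
theorem exists_mem_regular [IsAlgClosed K] (h2 : (2 : k) ≠ 0) (r : G →* GL (Fin 2) k)
    (N : Subgroup G) (hirr : ¬ StableLineOver K r N) :
    ∃ σ ∈ N, disc (r σ : Matrix (Fin 2) (Fin 2) k) ≠ 0 := by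
  have hw0 : (!![0, 1; 0, 0] : Matrix (Fin 2) (Fin 2) k) ≠ 0 := by
    intro h
    have := congrFun (congrFun h 0) 1
    simp at this
  have hw : (!![0, 1; 0, 0] : Matrix (Fin 2) (Fin 2) k).trace = 0 := by
    simp [Matrix.trace_fin_two]
  obtain ⟨σ, hσ, hd, -⟩ := exists_mem_regular_trace_ne_zero (K := K) h2 r N hirr hw0 hw
  exact ⟨σ, hσ, hd⟩

end Fermat.Agent.S56x.Group.SigmaChoice
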