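/-
P-S56 (Taylor–Wiles primes), block (D) GROUP THEORY, file D4a (helper98, statements by helper19).

Upper unitriangular Sylow subgroups of a group represented in `GL₂(k)`, `char k = p`:

* `upperUnip r`: the subgroup of elements whose matrix is upper unitriangular; it is a `p`-group
  when `r` is injective (`isPGroup_upperUnip`);
* (Y1) `sylow_mem_iff_upperUnip`: an upper unitriangular Sylow `p`-subgroup consists of ALL upper
  unitriangular elements;
* (Y2) `mem_normalizer_of_lower_left_eq_zero`: upper triangular elements normalise it;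
* (Y2') `lower_left_eq_zero_of_mem_normalizer`: conversely the normaliser of a nontrivial upper
  unitriangular subgroup consists of upper triangular elements;
* (Y4) `card_paramSubgroup`: the parameter group has the cardinality of the subgroup.
-/
import Mathlib
import Fermat.Agent.S56x.Group.SylowParam

set_option autoImplicit false

open Matrix

namespace Fermat.Agent.S56x.Group

variable {k : Type*} [Field k] {G : Type*} [Group G] (r : G →* GL (Fin 2) k)

theorem upperU_nsmul (a : k) (n : ℕ) : upperU a ^ n = upperU (n • a) := by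
  induction n with
  | zero => rw [pow_zero, zero_smul, upperU_zero]
  | succ n ih => rw [pow_succ, ih, succ_nsmul, upperU_add]

theorem val_inv_eq_upperU_neg {g : GL (Fin 2) k} {a : k}
    (h : (g : Matrix (Fin 2) (Fin 2) k) = upperU a) :
    ((g⁻¹ : GL (Fin 2) k) : Matrix (Fin 2) (Fin 2) k) = upperU (-a) :=
  Units.inv_eq_of_mul_eq_one_right (by rw [h, upperU_mul_neg])

/-- the subgroup of elements acting through upper unitriangular matrices. -/
def upperUnip : Subgroup G where
  carrier := {x | ∃ a : k, ((r x : GL (Fin 2) k) : Matrix (Fin 2) (Fin 2) k) = upperU a}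
  one_mem' := ⟨0, by rw [map_one, Units.val_one, upperU_zero]⟩
  mul_mem' := by
    rintro x y ⟨a, ha⟩ ⟨b, hb⟩
    exact ⟨a + b, by rw [map_mul, Units.val_mul, ha, hb, upperU_add]⟩
  inv_mem' := by
    rintro x ⟨a, ha⟩
    exact ⟨-a, by rw [map_inv]; exact val_inv_eq_upperU_neg ha⟩

theorem mem_upperUnip {x : G} :
    x ∈ upperUnip r ↔ ∃ a : k, ((r x : GL (Fin 2) k) : Matrix (Fin 2) (Fin 2) k) = upperU a :=
  Iff.rfl

variable {r}

theorem isPGroup_upperUnip {p : ℕ} [Fact p.Prime] [CharP k p] (hr : Function.Injective r) :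
    IsPGroup p (upperUnip r) := by
  rintro ⟨x, a, ha⟩
  refine ⟨1, ?_⟩
  apply Subtype.ext
  rw [pow_one, Subgroup.coe_pow, Subgroup.coe_one]
  apply hr
  apply Units.ext
  rw [map_pow, Units.val_pow_eq_pow_val, ha, upperU_nsmul, map_one, Units.val_one,
    nsmul_eq_mul, CharP.cast_eq_zero k p, zero_mul, upperU_zero]

/-- **(Y1)** an upper unitriangular Sylow `p`-subgroup is the group of all upper unitriangular
elements. -/
theorem sylow_mem_iff_upperUnip {p : ℕ} [Fact p.Prime] [CharP k p] (hr : Function.Injective r)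
    (P : Sylow p G)
    (hPu : ∀ x ∈ P, ∃ a : k, ((r x : GL (Fin 2) k) : Matrix (Fin 2) (Fin 2) k) = upperU a)
    (x : G) :
    x ∈ P ↔ ∃ a : k, ((r x : GL (Fin 2) k) : Matrix (Fin 2) (Fin 2) k) = upperU a := by
  have hle : (P : Subgroup G) ≤ upperUnip r := fun y hy => hPu y hy
  have heq : upperUnip r = (P : Subgroup G) := P.is_maximal' (isPGroup_upperUnip hr) hle
  constructor
  · exact fun hx => hPu x hx
  · intro hx
    have : x ∈ upperUnip r := hx
    rw [heq] at this
    exact this

/-- the lower left entry of the inverse of an upper triangular element vanishes. -/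
theorem lower_left_inv_eq_zero {n : G}
    (h10 : ((r n : GL (Fin 2) k) : Matrix (Fin 2) (Fin 2) k) 1 0 = 0) :
    ((r n⁻¹ : GL (Fin 2) k) : Matrix (Fin 2) (Fin 2) k) 1 0 = 0 := by
  set N := ((r n : GL (Fin 2) k) : Matrix (Fin 2) (Fin 2) k) with hN
  have hdet : N.det ≠ 0 := by
    have := (Matrix.GeneralLinearGroup.det (r n)).ne_zero
    rwa [Matrix.GeneralLinearGroup.val_det_apply] at this
  have h00 : N 0 0 ≠ 0 := by
    intro h00
    apply hdet
    rw [Matrix.det_fin_two, h10, h00]
    ring
  have hmul : ((r n⁻¹ : GL (Fin 2) k) : Matrix (Fin 2) (Fin 2) k) * N = 1 := by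
    rw [hN, ← Units.val_mul, ← map_mul, inv_mul_cancel, map_one, Units.val_one]
  have e := congrFun (congrFun hmul 1) 0
  simp only [Matrix.mul_apply, Fin.sum_univ_two, h10, mul_zero, add_zero,
    Matrix.one_apply_ne (show (1 : Fin 2) ≠ 0 by decide)] at e
  exact (mul_eq_zero.mp e).resolve_right h00

/-- conjugation by an upper triangular element preserves upper unitriangular matrices. -/
theorem conj_upperU_of_lower_left_eq_zero {n x : G} {a : k}
    (h10 : ((r n : GL (Fin 2) k) : Matrix (Fin 2) (Fin 2) k) 1 0 = 0)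
    (hx : ((r x : GL (Fin 2) k) : Matrix (Fin 2) (Fin 2) k) = upperU a) :
    ((r (n * x * n⁻¹) : GL (Fin 2) k) : Matrix (Fin 2) (Fin 2) k) =
      upperU (((r n : GL (Fin 2) k) : Matrix (Fin 2) (Fin 2) k) 0 0 /
        ((r n : GL (Fin 2) k) : Matrix (Fin 2) (Fin 2) k) 1 1 * a) := by
  set N := ((r n : GL (Fin 2) k) : Matrix (Fin 2) (Fin 2) k) with hN
  have hdet : N.det ≠ 0 := by
    have := (Matrix.GeneralLinearGroup.det (r n)).ne_zero
    rwa [Matrix.GeneralLinearGroup.val_det_apply] at this
  have h11 : N 1 1 ≠ 0 := by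
    intro h11
    apply hdet
    rw [Matrix.det_fin_two, h10, h11]
    ring
  rw [map_mul, map_mul, Units.val_mul, Units.val_mul, hx, ← hN,
    upper_mul_upperU h10 h11, Matrix.mul_assoc, map_inv, ← Units.val_mul, mul_inv_cancel,
    Units.val_one, Matrix.mul_one]

variable (r) in
/-- **(Y2)** upper triangular elements normalise the group of all upper unitriangular elements. -/
theorem mem_normalizer_of_lower_left_eq_zero (P : Subgroup G)
    (hP : ∀ x, x ∈ P ↔ ∃ a : k, ((r x : GL (Fin 2) k) : Matrix (Fin 2) (Fin 2) k) = upperU a)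
    {n : G} (h10 : ((r n : GL (Fin 2) k) : Matrix (Fin 2) (Fin 2) k) 1 0 = 0) :
    n ∈ Subgroup.normalizer (P : Set G) := by
  rw [Subgroup.mem_normalizer_iff]
  intro x
  constructor
  · intro hx
    obtain ⟨a, ha⟩ := (hP x).mp hx
    exact (hP _).mpr ⟨_, conj_upperU_of_lower_left_eq_zero h10 ha⟩
  · intro hx
    obtain ⟨b, hb⟩ := (hP _).mp hx
    have h := conj_upperU_of_lower_left_eq_zero (lower_left_inv_eq_zero h10) hb
    have e : n⁻¹ * (n * x * n⁻¹) * n⁻¹⁻¹ = x := by group
    rw [e] at h
    exact (hP x).mpr ⟨_, h⟩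

/-- **(Y2')** the normaliser of a nontrivial upper unitriangular subgroup is upper triangular. -/
theorem lower_left_eq_zero_of_mem_normalizer (hr : Function.Injective r) (P : Subgroup G)
    (hPu : ∀ x ∈ P, ∃ a : k, ((r x : GL (Fin 2) k) : Matrix (Fin 2) (Fin 2) k) = upperU a)
    (hne : P ≠ ⊥) {n : G} (hn : n ∈ Subgroup.normalizer (P : Set G)) :
    ((r n : GL (Fin 2) k) : Matrix (Fin 2) (Fin 2) k) 1 0 = 0 := by
  obtain ⟨x, hxP, hx1⟩ := (P.bot_or_exists_ne_one).resolve_left hne
  obtain ⟨a, ha⟩ := hPu x hxP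
  have ha0 : a ≠ 0 := by
    rintro rfl
    apply hx1
    apply hr
    apply Units.ext
    rw [ha, upperU_zero, map_one, Units.val_one]
  have hmem : n * x * n⁻¹ ∈ P := (Subgroup.mem_normalizer_iff.mp hn x).mp hxP
  obtain ⟨a', ha'⟩ := hPu _ hmem
  have h : ((r n : GL (Fin 2) k) : Matrix (Fin 2) (Fin 2) k) * upperU a =
      upperU a' * ((r n : GL (Fin 2) k) : Matrix (Fin 2) (Fin 2) k) := by
    rw [← ha', ← ha, ← Units.val_mul, ← Units.val_mul, ← map_mul, ← map_mul]
    congr 2
    group
  exact (lower_left_eq_zero_of_mul_upperU ha0 h).1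

/-- **(Y4)** the parameter group is in bijection with the subgroup. -/
theorem card_paramSubgroup (hr : Function.Injective r) (P : Subgroup G)
    (hPu : ∀ x ∈ P, ∃ a : k, ((r x : GL (Fin 2) k) : Matrix (Fin 2) (Fin 2) k) = upperU a) :
    Nat.card (paramSubgroup r P) = Nat.card P := by
  refine Nat.card_eq_of_bijective
    (fun t : paramSubgroup r P => (⟨sec r P t, sec_mem r P t⟩ : P)) ⟨?_, ?_⟩
  · intro s t hst
    have h1 : sec r P s = sec r P t := congrArg Subtype.val hst
    have h2 : upperU (s : k) = upperU (t : k) := by rw [← r_sec r P s, ← r_sec r P t, h1]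
    exact Subtype.ext (upperU_injective h2)
  · rintro ⟨x, hx⟩
    obtain ⟨a, ha⟩ := hPu x hx
    refine ⟨⟨a, ⟨x, hx, ha⟩⟩, ?_⟩
    apply Subtype.ext
    exact (eq_sec P hr (t := ⟨a, ⟨x, hx, ha⟩⟩) ha).symm

end Fermat.Agent.S56x.Group
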