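/-
P-S56 (Taylor–Wiles primes), block (D) GROUP THEORY, file D3d (helper68).

The semisimple classes of the class equation for `G ≤ GL₂(k)`:
* `card_normalizer_centralizer_le_two`: `|N(C(g))| ≤ 2 |C(g)|` if `disc g ≠ 0`;
* `card_centralizer_of_generator`: if `t ∈ G` is upper triangular with distinct diagonal entries
  and `t₀₀/t₁₁` generates the group of all ratios, then `|C(t)| = |Z| · |K¹|`;
* `exists_generator_of_two_le_card_ratios`: such a `t` exists if `|K¹| ≥ 2`.
-/
import Mathlib
import Fermat.Agent.S56x.Group.TorusDefs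

set_option autoImplicit false

open Matrix

namespace Fermat.Agent.S56x.Group

open Fermat.Agent.S48x.Group

variable {k : Type*} [Field k] {G : Subgroup (GL (Fin 2) k)}

theorem central_of_mem_scalarSubgroup {z : G} (hz : z ∈ scalarSubgroup G) (g : G) :
    z * g = g * z := by
  apply matOf_injective
  rw [matOf_mul, matOf_mul]
  obtain ⟨c, hc⟩ := (mem_scalarSubgroup z).mp hz
  rw [hc]
  simp

theorem comm_of_commute_nonscalar {g : G} (hg : g ∉ scalarSubgroup G) {x y : G}
    (hx : g * x = x * g) (hy : g * y = y * g) : x * y = y * x := by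
  apply matOf_injective
  rw [matOf_mul, matOf_mul]
  have hx' : matOf x * matOf g = matOf g * matOf x := by
    rw [← matOf_mul, ← matOf_mul, hx]
  have hy' : matOf y * matOf g = matOf g * matOf y := by
    rw [← matOf_mul, ← matOf_mul, hy]
  exact mul_comm_of_commute_nonscalar hg hx' hy'

/-- semisimple tori have index at most `2` in their normaliser. -/
theorem card_normalizer_centralizer_le_two [Finite k] {g : G} (hD : disc2 (matOf g) ≠ 0) :
    Nat.card (Subgroup.normalizer
        ((Subgroup.centralizer ({g} : Set G) : Subgroup G) : Set G))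
      ≤ 2 * Nat.card (Subgroup.centralizer ({g} : Set G)) := by
  classical
  haveI : Fintype G := Fintype.ofFinite _
  have key : ∃ g' : G, ∀ x : G,
      g * (x * g * x⁻¹) = (x * g * x⁻¹) * g → x * g * x⁻¹ = g ∨ x * g * x⁻¹ = g' := by
    by_cases hex : ∃ y : G, matOf y = (matOf g).trace • (1 : Matrix (Fin 2) (Fin 2) k) - matOf g
    · obtain ⟨y, hy⟩ := hex
      refine ⟨y, fun x hx => ?_⟩
      have hc : matOf (x * g * x⁻¹) * matOf g = matOf g * matOf (x * g * x⁻¹) := by
        rw [← matOf_mul, ← matOf_mul, hx]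
      have hconj : matOf (x * g * x⁻¹)
          = ((x : GL (Fin 2) k) : Matrix (Fin 2) (Fin 2) k) * matOf g
            * (((x : GL (Fin 2) k)⁻¹ : GL (Fin 2) k) : Matrix (Fin 2) (Fin 2) k) := by
        simp [matOf]
      have ht : (matOf (x * g * x⁻¹)).trace = (matOf g).trace := by
        rw [hconj]; exact Matrix.trace_units_conj _ _
      have hd : (matOf (x * g * x⁻¹)).det = (matOf g).det := by
        rw [hconj]; exact Matrix.det_units_conj _ _
      rcases eq_or_eq_conj_of_same_trace_det hD hc ht hd with h | h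
      · exact Or.inl (matOf_injective G h)
      · exact Or.inr (matOf_injective G (h.trans hy.symm))
    · refine ⟨g, fun x hx => ?_⟩
      have hc : matOf (x * g * x⁻¹) * matOf g = matOf g * matOf (x * g * x⁻¹) := by
        rw [← matOf_mul, ← matOf_mul, hx]
      have hconj : matOf (x * g * x⁻¹)
          = ((x : GL (Fin 2) k) : Matrix (Fin 2) (Fin 2) k) * matOf g
            * (((x : GL (Fin 2) k)⁻¹ : GL (Fin 2) k) : Matrix (Fin 2) (Fin 2) k) := by
        simp [matOf]
      have ht : (matOf (x * g * x⁻¹)).trace = (matOf g).trace := by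
        rw [hconj]; exact Matrix.trace_units_conj _ _
      have hd : (matOf (x * g * x⁻¹)).det = (matOf g).det := by
        rw [hconj]; exact Matrix.det_units_conj _ _
      rcases eq_or_eq_conj_of_same_trace_det hD hc ht hd with h | h
      · exact Or.inl (matOf_injective G h)
      · exact absurd ⟨_, h⟩ hex
  obtain ⟨g', hg'⟩ := key
  exact card_normalizer_centralizer_le hg'

theorem disc2_of_mem_borel {t : G} (ht : t ∈ borel G) :
    disc2 (matOf t) = (matOf t 0 0 - matOf t 1 1) ^ 2 := by
  rw [disc2, trace_two, det_of_mem_borel ht]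
  ring

theorem centralizer_le_borel {t : G} (ht : t ∈ borel G) (hne : matOf t 0 0 ≠ matOf t 1 1) :
    Subgroup.centralizer ({t} : Set G) ≤ borel G := by
  intro x hx
  rw [mem_centralizer_singleton, commute_iff_matOf] at hx
  exact lower_eq_zero_of_commute ((mem_borel t).mp ht) hne hx

theorem rat_pow (t : borel G) (i : ℤ) : rat G (t ^ i) = rat G t ^ i := map_zpow _ _ _

/-- the order of the centraliser of a generator of the torus. -/
theorem card_centralizer_of_generator [Finite k] {t : G} (ht : t ∈ borel G)
    (hne : matOf t 0 0 ≠ matOf t 1 1)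
    (hgen : ∀ g : borel G, rat G g ∈ Subgroup.zpowers (rat G ⟨t, ht⟩)) :
    Nat.card (Subgroup.centralizer ({t} : Set G))
      = Nat.card (scalarSubgroup G) * Nat.card (ratios G) := by
  have hle := centralizer_le_borel ht hne
  apply card_eq_card_ker_mul_card_image (Subgroup.centralizer ({t} : Set G)) (scalarSubgroup G)
    ((rat G).comp (Subgroup.inclusion hle))
  · intro g
    constructor
    · intro hg
      have hgc : g ∈ Subgroup.centralizer ({t} : Set G) := by
        rw [mem_centralizer_singleton]
        exact (central_of_mem_scalarSubgroup hg t).symm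
      refine ⟨hgc, ?_⟩
      show rat G ⟨g, hle hgc⟩ = 1
      rw [rat_eq_one_iff]
      exact (scalar_le_zunip hg).2
    · rintro ⟨hgc, h1⟩
      have h1' : rat G ⟨g, hle hgc⟩ = 1 := h1
      rw [rat_eq_one_iff] at h1'
      have h00 : matOf g 0 0 = matOf g 1 1 := h1'
      have h10 : matOf g 1 0 = 0 := hle hgc
      rw [mem_centralizer_singleton, commute_iff_matOf] at hgc
      have h01 := congrFun (congrFun hgc 0) 1
      simp only [mul_apply_two, h10, (mem_borel t).mp ht, h00] at h01
      have e1 : (matOf t 0 0 - matOf t 1 1) * matOf g 0 1 = 0 := by linear_combination h01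
      have hg01 : matOf g 0 1 = 0 := by
        rcases mul_eq_zero.mp e1 with h | h
        · exact absurd (sub_eq_zero.mp h) hne
        · exact h
      rw [mem_scalarSubgroup, isScalarMat_iff]
      exact ⟨hg01, h10, h00⟩
  · intro x
    constructor
    · rintro ⟨g, hg, rfl⟩
      obtain ⟨i, hi⟩ := Subgroup.mem_zpowers_iff.mp (hgen ⟨g, hg⟩)
      have hti : t ^ i ∈ Subgroup.centralizer ({t} : Set G) := by
        apply Subgroup.zpow_mem
        rw [mem_centralizer_singleton]
      refine ⟨⟨t ^ i, hti⟩, ?_⟩
      have e : (rat G).comp (Subgroup.inclusion hle) ⟨t ^ i, hti⟩ = rat G ⟨g, hg⟩ := by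
        rw [← hi, ← rat_pow]
        rfl
      rw [e, rat_val]
    · rintro ⟨h, rfl⟩
      exact ⟨h.1, hle h.2, rat_val _⟩

/-- the group of ratios is cyclic: a generating upper triangular element. -/
theorem exists_generator_of_two_le_card_ratios [Finite k] (h2 : 2 ≤ Nat.card (ratios G)) :
    ∃ t : G, ∃ ht : t ∈ borel G, matOf t 0 0 ≠ matOf t 1 1 ∧
      ∀ g : borel G, rat G g ∈ Subgroup.zpowers (rat G ⟨t, ht⟩) := by
  haveI : IsCyclic (rat G).range := isCyclic_subgroup_units _
  obtain ⟨y, hy⟩ := IsCyclic.exists_generator (α := (rat G).range)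
  obtain ⟨t, ht⟩ := y.2
  have hgen : ∀ g : borel G, rat G g ∈ Subgroup.zpowers (rat G t) := by
    intro g
    have := hy ⟨rat G g, ⟨g, rfl⟩⟩
    obtain ⟨i, hi⟩ := Subgroup.mem_zpowers_iff.mp this
    rw [Subgroup.mem_zpowers_iff]
    refine ⟨i, ?_⟩
    have := congrArg Subtype.val hi
    rw [Subgroup.coe_zpow] at this
    rw [ht]
    exact this
  refine ⟨t.1, t.2, ?_, hgen⟩
  intro heq
  -- then all ratios are `1`
  have hone : rat G t = 1 := (rat_eq_one_iff t).mpr heq
  have hall : ∀ x ∈ ratios G, x = 1 := by
    rintro x ⟨g, hg, rfl⟩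
    have := hgen ⟨g, hg⟩
    rw [hone, Subgroup.zpowers_one_eq_bot, Subgroup.mem_bot] at this
    rw [← rat_val ⟨g, hg⟩, this, Units.val_one]
  have hfin : (ratios G).Finite := Set.toFinite _
  have : Nat.card (ratios G) ≤ 1 := by
    rw [Nat.card_coe_set_eq]
    have hsub : ratios G ⊆ {1} := fun x hx => hall x hx
    calc (ratios G).ncard ≤ ({1} : Set k).ncard := Set.ncard_le_ncard hsub
      _ = 1 := Set.ncard_singleton _
  omega

end Fermat.Agent.S56x.Group
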