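/-
P-S56 (Taylor–Wiles primes), block (D) GROUP THEORY (helper7): the numerical end of the class
equation analysis for a finite irreducible `G ≤ SL₂(k)` with non-normal Sylow `p`-subgroup of
order `q ≥ 4` (pure arithmetic in `ℕ` and `ℚ`, Mathlib only).

Class equation: `1 - 1/g = (q - 1)/(q k') + (k' - 1)/(k' w(K)) + ∑_{i ∈ I} (e i - 1)/(e i * w i)`
with `g = |G/Z| = q k' (1 + q s)`, `s ≥ 1`, `k' ∣ q - 1`, `w ∈ {1, 2}`, `e i ≥ 2`.

* `sub_one_dvd_two_mul_of_class_equation`: then `(q - 1) ∣ 2 k'` (in particular `w(K) = 2`,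
  `k' ≥ 2`, there is exactly one further class, and `s = 1`);
* `exists_unique_class`, `sub_one_dvd_two_mul`: the two steps;
* `lt_succ_sq_of_sub_one_dvd`: `q < (k' + 1)²`, the hypothesis of `UnipotentH1`.
-/
import Mathlib

set_option autoImplicit false

namespace Fermat.Agent.S56x.Group.TorusNumerics

/-- the Diophantine end of the class equation analysis: `e (1 + s (q - 2)) = k' (1 + q s)` with
`k' ∣ q - 1`, `s ≥ 1`, `q ≥ 4` forces `s = 1` and `(q - 1) ∣ 2 k'`. -/
theorem sub_one_dvd_two_mul {q k' s e : ℕ} (hq : 4 ≤ q) (hk : k' ∣ q - 1) (hs : 1 ≤ s)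
    (h : e * (1 + s * (q - 2)) = k' * (1 + q * s)) : s = 1 ∧ (q - 1) ∣ 2 * k' := by
  obtain ⟨t, rfl⟩ : ∃ t, q = t + 4 := ⟨q - 4, by omega⟩
  have hq1 : t + 4 - 1 = t + 3 := by omega
  have hq2 : t + 4 - 2 = t + 2 := by omega
  rw [hq2] at h
  rw [hq1] at hk ⊢
  have hk0 : 0 < k' := Nat.pos_of_dvd_of_pos hk (by omega)
  have hkle : k' ≤ t + 3 := Nat.le_of_dvd (by omega) hk
  set a := 1 + s * (t + 2) with ha
  have hb : 1 + (t + 4) * s = a + 2 * s := by
    rw [ha]
    ring
  have hcop : Nat.Coprime a s := by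
    rw [ha, Nat.coprime_comm]
    have h1 : 1 + s * (t + 2) = (t + 2) * s + 1 := by ring
    rw [h1]
    exact (Nat.coprime_mul_right_add_right s 1 (t + 2)).mpr (Nat.coprime_one_right s)
  have hdvd : a ∣ k' * (a + 2 * s) := by
    rw [← hb, ← h]
    exact Dvd.intro_left e rfl
  have hdvd2 : a ∣ k' * 2 * s := by
    have : k' * (a + 2 * s) = k' * a + k' * 2 * s := by ring
    rw [this] at hdvd
    exact (Nat.dvd_add_right (Dvd.intro_left k' rfl)).mp hdvd
  have hdvd3 : a ∣ k' * 2 := hcop.dvd_of_dvd_mul_right hdvd2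
  have hale : a ≤ k' * 2 := Nat.le_of_dvd (by omega) hdvd3
  have hs2 : s ≤ 2 := by
    by_contra hs3
    push Not at hs3
    have : 3 * (t + 2) ≤ s * (t + 2) := Nat.mul_le_mul_right _ hs3
    omega
  have hs1 : s = 1 := by
    by_contra hne
    have hs2' : s = 2 := by omega
    have ha2 : a = 2 * t + 5 := by
      rw [ha, hs2']
      ring
    have hodd : Nat.Coprime a 2 := by
      rw [ha2]
      have : (2 * t + 5) = 2 * (t + 2) + 1 := by ring
      rw [this, Nat.coprime_comm]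
      exact (Nat.coprime_mul_left_add_right 2 1 (t + 2)).mpr (by norm_num)
    have : a ∣ k' := hodd.dvd_of_dvd_mul_right hdvd3
    have := Nat.le_of_dvd hk0 this
    omega
  refine ⟨hs1, ?_⟩
  have ha1 : a = t + 3 := by
    rw [ha, hs1]
    ring
  rw [← ha1, mul_comm]
  exact hdvd3

/-- the class equation with one unipotent class (`(q - 1)/(q k')`), the class of the torus `K` with
`w(K) = 2` (`(k' - 1)/(2 k')`) and further torus classes `(e i - 1)/(e i * w i)`, `i ∈ I`: there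
is exactly one further class, it has `w = 2` and `e (1 + s (q - 2)) = k' (1 + q s)`. -/
theorem exists_unique_class {ι : Type*} (I : Finset ι) (e w : ι → ℕ) {q k' s : ℕ}
    (hq : 3 ≤ q) (hk : 2 ≤ k') (hs : 1 ≤ s) (he : ∀ i ∈ I, 2 ≤ e i)
    (hw : ∀ i ∈ I, w i = 1 ∨ w i = 2)
    (h : (1 : ℚ) - 1 / ((q : ℚ) * k' * (1 + q * s)) = ((q : ℚ) - 1) / (q * k')
      + ((k' : ℚ) - 1) / (2 * k') + ∑ i ∈ I, ((e i : ℚ) - 1) / (e i * w i)) :
    ∃ i, I = {i} ∧ w i = 2 ∧ e i * (1 + s * (q - 2)) = k' * (1 + q * s) := by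
  have hq' : (3 : ℚ) ≤ q := by exact_mod_cast hq
  have hk' : (2 : ℚ) ≤ k' := by exact_mod_cast hk
  have hs' : (1 : ℚ) ≤ s := by exact_mod_cast hs
  have hq0 : (0 : ℚ) < q := by linarith
  have hk0 : (0 : ℚ) < k' := by linarith
  have hg0 : (0 : ℚ) < 1 + q * s := by positivity
  -- the remainder
  set R : ℚ := ∑ i ∈ I, ((e i : ℚ) - 1) / (e i * w i) with hR
  have hReq : R = 1 / 2 - ((q : ℚ) - 2) / (2 * q * k') - 1 / ((q : ℚ) * k' * (1 + q * s)) := by
    have : R = 1 - 1 / ((q : ℚ) * k' * (1 + q * s)) - ((q : ℚ) - 1) / (q * k')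
        - ((k' : ℚ) - 1) / (2 * k') := by linarith
    rw [this]
    field_simp
    ring
  have hRlt : R < 1 / 2 := by
    rw [hReq]
    have h1 : 0 ≤ ((q : ℚ) - 2) / (2 * q * k') := by
      apply div_nonneg
      · linarith
      · positivity
    have h2 : 0 < 1 / ((q : ℚ) * k' * (1 + q * s)) := by positivity
    linarith
  have hRpos : 0 < R := by
    rw [hReq]
    have h1 : ((q : ℚ) - 2) / (2 * q * k') < 1 / 4 := by
      rw [div_lt_iff₀ (by positivity)]
      nlinarith
    have h2 : 1 / ((q : ℚ) * k' * (1 + q * s)) ≤ 1 / 24 := by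
      rw [div_le_div_iff₀ (by positivity) (by norm_num)]
      have : (4 : ℚ) ≤ 1 + q * s := by nlinarith
      have : (6 : ℚ) ≤ q * k' := by nlinarith
      nlinarith
    linarith
  -- each term is at least `1/4`
  have hterm : ∀ i ∈ I, (1 / 4 : ℚ) ≤ ((e i : ℚ) - 1) / (e i * w i) := by
    intro i hi
    have he' : (2 : ℚ) ≤ e i := by exact_mod_cast he i hi
    have hw' : (w i : ℚ) = 1 ∨ (w i : ℚ) = 2 := by
      rcases hw i hi with h | h
      · left; exact_mod_cast h
      · right; exact_mod_cast h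
    rcases hw' with h | h
    · rw [h, mul_one, le_div_iff₀ (by linarith)]
      linarith
    · rw [h, le_div_iff₀ (by linarith)]
      linarith
  -- the number of classes
  have hcard : I.card = 1 := by
    have hle := Finset.card_nsmul_le_sum I _ (1 / 4 : ℚ) hterm
    rw [← hR, nsmul_eq_mul] at hle
    have hne : I.card ≠ 0 := by
      intro h0
      rw [Finset.card_eq_zero] at h0
      rw [hR, h0, Finset.sum_empty] at hRpos
      exact lt_irrefl _ hRpos
    have hlt : I.card < 2 := by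
      by_contra h2
      push Not at h2
      have : (2 : ℚ) ≤ I.card := by exact_mod_cast h2
      linarith
    omega
  obtain ⟨i, hi⟩ := Finset.card_eq_one.mp hcard
  refine ⟨i, hi, ?_⟩
  have hiI : i ∈ I := by rw [hi]; exact Finset.mem_singleton_self i
  have he' : (2 : ℚ) ≤ e i := by exact_mod_cast he i hiI
  have hRi : R = ((e i : ℚ) - 1) / (e i * w i) := by rw [hR, hi, Finset.sum_singleton]
  have hw2 : w i = 2 := by
    rcases hw i hiI with h1 | h2
    · exfalso
      have : (w i : ℚ) = 1 := by exact_mod_cast h1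
      rw [this, mul_one] at hRi
      have : (1 / 2 : ℚ) ≤ ((e i : ℚ) - 1) / e i := by
        rw [le_div_iff₀ (by linarith)]
        linarith
      linarith
    · exact h2
  refine ⟨hw2, ?_⟩
  have hw2' : (w i : ℚ) = 2 := by exact_mod_cast hw2
  rw [hw2', hReq] at hRi
  have hzero : (1 / 2 - ((q : ℚ) - 2) / (2 * q * k') - 1 / ((q : ℚ) * k' * (1 + q * s)))
      - ((e i : ℚ) - 1) / (e i * 2) = 0 := by linarith
  have hident : (q : ℚ) * ((e i : ℚ) * (1 + s * (q - 2)) - k' * (1 + q * s))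
      = -(2 * e i * q * k' * (1 + q * s)) *
        ((1 / 2 - ((q : ℚ) - 2) / (2 * q * k') - 1 / ((q : ℚ) * k' * (1 + q * s)))
          - ((e i : ℚ) - 1) / (e i * 2)) := by
    have he0 : (e i : ℚ) ≠ 0 := by linarith
    field_simp
    ring
  rw [hzero, mul_zero] at hident
  have hfin : (e i : ℚ) * (1 + s * (q - 2)) = k' * (1 + q * s) := by
    have := (mul_eq_zero.mp hident).resolve_left hq0.ne'
    linarith
  have hcast : ((q - 2 : ℕ) : ℚ) = (q : ℚ) - 2 := by
    rw [Nat.cast_sub (by omega)]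
    norm_num
  have : ((e i * (1 + s * (q - 2)) : ℕ) : ℚ) = ((k' * (1 + q * s) : ℕ) : ℚ) := by
    push_cast
    rw [hcast]
    exact hfin
  exact_mod_cast this

/-- each torus term of the class equation is at least `1/4`. -/
theorem quarter_le_term {e w : ℕ} (he : 2 ≤ e) (hw : w = 1 ∨ w = 2) :
    (1 / 4 : ℚ) ≤ ((e : ℚ) - 1) / (e * w) := by
  have he' : (2 : ℚ) ≤ e := by exact_mod_cast he
  rcases hw with h | h
  · rw [h, Nat.cast_one, mul_one, le_div_iff₀ (by linarith)]
    linarith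
  · rw [h, Nat.cast_ofNat, le_div_iff₀ (by linarith)]
    linarith

/-- a sum of torus terms is `0` or at least `1/4`. -/
theorem sum_terms_eq_zero_or_quarter_le {ι : Type*} (I : Finset ι) (e w : ι → ℕ)
    (he : ∀ i ∈ I, 2 ≤ e i) (hw : ∀ i ∈ I, w i = 1 ∨ w i = 2) :
    ∑ i ∈ I, ((e i : ℚ) - 1) / (e i * w i) = 0 ∨
      (1 / 4 : ℚ) ≤ ∑ i ∈ I, ((e i : ℚ) - 1) / (e i * w i) := by
  rcases I.eq_empty_or_nonempty with h0 | ⟨i, hi⟩
  · left
    rw [h0, Finset.sum_empty]
  · right
    calc (1 / 4 : ℚ) ≤ ((e i : ℚ) - 1) / (e i * w i) := quarter_le_term (he i hi) (hw i hi)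
      _ ≤ ∑ i ∈ I, ((e i : ℚ) - 1) / (e i * w i) :=
        Finset.single_le_sum (f := fun i => ((e i : ℚ) - 1) / (e i * w i))
          (fun j hj => le_trans (by norm_num) (quarter_le_term (he j hj) (hw j hj))) hi

/-- **class equation analysis.** `G ≤ SL₂(k)` with `|G/Z| = q k' (1 + q s)`, `s ≥ 1` (the Sylow
`p`-subgroup of order `q ≥ 4` is not normal), `k' = |(G ∩ B)/ZP|` dividing `q - 1`, one unipotent
class, the class of the torus `K` (with `w(K) = wK ∈ {1, 2}`; its term vanishes if `k' = 1`) and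
further torus classes: then `(q - 1) ∣ 2 k'`. -/
theorem sub_one_dvd_two_mul_of_class_equation {ι : Type*} (I : Finset ι) (e w : ι → ℕ)
    {q k' s wK : ℕ} (hq : 4 ≤ q) (hk : 1 ≤ k') (hkq : k' ∣ q - 1) (hs : 1 ≤ s)
    (hwK : wK = 1 ∨ wK = 2) (he : ∀ i ∈ I, 2 ≤ e i) (hw : ∀ i ∈ I, w i = 1 ∨ w i = 2)
    (h : (1 : ℚ) - 1 / ((q : ℚ) * k' * (1 + q * s)) = ((q : ℚ) - 1) / (q * k')
      + ((k' : ℚ) - 1) / (k' * wK) + ∑ i ∈ I, ((e i : ℚ) - 1) / (e i * w i)) :
    (q - 1) ∣ 2 * k' := by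
  have hq' : (4 : ℚ) ≤ q := by exact_mod_cast hq
  have hk' : (1 : ℚ) ≤ k' := by exact_mod_cast hk
  have hs' : (1 : ℚ) ≤ s := by exact_mod_cast hs
  have hq0 : (0 : ℚ) < q := by linarith
  have hk0 : (0 : ℚ) < k' := by linarith
  have hg0 : (0 : ℚ) < 1 + q * s := by positivity
  rcases hwK with h1 | h2
  · -- `w(K) = 1` (or `k' = 1`): impossible
    exfalso
    rw [h1, Nat.cast_one, mul_one] at h
    have hsum : ∑ i ∈ I, ((e i : ℚ) - 1) / (e i * w i) = (s : ℚ) / (k' * (1 + q * s)) := by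
      have : ∑ i ∈ I, ((e i : ℚ) - 1) / (e i * w i)
          = 1 - 1 / ((q : ℚ) * k' * (1 + q * s)) - ((q : ℚ) - 1) / (q * k')
            - ((k' : ℚ) - 1) / k' := by linarith
      rw [this]
      field_simp
      ring
    have hpos : (0 : ℚ) < (s : ℚ) / (k' * (1 + q * s)) := by positivity
    have hlt : (s : ℚ) / (k' * (1 + q * s)) < 1 / 4 := by
      rw [div_lt_div_iff₀ (by positivity) (by norm_num)]
      nlinarith
    rcases sum_terms_eq_zero_or_quarter_le I e w he hw with h0 | h4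
    · rw [hsum] at h0
      linarith
    · rw [hsum] at h4
      linarith
  · by_cases hk1 : k' = 1
    · -- `k' = 1`: the term of `K` vanishes, same contradiction
      exfalso
      subst hk1
      have hsum : ∑ i ∈ I, ((e i : ℚ) - 1) / (e i * w i) = (s : ℚ) / (1 + q * s) := by
        have : ∑ i ∈ I, ((e i : ℚ) - 1) / (e i * w i)
            = 1 - 1 / ((q : ℚ) * (1 : ℕ) * (1 + q * s)) - ((q : ℚ) - 1) / (q * (1 : ℕ))
              - (((1 : ℕ) : ℚ) - 1) / ((1 : ℕ) * wK) := by linarith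
        rw [this]
        push_cast
        field_simp
        ring
      have hpos : (0 : ℚ) < (s : ℚ) / (1 + q * s) := by positivity
      have hlt : (s : ℚ) / (1 + q * s) < 1 / 4 := by
        rw [div_lt_div_iff₀ (by positivity) (by norm_num)]
        nlinarith
      rcases sum_terms_eq_zero_or_quarter_le I e w he hw with h0 | h4
      · rw [hsum] at h0
        linarith
      · rw [hsum] at h4
        linarith
    · have hk2 : 2 ≤ k' := by omega
      rw [h2] at h
      have h' : (1 : ℚ) - 1 / ((q : ℚ) * k' * (1 + q * s)) = ((q : ℚ) - 1) / (q * k')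
          + ((k' : ℚ) - 1) / (2 * k') + ∑ i ∈ I, ((e i : ℚ) - 1) / (e i * w i) := by
        rw [h]
        push_cast
        ring
      obtain ⟨i, -, -, hi⟩ := exists_unique_class I e w (by omega) hk2 hs he hw h'
      exact (sub_one_dvd_two_mul hq hkq hs hi).2

/-- numerical consequence: `q < (k' + 1)²`. -/
theorem lt_succ_sq_of_sub_one_dvd {q k' : ℕ} (hq : 4 ≤ q) (hk : 1 ≤ k')
    (h : (q - 1) ∣ 2 * k') : q < (k' + 1) ^ 2 := by
  have hle : q - 1 ≤ 2 * k' := Nat.le_of_dvd (by omega) h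
  have h1 : q ≤ 2 * k' + 1 := by omega
  have h2 : 1 * 1 ≤ k' * k' := Nat.mul_le_mul hk hk
  have h3 : (k' + 1) ^ 2 = k' * k' + 2 * k' + 1 := by ring
  omega

end Fermat.Agent.S56x.Group.TorusNumerics
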